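import Fermat.Agent.FlatMatch.BLR

set_option autoImplicit false

/-!
# Modules satisfying the Cayley–Hamilton relations of a two-dimensional representation

The results of `FlatMatch/BLR.lean` without the hypothesis that `2` is a unit: `T` any commutative
ring, `V` free of rank two with `T[G] → End_T V` surjective, `X` a `T[G]`-module on which every `g`
satisfies `g + det(ρ g) g⁻¹ = tr(ρ g)`; then the action on `X` factors through `End_T V`.
-/

namespace Fermat.Agent.P2.BLR

open Fermat.FlatMatch

variable {T V X G : Type*} [CommRing T] [AddCommGroup V] [Module T V] [AddCommGroup X] [Module T X]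
  [Group G]

variable {ρ : G →* Module.End T V} {ξ : G →* Module.End T X}

/-- Consequence of the polarised identity: commutators kill the kernel. -/
theorem commutator_mul_eq_zero
    (hrel : ∀ g, ξ g + LinearMap.det (ρ g) • ξ g⁻¹ = LinearMap.trace T V (ρ g) • 1)
    {x : Module.End T X} (hx : (0, x) ∈ graph ρ ξ) {y z : Module.End T V × Module.End T X}
    (hy : y ∈ graph ρ ξ) (hz : z ∈ graph ρ ξ) : (y.2 * z.2 - z.2 * y.2) * x = 0 := by
  have key : ∀ {y : Module.End T V × Module.End T X}, y ∈ graph ρ ξ →
      x * y.2 = LinearMap.trace T V y.1 • x - y.2 * x := by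
    intro y hy
    have := polarised hrel hx hy
    simp only [zero_mul, map_zero, zero_smul, zero_add, sub_self] at this
    rw [add_zero] at this
    exact eq_sub_of_add_eq this
  have hyz := key (mul_mem_graph hy hz)
  simp only [Prod.snd_mul, Prod.fst_mul] at hyz
  have e1 : x * (y.2 * z.2) = LinearMap.trace T V y.1 • (x * z.2) - y.2 * (x * z.2) := by
    rw [← mul_assoc, key hy, sub_mul, smul_mul_assoc, mul_assoc]
  rw [key hz] at e1
  rw [e1] at hyz
  have hp := congrArg (· * x) (polarised hrel hy hz)
  simp only [add_mul, smul_mul_assoc, one_mul] at hp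
  have h3 : (y.2 * z.2 - z.2 * y.2) * x = 2 • (y.2 * z.2 * x) -
      (y.2 * z.2 * x + z.2 * y.2 * x) := by
    rw [sub_mul]; abel
  rw [h3, hp]
  simp only [mul_sub, smul_sub, mul_smul_comm, smul_smul, sub_smul, ← mul_assoc] at hyz ⊢
  rw [← sub_eq_zero] at hyz
  rw [← hyz]
  module

section Basis

variable (b : Module.Basis (Fin 2) T V)

include b in
theorem det_add (A B : Module.End T V) :
    LinearMap.det (A + B) = LinearMap.det A + LinearMap.det B +
      (LinearMap.trace T V A * LinearMap.trace T V B - LinearMap.trace T V (A * B)) := by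
  rw [← LinearMap.det_toMatrix b, ← LinearMap.det_toMatrix b A, ← LinearMap.det_toMatrix b B,
    LinearMap.trace_eq_matrix_trace T b A, LinearMap.trace_eq_matrix_trace T b B,
    LinearMap.trace_eq_matrix_trace T b (A * B), map_add, LinearMap.toMatrix_mul]
  generalize LinearMap.toMatrix b b A = M
  generalize LinearMap.toMatrix b b B = N
  simp only [Matrix.det_fin_two, Matrix.trace_fin_two, Matrix.add_apply, Matrix.mul_apply,
    Fin.sum_univ_two]
  ring

include b in
/-- the Cayley–Hamilton identity on `X`. -/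
theorem sq_of_mem_graph
    (hrel : ∀ g, ξ g + LinearMap.det (ρ g) • ξ g⁻¹ = LinearMap.trace T V (ρ g) • 1)
    {s : Module.End T V × Module.End T X} (hs : s ∈ graph ρ ξ) :
    s.2 * s.2 = LinearMap.trace T V s.1 • s.2 - LinearMap.det s.1 • (1 : Module.End T X) := by
  induction hs using Submodule.span_induction with
  | mem x hx =>
    obtain ⟨g, rfl⟩ := hx
    have h1 := congrArg (ξ g * ·) (hrel g)
    simp only [mul_add, mul_smul_comm, ← map_mul, mul_inv_cancel, map_one, mul_one] at h1
    rw [map_mul] at h1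
    exact eq_sub_of_add_eq h1
  | zero =>
    have h0 : LinearMap.det (0 : Module.End T V) = 0 := by
      rw [← LinearMap.det_toMatrix b, map_zero, Matrix.det_fin_two]
      simp
    simp [h0]
  | add x y hx hy hx' hy' =>
    have hp := polarised hrel hx hy
    simp only [Prod.snd_add, Prod.fst_add, map_add]
    rw [det_add b]
    have h1 : (x.2 + y.2) * (x.2 + y.2) = x.2 * x.2 + y.2 * y.2 + (x.2 * y.2 + y.2 * x.2) := by
      rw [mul_add, add_mul, add_mul]; abel
    rw [h1, hx', hy', hp]
    module
  | smul r x hx hx' =>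
    have h0 : LinearMap.det (r • x.1) = r ^ 2 * LinearMap.det x.1 := by
      rw [← LinearMap.det_toMatrix b, ← LinearMap.det_toMatrix b x.1, map_smul, Matrix.det_smul,
        Fintype.card_fin]
    have := congrArg ((r ^ 2) • ·) hx'
    simp only [Prod.smul_snd, Prod.smul_fst, smul_mul_assoc, mul_smul_comm, map_smul,
      smul_eq_mul, smul_sub, smul_smul, h0] at this ⊢
    rw [← pow_two, this]
    module

theorem eq_zero_of_mem_graph (b : Module.Basis (Fin 2) T V)
    (hrel : ∀ g, ξ g + LinearMap.det (ρ g) • ξ g⁻¹ = LinearMap.trace T V (ρ g) • 1)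
    (hspan : Submodule.span T (Set.range ρ) = ⊤) {x : Module.End T X}
    (hx : (0, x) ∈ graph ρ ξ) : x = 0 := by
  obtain ⟨e12, h12⟩ := exists_lift (ξ := ξ) hspan (unitEnd b 0 1)
  obtain ⟨e21, h21⟩ := exists_lift (ξ := ξ) hspan (unitEnd b 1 0)
  obtain ⟨d, hd⟩ := exists_lift (ξ := ξ) hspan (unitEnd b 0 0 - unitEnd b 1 1)
  -- the element `k`
  have hk : ((0 : Module.End T V), 1 - d * (e12 * e21 - e21 * e12)) ∈ graph ρ ξ := by
    have h3 : (unitEnd b 0 1, e12) * (unitEnd b 1 0, e21) -
        (unitEnd b 1 0, e21) * (unitEnd b 0 1, e12) ∈ graph ρ ξ :=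
      Submodule.sub_mem _ (mul_mem_graph h12 h21) (mul_mem_graph h21 h12)
    have h4 := Submodule.sub_mem _ one_mem_graph (mul_mem_graph hd h3)
    convert h4 using 1
    refine Prod.ext ?_ rfl
    show (0 : Module.End T V) = 1 - (unitEnd b 0 0 - unitEnd b 1 1) *
      (unitEnd b 0 1 * unitEnd b 1 0 - unitEnd b 1 0 * unitEnd b 0 1)
    rw [unitEnd_mul, unitEnd_mul, if_pos rfl, if_pos rfl, sub_mul, mul_sub, mul_sub, unitEnd_mul,
      unitEnd_mul, unitEnd_mul, unitEnd_mul, ← unitEnd_sum b]
    simp
  have hkill : ∀ {x : Module.End T X}, (0, x) ∈ graph ρ ξ →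
      (1 - d * (e12 * e21 - e21 * e12)) * x = x := by
    intro x hx
    have := commutator_mul_eq_zero hrel hx h12 h21
    simp only at this
    rw [sub_mul, one_mul, mul_assoc, this, mul_zero, sub_zero]
  set k := 1 - d * (e12 * e21 - e21 * e12) with hkdef
  have hk0 : k = 0 := by
    have h5 := hkill hk
    have h6 := sq_of_mem_graph b hrel hk
    simp only [map_zero, zero_smul, zero_sub] at h6
    have h0 : LinearMap.det (0 : Module.End T V) = 0 := by
      rw [← LinearMap.det_toMatrix b, map_zero, Matrix.det_fin_two]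
      simp
    rw [h5, h0, zero_smul, neg_zero] at h6
    exact h6
  rw [← hkill hx, hk0, zero_mul]

/-- **Boston–Lenstra–Ribet, any characteristic**: the action on `X` factors through `End V`. -/
theorem exists_algHom (b : Module.Basis (Fin 2) T V)
    (hrel : ∀ g, ξ g + LinearMap.det (ρ g) • ξ g⁻¹ = LinearMap.trace T V (ρ g) • 1)
    (hspan : Submodule.span T (Set.range ρ) = ⊤) :
    ∃ Ψ : Module.End T V →ₐ[T] Module.End T X, ∀ g, Ψ (ρ g) = ξ g := by
  have huniq : ∀ {A : Module.End T V} {a a' : Module.End T X}, (A, a) ∈ graph ρ ξ →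
      (A, a') ∈ graph ρ ξ → a = a' := by
    intro A a a' h h'
    have h3 := Submodule.sub_mem _ h h'
    rw [Prod.mk_sub_mk, sub_self] at h3
    exact sub_eq_zero.mp (eq_zero_of_mem_graph b hrel hspan h3)
  choose f hf using exists_lift (ξ := ξ) hspan
  refine ⟨AlgHom.ofLinearMap
    { toFun := f
      map_add' := fun A B => huniq (hf _) (Submodule.add_mem _ (hf A) (hf B))
      map_smul' := fun r A => huniq (hf _) (Submodule.smul_mem _ r (hf A)) }
    (huniq (hf _) one_mem_graph) (fun A B => huniq (hf _) (mul_mem_graph (hf A) (hf B))), ?_⟩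
  intro g
  exact huniq (hf _) (mem_graph g)

end Basis

end Fermat.Agent.P2.BLR
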