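import Mathlib
import Fermat.Agent.P2.Sel.Defs
import Fermat.Prelude.Def_FLTPrelim_ModularRep
import Fermat.Prelude.Def_FLTPrelim_Ramification
import Fermat.Prelude.Def_CuspForm_HeckeEvalForms
import Fermat.Prelude.Def_ModularCurve_HeckeModule
import Fermat.Prelude.Def_EllipticCurve_FrobeniusTrace

/-!
# Route P2: common definitions and the official interface between the blocks

Notation: `S` = set of bad primes of the auxiliary curve `W`, `Q` = set of auxiliary primes,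
`M = lev S Q = ∏ S · ∏ Q`, `K = ℚ(√-∏ S)`, `P = HeckeAlg = ℤ[t_ℓ]`.
-/

set_option autoImplicit false

noncomputable section

open ModularCurve CongruenceSubgroup NumberField

namespace Fermat.Agent.P2

open Sel

local notation "Ω" => AlgebraicClosure ℚ

/-! ## The final statement and the auxiliary curve (Block 1) -/

/-- **Output of P2.** -/
def P2Stmt : Prop :=
  ∀ W : WeierstrassCurve ℤ, W.Δ ≠ 0 → W.IsSemistableModel → (2 : ℤ) ∣ W.Δ →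
    W.ModRepIsIrreducible 3 → ∃ M₀ : ℕ, 0 < M₀ ∧ Squarefree M₀ ∧ W.IsResiduallyModularOfLevel 3 M₀

/-- the set of bad primes -/
def badSet (W : WeierstrassCurve ℤ) : Finset ℕ := W.Δ.natAbs.primeFactors

/-- `S` contains two different odd elements, one of them `≡ 1 mod 12`. -/
def Rich (S : Finset ℕ) : Prop :=
  ∃ q₁ ∈ S, ∃ q₀ ∈ S, q₁ % 12 = 1 ∧ q₀ ≠ 2 ∧ q₀ ≠ q₁

/-- **The auxiliary curve** (output of Block 1). -/
structure Curve (W : WeierstrassCurve ℤ) : Prop where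
  neg : W.Δ < 0
  ss : W.IsSemistableModel
  two : (2 : ℤ) ∣ W.Δ
  odd : ∀ q : ℕ, q.Prime → (q : ℤ) ∣ W.Δ → Odd (padicValInt q W.Δ)
  irr : W.ModRepIsIrreducible 2
  twelve : ∃ q₁ q₀ : ℕ, (q₁.Prime ∧ (q₁ : ℤ) ∣ W.Δ) ∧ (q₀.Prime ∧ (q₀ : ℤ) ∣ W.Δ) ∧
    q₁ % 12 = 1 ∧ q₀ ≠ 2 ∧ q₀ ≠ q₁

/-- Output of Block 1. -/
def Block1Out : Prop :=
  ∀ W : WeierstrassCurve ℤ, W.Δ ≠ 0 → W.IsSemistableModel → (2 : ℤ) ∣ W.Δ →
    ∃ W' : WeierstrassCurve ℤ, Curve W' ∧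
      ∀ ℓ : ℕ, ℓ.Prime → W.IsGoodPrimeFor ℓ → W'.IsGoodPrimeFor ℓ → ℓ ≠ 3 →
        (3 : ℤ) ∣ (W'.apOfModel ℓ - W.apOfModel ℓ)

/-- Modularity of the auxiliary curve (output of everything else). -/
def CurveModular : Prop :=
  ∀ W : WeierstrassCurve ℤ, Curve W → W.IsModularModelOfLevel (∏ q ∈ badSet W, q)

/-! ## Local Galois conditions -/

/-- `g ∈ D_P` acts nontrivially on `𝔽_{q²}`. -/
def IsOddAt (P : ValuationSubring Ω) (q : ℕ) (g : GQ) : Prop :=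
  ∃ hg : g ∈ P.decompositionSubgroup ℚ, ∃ x : IsLocalRing.ResidueField P,
    x ^ q ^ 2 = x ∧ (⟨g, hg⟩ : P.decompositionSubgroup ℚ) • x ≠ x

open Classical in
/-- The unramified character of order two on `D_P` with `Frob_q ↦ e` (`e ^ 2 = 1`). -/
def eta (P : ValuationSubring Ω) (q : ℕ) {A : Type*} [One A] (e : A) (g : GQ) : A :=
  if IsOddAt P q g then e else 1

/-- **The Steinberg relation** at `P` (over `q`) with sign `e`:
`(ρ g - η(g) d(g)) (ρ h - η(h)) = 0` for `g, h ∈ D_P`; `d` is the determinant. -/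
def StRel {A E : Type*} [CommRing A] [Ring E] [Algebra A E] (P : ValuationSubring Ω) (q : ℕ)
    (e : A) (d : GQ → A) (ρ : GQ → E) : Prop :=
  ∀ g ∈ P.decompositionSubgroup ℚ, ∀ h ∈ P.decompositionSubgroup ℚ,
    (ρ g - algebraMap A E (eta P q e g * d g)) * (ρ h - algebraMap A E (eta P q e h)) = 0

/-- `d` is the `2`-adic cyclotomic character (in a ring where it makes sense). -/
def IsCyc2 {A : Type*} [CommRing A] (d : GQ → A) : Prop :=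
  ∀ (n : ℕ) (g : GQ) (b : ℕ), (∀ μ : Ω, μ ^ 2 ^ n = 1 → g μ = μ ^ b) →
    (2 : A) ^ n ∣ d g - b

/-- **The `2`-adic Galois representation of the auxiliary curve** (output of Block 8). -/
structure GalData (S : Finset ℕ) (a : ℕ → ℤ) where
  ρ : GQ →* GL (Fin 2) ℤ_[2]
  cont : ∀ n : ℕ, ∃ L : IntermediateField ℚ Ω, FiniteDimensional ℚ L ∧
    ∀ h : GQ, (∀ x ∈ L, h x = x) → ∀ i j, (2 : ℤ_[2]) ^ n ∣
      ((ρ h : Matrix (Fin 2) (Fin 2) ℤ_[2]) - 1) i j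
  cyc : IsCyc2 fun g => (ρ g : Matrix (Fin 2) (Fin 2) ℤ_[2]).det
  unram : ∀ ℓ : ℕ, ℓ.Prime → ℓ ∉ S → ∀ P : ValuationSubring Ω, P.LiesOverPrime ℓ →
    ∀ g ∈ P.inertiaSubgroupIn ℚ, ρ g = 1
  trace_frob : ∀ ℓ : ℕ, ℓ.Prime → ℓ ∉ S → ∀ P : ValuationSubring Ω, P.LiesOverPrime ℓ →
    ∀ φ : GQ, P.IsFrobeniusAt φ ℓ → (ρ φ : Matrix (Fin 2) (Fin 2) ℤ_[2]).trace = a ℓ
  s : ℕ → ℤ
  s_eq : ∀ q, s q = 1 ∨ s q = -1
  st : ∀ q ∈ S, ∀ P : ValuationSubring Ω, P.LiesOverPrime q →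
    StRel P q (s q : ℤ_[2]) (fun g => (ρ g : Matrix (Fin 2) (Fin 2) ℤ_[2]).det)
      (fun g => (ρ g : Matrix (Fin 2) (Fin 2) ℤ_[2]))
  /-- inertia at bad primes acts non trivially modulo `2` -/
  ram : ∀ q ∈ S, ∀ P : ValuationSubring Ω, P.LiesOverPrime q →
    ∃ t ∈ P.inertiaSubgroupIn ℚ, ∃ i j, ¬ (2 : ℤ_[2]) ∣
      ((ρ t : Matrix (Fin 2) (Fin 2) ℤ_[2]) - 1) i j
  /-- complex conjugation acts non trivially modulo `2` -/
  conj : ∃ i j, ¬ (2 : ℤ_[2]) ∣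
      ((ρ complexConjugation : Matrix (Fin 2) (Fin 2) ℤ_[2]) - 1) i j
  /-- surjectivity modulo `2` -/
  surj : ∀ B : GL (Fin 2) (ZMod 2), ∃ g : GQ, ∀ i j,
    PadicInt.toZMod ((ρ g : Matrix (Fin 2) (Fin 2) ℤ_[2]) i j) = (B : Matrix _ _ _) i j
  /-- the discriminant field is `ℚ(√-∏ S)` -/
  disc : ∀ r : Ω, r ^ 2 = -((∏ q ∈ S, q : ℕ) : Ω) → ∀ g : GQ, g r = r ↔
    ((∀ i j, PadicInt.toZMod (((ρ g : Matrix (Fin 2) (Fin 2) ℤ_[2]) - 1) i j) = 0) ∨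
      PadicInt.toZMod ((ρ g : Matrix (Fin 2) (Fin 2) ℤ_[2]).trace) = 1)

/-- Output of Block 8. -/
def Block8Out : Prop :=
  ∀ W : WeierstrassCurve ℤ, Curve W → Nonempty (GalData (badSet W) fun ℓ => W.apOfModel ℓ)

/-! ## The residual representation -/

/-- reduction modulo `2` of a `2`-adic representation, as a representation on `𝔽₂²` -/
def resRep (ρ : GQ →* GL (Fin 2) ℤ_[2]) : Representation (ZMod 2) GQ (Fin 2 → ZMod 2) :=
  (Matrix.toLinAlgEquiv' : Matrix (Fin 2) (Fin 2) (ZMod 2) ≃ₐ[ZMod 2] _).toMonoidHom.comp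
    ((Units.coeHom _).comp ((Matrix.GeneralLinearGroup.map PadicInt.toZMod).comp ρ))

/-- `q` is an auxiliary prime for level `2^n`: all Frobenius elements at `q` are conjugate to
complex conjugation modulo `2^n`. -/
def AuxPrime (ρ : GQ →* GL (Fin 2) ℤ_[2]) (S : Finset ℕ) (n : ℕ) (q : ℕ) : Prop :=
  q.Prime ∧ q ∉ S ∧ ∀ P : ValuationSubring Ω, P.LiesOverPrime q → ∀ φ : GQ,
    P.IsFrobeniusAt φ q → ∃ g : GQ, ∀ i j, (2 : ℤ_[2]) ^ n ∣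
      ((ρ φ : Matrix (Fin 2) (Fin 2) ℤ_[2]) -
        (ρ (g * complexConjugation * g⁻¹) : Matrix (Fin 2) (Fin 2) ℤ_[2])) i j

/-- Output of Block 2 (2a + 2b): for all `n`, `B` there is a set `Q` of auxiliary primes, of
cardinality independent of `n`, which kills the Selmer group. -/
def Block2Out : Prop :=
  ∀ (S : Finset ℕ) (a : ℕ → ℤ) (D : GalData S a), (∀ q ∈ S, q.Prime) → 2 ∈ S → Rich S →
    ∃ r : ℕ, ∀ n B : ℕ, ∃ Q : Finset ℕ, Q.card = r ∧ (∀ q ∈ Q, AuxPrime D.ρ S n q) ∧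
      (∀ q ∈ Q, B < q) ∧
      ∀ ξ ∈ Selmer (resRep D.ρ) S Q, ∃ x : Fin 2 → ZMod 2, ξ = cob (resRep D.ρ) x

/-! ## Hecke side -/

/-- the level -/
def lev (S Q : Finset ℕ) : ℕ := (∏ q ∈ S, q) * ∏ q ∈ Q, q

/-- the anemic Hecke algebra: generated by the `t_ℓ`, `ℓ ∤ M`. -/
def anem (M : ℕ) : Subalgebra ℤ HeckeAlg :=
  Algebra.adjoin ℤ {t | ∃ ℓ : Nat.Primes, ¬ (ℓ : ℕ) ∣ M ∧ t = heckeGen ℓ}

/-- the eigensystem of a sequence `a` -/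
def lam (a : ℕ → ℤ) : HeckeAlg →+* ℤ := (MvPolynomial.aeval fun ℓ : Nat.Primes => a ℓ).toRingHom

/-- forms `f` of level `M` with `U_q f = ε q • f` for `q ∈ Q`, and `U_2 (U_2 f) = f` -/
def signForms (M : ℕ) [NeZero M] (Q : Finset ℕ) (ε : ℕ → ℤ) :
    Submodule ℂ (CuspForm (Gamma0 M) 2) where
  carrier := {f | (∀ q : Nat.Primes, (q : ℕ) ∈ Q →
    ((CuspForm.heckeEvalForms M 2 (heckeGen q) : CuspForm.heckeAlgebra M 2 ∅) :
      Module.End ℂ (CuspForm (Gamma0 M) 2)) f = (ε q : ℂ) • f) ∧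
    ((CuspForm.heckeEvalForms M 2 (heckeGen ⟨2, Nat.prime_two⟩ * heckeGen ⟨2, Nat.prime_two⟩) :
      CuspForm.heckeAlgebra M 2 ∅) : Module.End ℂ (CuspForm (Gamma0 M) 2)) f = f}
  zero_mem' := ⟨fun q _ => by rw [map_zero, smul_zero], by rw [map_zero]⟩
  add_mem' := fun ha hb => ⟨fun q hq => by rw [map_add, ha.1 q hq, hb.1 q hq, smul_add],
    by rw [map_add, ha.2, hb.2]⟩
  smul_mem' := fun c f hf => ⟨fun q hq => by rw [map_smul, hf.1 q hq, smul_comm],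
    by rw [map_smul, hf.2]⟩

/-- `x` kills `signForms M Q ε` -/
def Kills (M : ℕ) [NeZero M] (Q : Finset ℕ) (ε : ℕ → ℤ) (x : HeckeAlg) : Prop :=
  ∀ f ∈ signForms M Q ε, ((CuspForm.heckeEvalForms M 2 x : CuspForm.heckeAlgebra M 2 ∅) :
      Module.End ℂ (CuspForm (Gamma0 M) 2)) f = 0

section ClassGroup

variable (K : Type) [Field K] [NumberField K]

open Classical in
/-- the image of `t_ℓ` in `𝔽₂[Cl(K)]`: the sum of the classes of the primes of norm `ℓ`. -/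
def clT (ℓ : ℕ) : MonoidAlgebra (ZMod 2) (ClassGroup (𝓞 K)) :=
  ∑ᶠ 𝔭 : {𝔭 : nonZeroDivisors (Ideal (𝓞 K)) // Ideal.absNorm (𝔭 : Ideal (𝓞 K)) = ℓ},
    MonoidAlgebra.single (ClassGroup.mk0 (𝔭 : nonZeroDivisors (Ideal (𝓞 K)))) 1

/-- `ℤ[t_ℓ] → 𝔽₂[Cl(K)]` -/
def clHecke : HeckeAlg →+* MonoidAlgebra (ZMod 2) (ClassGroup (𝓞 K)) :=
  MvPolynomial.eval₂Hom (Int.castRingHom _) fun ℓ : Nat.Primes => clT K ℓ

end ClassGroup

/-- Output of Blocks 3 + 4: quaternion algebras, Smith theory and theta series.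
`K = ℚ(√-∏ S)`, `Q` a set of odd primes inert in `K`. -/
def Block34Out : Prop :=
  ∀ (S Q : Finset ℕ) (K : Type) [Field K] [NumberField K] (r : K) [NeZero (lev S Q)],
    Module.finrank ℚ K = 2 → r ^ 2 = -((∏ q ∈ S, q : ℕ) : K) →
    (∀ q ∈ S, q.Prime) → 2 ∈ S → Rich S →
    (∀ q ∈ Q, q.Prime ∧ q ∉ S ∧ q ≠ 2 ∧ q ≠ 3 ∧ ¬ IsSquare (-((∏ p ∈ S, p : ℕ) : ZMod q))) →
    ∀ ε : ℕ → ℤ, (∀ q, ε q = 1 ∨ ε q = -1) →
    ∀ (Λ : Type) [CommRing Λ] (β : MonoidAlgebra (ZMod 2) (ClassGroup (𝓞 K)) →+* Λ),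
      (∀ d : ℕ, d ∣ ∏ q ∈ Q, q → d ≠ 1 → ∃ ℓ : ℕ, ℓ.Prime ∧ ¬ ℓ ∣ lev S Q ∧
        ¬ IsSquare (-(d : ZMod ℓ)) ∧ IsUnit (β (clT K ℓ))) →
      (∃ ℓ : ℕ, ℓ.Prime ∧ ¬ ℓ ∣ lev S Q ∧ IsUnit (β (clT K ℓ))) →
      ∀ x ∈ anem (lev S Q), Kills (lev S Q) Q ε x → β (clHecke K x) = 0

/-! ## Systems of eigenvalues and the `R = T` statement -/

/-- the ideal of `anem M` killing `signForms M Q ε` -/
def annForms (M : ℕ) [NeZero M] (Q : Finset ℕ) (ε : ℕ → ℤ) : Ideal (anem M) where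
  carrier := {x | Kills M Q ε x}
  zero_mem' := fun f _ => by
    rw [ZeroMemClass.coe_zero, map_zero, ZeroMemClass.coe_zero, LinearMap.zero_apply]
  add_mem' := fun {x y} hx hy f hf => by
    rw [AddMemClass.coe_add, map_add, AddMemClass.coe_add, LinearMap.add_apply, hx f hf, hy f hf,
      add_zero]
  smul_mem' := fun c x hx f hf => by
    rw [smul_eq_mul, MulMemClass.coe_mul, map_mul, MulMemClass.coe_mul, Module.End.mul_apply,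
      hx f hf, map_zero]

/-- The `2`-adic systems of eigenvalues of level `M` with signs `ε` on `Q`, residually `a`. -/
def Systems (M : ℕ) [NeZero M] (Q : Finset ℕ) (ε : ℕ → ℤ) (a : ℕ → ℤ) : Type :=
  {f : (anem M ⧸ annForms M Q ε) →+* PadicAlgCl 2 //
    ∀ x : anem M, ‖f (Ideal.Quotient.mk _ x)‖ < 1 ↔ Even (lam a x)}

/-- **Output of Block 5 (`R = T`)**: for the sets `Q` of Block 2 the eigensystem of the curve
modulo `2^n` occurs in `signForms`, and the number of systems is bounded independently of `n`. -/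
def Block5Out : Prop :=
  ∀ (S : Finset ℕ) (a : ℕ → ℤ) (D : GalData S a), (∀ q ∈ S, q.Prime) → 2 ∈ S → Rich S →
    ∃ h : ℕ, ∀ (n : ℕ) (Q : Finset ℕ) [NeZero (lev S Q)], 2 ≤ n →
      (∀ q ∈ Q, AuxPrime D.ρ S n q) → (∀ q ∈ Q, 3 < q) →
      (∀ ξ ∈ Selmer (resRep D.ρ) S Q, ∃ x : Fin 2 → ZMod 2, ξ = cob (resRep D.ρ) x) →
      ∀ ε : ℕ → ℤ, (∀ q, ε q = 1 ∨ ε q = -1) →
        (∀ x ∈ anem (lev S Q), Kills (lev S Q) Q ε x → (2 : ℤ) ^ n ∣ lam a x) ∧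
        Finite (Systems (lev S Q) Q ε a) ∧ Nat.card (Systems (lev S Q) Q ε a) ≤ h

/-! ## From level `M` down to level `∏ S`, and the end -/

/-- `y` is a point of exact order `2^k` of `J₀(M)` on which `T_ℓ` acts as `a ℓ` for `ℓ ∤ M`,
`ℓ ≤ B`. -/
def EltAt (M : ℕ) [NeZero M] (a : ℕ → ℤ) (B k : ℕ) : Prop :=
  ∃ y : JZero M, 2 ^ k • y = 0 ∧ (0 < k → 2 ^ (k - 1) • y ≠ 0) ∧
    ∀ ℓ : Nat.Primes, ¬ (ℓ : ℕ) ∣ M → (ℓ : ℕ) ≤ B → heckeOperatorBar M ℓ y = a ℓ • y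

/-- **Output of Block 6** (6c + 6d: element of order `2^k` of `J₀(M)` from `R = T`, then the
Mazur principle modulo `2^k` at all `q ∈ Q`). -/
def Block6Out : Prop :=
  ∀ (S : Finset ℕ) (a : ℕ → ℤ) (D : GalData S a) [NeZero (∏ q ∈ S, q)],
    (∀ q ∈ S, q.Prime) → 2 ∈ S →
    (∃ r h : ℕ, ∀ n B : ℕ, ∃ (Q : Finset ℕ) (_ : NeZero (lev S Q)), Q.card = r ∧
      (∀ q ∈ Q, AuxPrime D.ρ S n q) ∧ (∀ q ∈ Q, B < q) ∧
      ∃ ε : ℕ → ℤ, (∀ q, ε q = 1 ∨ ε q = -1) ∧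
        (∀ x ∈ anem (lev S Q), Kills (lev S Q) Q ε x → (2 : ℤ) ^ n ∣ lam a x) ∧
        Finite (Systems (lev S Q) Q ε a) ∧ Nat.card (Systems (lev S Q) Q ε a) ≤ h) →
    ∀ k B : ℕ, EltAt (∏ q ∈ S, q) a B k

/-- **Output of Block 7b**: points of order `2^k` for all `k` give modularity. -/
def Block7bOut : Prop :=
  ∀ (N : ℕ) [NeZero N] (a : ℕ → ℤ), (∀ k B : ℕ, EltAt N a B k) →
    ∃ f : CuspForm (Gamma0 N) 2, f.IsNormalizedEigenform ∧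
      ∀ ℓ : ℕ, ℓ.Prime → ¬ ℓ ∣ N → ModularFormClass.qCoeff f ℓ = (a ℓ : ℂ)

end Fermat.Agent.P2
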