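import Fermat.Agent.P2.Defs

/-!
# Route P2: final assembly (conditional on the outputs of the blocks)
-/

set_option autoImplicit false

noncomputable section

open ModularCurve CongruenceSubgroup NumberField

namespace Fermat.Agent.P2

theorem badSet_prime {W : WeierstrassCurve ℤ} {q : ℕ} (h : q ∈ badSet W) : q.Prime :=
  Nat.prime_of_mem_primeFactors h

theorem mem_badSet {W : WeierstrassCurve ℤ} (hW : W.Δ ≠ 0) {q : ℕ} :
    q ∈ badSet W ↔ q.Prime ∧ (q : ℤ) ∣ W.Δ := by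
  rw [badSet, Nat.mem_primeFactors]
  constructor
  · rintro ⟨h1, h2, -⟩
    exact ⟨h1, Int.natCast_dvd.mpr h2⟩
  · rintro ⟨h1, h2⟩
    exact ⟨h1, Int.natCast_dvd.mp h2, Int.natAbs_ne_zero.mpr hW⟩

theorem prod_badSet_ne_zero (W : WeierstrassCurve ℤ) : ∏ q ∈ badSet W, q ≠ 0 :=
  Finset.prod_ne_zero_iff.mpr fun _ hq => (badSet_prime hq).ne_zero

theorem prime_dvd_prod_iff {S : Finset ℕ} (hS : ∀ q ∈ S, q.Prime) {ℓ : ℕ} (hℓ : ℓ.Prime) :
    ℓ ∣ ∏ q ∈ S, q ↔ ℓ ∈ S := by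
  constructor
  · intro h
    obtain ⟨q, hq, hd⟩ := (Nat.Prime.prime hℓ).exists_mem_finset_dvd h
    rwa [(Nat.prime_dvd_prime_iff_eq hℓ (hS q hq)).mp hd]
  · intro h
    exact Finset.dvd_prod_of_mem _ h

theorem squarefree_prod {S : Finset ℕ} (hS : ∀ q ∈ S, q.Prime) : Squarefree (∏ q ∈ S, q) := by
  induction S using Finset.induction_on with
  | empty => simp
  | insert p S hp ih =>
    rw [Finset.prod_insert hp]
    have h1 : p.Prime := hS p (Finset.mem_insert_self _ _)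
    have h2 : ∀ q ∈ S, q.Prime := fun q hq => hS q (Finset.mem_insert_of_mem hq)
    refine (Nat.squarefree_mul ?_).mpr ⟨h1.prime.squarefree, ih h2⟩
    refine (Nat.Prime.coprime_iff_not_dvd h1).mpr fun h => hp ?_
    exact (prime_dvd_prod_iff h2 h1).mp h

/-- The auxiliary curves are modular. -/
theorem curveModular (h8 : Block8Out) (h2 : Block2Out) (h5 : Block5Out) (h6 : Block6Out)
    (h7 : Block7bOut) : CurveModular := by
  intro W hW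
  have hΔ : W.Δ ≠ 0 := hW.neg.ne
  obtain ⟨D⟩ := h8 W hW
  have hS : ∀ q ∈ badSet W, q.Prime := fun q hq => badSet_prime hq
  have h2S : 2 ∈ badSet W := (mem_badSet hΔ).mpr ⟨Nat.prime_two, by exact_mod_cast hW.two⟩
  have h12 : Rich (badSet W) := by
    obtain ⟨q₁, q₀, hq₁, hq₀, h⟩ := hW.twelve
    exact ⟨q₁, (mem_badSet hΔ).mpr hq₁, q₀, (mem_badSet hΔ).mpr hq₀, h⟩
  haveI : NeZero (∏ q ∈ badSet W, q) := ⟨prod_badSet_ne_zero W⟩
  obtain ⟨h, hh⟩ := h5 _ _ D hS h2S h12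
  obtain ⟨r, hr⟩ := h2 _ _ D hS h2S h12
  have key : ∀ k B : ℕ, EltAt (∏ q ∈ badSet W, q) (fun ℓ => W.apOfModel ℓ) B k := by
    refine h6 _ _ D hS h2S ⟨r, h, fun n B => ?_⟩
    obtain ⟨Q, hQ1, hQ2, hQ3, hQ4⟩ := hr (n + 2) (B + 3)
    haveI : NeZero (lev (badSet W) Q) :=
      ⟨mul_ne_zero (prod_badSet_ne_zero W)
        (Finset.prod_ne_zero_iff.mpr fun q hq => (hQ2 q hq).1.ne_zero)⟩
    have hQ5 : ∀ q ∈ Q, 3 < q := fun q hq => by have := hQ3 q hq; omega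
    obtain ⟨e1, e2, e3⟩ := hh (n + 2) Q (by omega) hQ2 hQ5 hQ4 (fun _ => 1) (fun _ => Or.inl rfl)
    refine ⟨Q, inferInstance, hQ1, fun q hq => ?_, fun q hq => ?_, fun _ => 1,
      fun _ => Or.inl rfl, fun x hx hk => ?_, e2, e3⟩
    · obtain ⟨a1, a2, a3⟩ := hQ2 q hq
      refine ⟨a1, a2, fun P hP φ hφ => ?_⟩
      obtain ⟨g, hg⟩ := a3 P hP φ hφ
      exact ⟨g, fun i j => (pow_dvd_pow _ (by omega)).trans (hg i j)⟩
    · have := hQ3 q hq; omega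
    · exact (pow_dvd_pow _ (by omega)).trans (e1 x hx hk)
  obtain ⟨f, hf1, hf2⟩ := h7 _ _ key
  exact ⟨f, hf1, fun p hp _ hpN => hf2 p hp hpN⟩

/-- **P2.** -/
theorem p2Stmt (h1 : Block1Out) (hm : CurveModular) : P2Stmt := by
  intro W hΔ hss h2 _
  obtain ⟨W', hW', hcong⟩ := h1 W hΔ hss h2
  have hΔ' : W'.Δ ≠ 0 := hW'.neg.ne
  obtain ⟨f, hf1, hf2⟩ := hm W' hW'
  have hS : ∀ q ∈ badSet W', q.Prime := fun q hq => badSet_prime hq
  refine ⟨∏ q ∈ badSet W', q, Nat.pos_of_ne_zero (prod_badSet_ne_zero W'), squarefree_prod hS, ?_⟩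
  obtain ⟨𝔪, h𝔪, h3⟩ := FLTPrelim.exists_maximalIdeal_natCast_prime_mem Nat.prime_three
  refine ⟨f, 𝔪, hf1, h𝔪, h3, fun ℓ hℓ hgood hℓM hℓ3 => ?_⟩
  have hgood' : W'.IsGoodPrimeFor ℓ := fun h =>
    hℓM ((prime_dvd_prod_iff hS hℓ).mpr ((mem_badSet hΔ').mpr ⟨hℓ, h⟩))
  refine ⟨((W'.apOfModel ℓ : ℤ) : integralClosure ℤ ℂ), ?_, ?_⟩
  · rw [hf2 ℓ hℓ hgood' hℓM]
    simp
  · obtain ⟨c, hc⟩ := hcong ℓ hℓ hgood hgood' hℓ3
    rw [← Int.cast_sub, hc, Int.cast_mul]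
    exact Ideal.mul_mem_right _ _ (by exact_mod_cast h3)

end Fermat.Agent.P2
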