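import Fermat.Agent.P2.Fam3
import Fermat.Agent.FrobeniusDensity
import Fermat.Agent.FrobExists
import Fermat.Agent.Lib.Cyclotomic

/-!
# P2 block 1: auxiliary primes

Infinitely many primes `q ≡ 1 mod n` for which a given monic integral polynomial has a root
modulo `q` (Frobenius density).
-/

set_option autoImplicit false

namespace Fermat.Agent.P2.AuxPrimes

open Fermat.Agent Fermat.Agent.Cyclotomic Polynomial

local notation "Qbar" => AlgebraicClosure ℚ
local notation "Γℚ" => (AlgebraicClosure ℚ ≃ₐ[ℚ] AlgebraicClosure ℚ)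

theorem mem_nonunits_iff_residue {L : Type*} [Field L] (A : ValuationSubring L) {x : L}
    (hx : x ∈ A) : x ∈ A.nonunits ↔ IsLocalRing.residue A ⟨x, hx⟩ = 0 := by
  rw [IsLocalRing.residue_eq_zero_iff, ValuationSubring.mem_nonunits_iff_exists_mem_maximalIdeal]
  exact ⟨fun ⟨_, h⟩ => h, fun h => ⟨hx, h⟩⟩

/-- If a Frobenius at `ℓ` fixes a root `θ` of a monic integral polynomial `f`, then `f` has a root
modulo `ℓ`. -/
theorem exists_root_mod {ℓ : ℕ} (hℓ : ℓ.Prime) {A : ValuationSubring Qbar}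
    (hA : A.LiesOverPrime ℓ) {φ : Γℚ} (hφ : A.IsFrobeniusAt φ ℓ) (f : ℤ[X]) (hf : f.Monic)
    {θ : Qbar} (hθ : Polynomial.aeval θ f = 0) (hfix : φ θ = θ) :
    ∃ x : ℤ, (ℓ : ℤ) ∣ f.eval x := by
  have : Fact ℓ.Prime := ⟨hℓ⟩
  have hint : IsIntegral ℤ θ := ⟨f, hf, hθ⟩
  have hrA : θ ∈ A := FrobExists.mem_of_isIntegral A hint
  set κ := IsLocalRing.ResidueField A
  have hℓκ : ((ℓ : ℕ) : κ) = 0 := by
    have h2 := (mem_nonunits_iff_residue A (natCast_mem A ℓ)).mp hA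
    have h3 : IsLocalRing.residue A (ℓ : A) = 0 := h2
    rwa [map_natCast] at h3
  have hchar : CharP κ ℓ := by
    refine ⟨fun m => ⟨fun hm => ?_, fun ⟨d, hd⟩ => by rw [hd, Nat.cast_mul, hℓκ, zero_mul]⟩⟩
    by_contra hcon
    apply natCast_notMem_nonunits hℓ hA hcon
    rw [mem_nonunits_iff_residue A (natCast_mem A m)]
    change IsLocalRing.residue A (m : A) = 0
    rw [map_natCast, hm]
  set t : κ := IsLocalRing.residue A ⟨θ, hrA⟩ with ht
  have htℓ : t ^ ℓ = t := by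
    have h2 := sub_pow_mem_nonunits_of_isFrobeniusAt A hφ hrA
    rw [hfix, mem_nonunits_iff_residue A (sub_mem hrA (pow_mem hrA ℓ))] at h2
    have h3 : (⟨θ - θ ^ ℓ, sub_mem hrA (pow_mem hrA ℓ)⟩ : A) = ⟨θ, hrA⟩ - ⟨θ, hrA⟩ ^ ℓ := rfl
    rw [h3, map_sub, map_pow, sub_eq_zero] at h2
    exact h2.symm
  -- `t` lies in the prime field
  obtain ⟨y, hy⟩ : ∃ y : ℤ, (y : κ) = t :=
    (mem_bot_iff_intCast ℓ κ).mp ((Subfield.mem_bot_iff_pow_eq_self κ ℓ).mpr htℓ)
  refine ⟨y, ?_⟩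
  rw [← CharP.intCast_eq_zero_iff κ ℓ]
  have h5 : ((f.eval y : ℤ) : κ) = Polynomial.aeval t f := by
    have := Polynomial.aeval_algebraMap_apply κ y f
    rw [eq_intCast (algebraMap ℤ κ), hy] at this
    rw [this]
    simp [Polynomial.aeval_def]
  have h6 : Polynomial.aeval t f = IsLocalRing.residue A (Polynomial.aeval (⟨θ, hrA⟩ : A) f) := by
    rw [ht]
    exact Polynomial.hom_eval₂ f (algebraMap ℤ A) (IsLocalRing.residue A) ⟨θ, hrA⟩ ▸ by
      congr 1
  have h7 : Polynomial.aeval (⟨θ, hrA⟩ : A) f = 0 := by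
    apply Subtype.ext
    have := Polynomial.aeval_algebraMap_apply Qbar (⟨θ, hrA⟩ : A) f
    rw [show algebraMap A Qbar ⟨θ, hrA⟩ = θ from rfl, hθ] at this
    exact this.symm
  rw [h5, h6, h7, map_zero]

/-- A monic integral polynomial of positive degree has roots modulo arbitrarily large primes
`q ≡ 1 mod n`. -/
theorem exists_prime_root (f : ℤ[X]) (hf : f.Monic) (hd : f.natDegree ≠ 0) (n : ℕ) (hn : n ≠ 0)
    (B : ℕ) : ∃ q : ℕ, q.Prime ∧ B < q ∧ (q : ZMod n) = 1 ∧ ∃ x : ℤ, (q : ℤ) ∣ f.eval x := by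
  have : NeZero n := ⟨hn⟩
  obtain ⟨ζ, hζ⟩ := exists_primitiveRoot n
  obtain ⟨θ, hθ⟩ : ∃ θ : Qbar, Polynomial.aeval θ f = 0 := by
    apply IsAlgClosed.exists_aeval_eq_zero
    rw [Polynomial.degree_eq_natDegree hf.ne_zero]
    exact_mod_cast hd
  let L : IntermediateField ℚ Qbar := IntermediateField.adjoin ℚ {θ, ζ}
  have hfin : FiniteDimensional ℚ L := by
    apply IntermediateField.finiteDimensional_adjoin
    intro x _
    exact Algebra.IsIntegral.isIntegral x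
  obtain ⟨ℓ, hℓ, hS, A, σ, hA, hσ, -, k, hk⟩ := FrobDensity.frobenius_density L
    (Finset.range (B + n + 1)) 1
  rw [Finset.mem_range, not_lt] at hS
  have hfix : ∀ x ∈ L, σ x = x := by
    intro x hx
    rw [hk x hx, one_pow]
    rfl
  have hθL : θ ∈ L := IntermediateField.subset_adjoin ℚ _ (by simp)
  have hζL : ζ ∈ L := IntermediateField.subset_adjoin ℚ _ (by simp)
  have hℓn : ¬ ℓ ∣ n := by
    intro h
    have := Nat.le_of_dvd (Nat.pos_of_ne_zero hn) h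
    omega
  refine ⟨ℓ, hℓ, by omega, ?_, exists_root_mod hℓ hA hσ f hf hθ (hfix θ hθL)⟩
  rw [← cyc_frobenius (n := n) hℓ hℓn A hA hσ, cyc_eq_one_of_fixes n σ hζ (hfix ζ hζL), Units.val_one]

/-- **auxiliary primes** -/
theorem exists_auxPrime (W : WeierstrassCurve ℤ) (B : ℕ) :
    ∃ q : ℕ, q.Prime ∧ B < q ∧ q % 12 = 1 ∧ ∃ x : ℤ, (q : ℤ) ∣ Fam3.D W x 1 := by
  let f : ℤ[X] := X ^ 4 - C W.b₂ * X ^ 3 + C (9 * W.b₄) * X ^ 2 - C (27 * W.b₆) * X + C (27 * W.b₈)
  have hdeg : f.natDegree = 4 := by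
    simp only [f]
    compute_degree!
  have hmon : f.Monic := by
    simp only [f]
    monicity!
  obtain ⟨q, hq, hB, h12, x, hx⟩ := exists_prime_root f hmon (by rw [hdeg]; norm_num) 12 (by norm_num) B
  refine ⟨q, hq, hB, ?_, x, ?_⟩
  · have : (q : ZMod 12) = ((1 : ℕ) : ZMod 12) := by rw [h12, Nat.cast_one]
    rw [ZMod.natCast_eq_natCast_iff] at this
    exact this
  · have : Fam3.D W x 1 = f.eval x := by
      simp only [Fam3.D, Fam3.DD, f, eval_add, eval_sub, eval_mul, eval_pow, eval_X, eval_C]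
      ring
    rwa [this]

end Fermat.Agent.P2.AuxPrimes
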