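import Mathlib
import Fermat.Agent.Iso.Galois
import Fermat.Agent.EllTorsion.Frey
import Fermat.Prelude.Def_FLTPrelim_ModularRep

/-!
# P2 block 1: irreducibility of `E'[2]`
-/

set_option autoImplicit false

open WeierstrassCurve WeierstrassCurve.Affine WeierstrassCurve.Affine.Point

namespace Fermat.Agent.P2.Irr2

local notation "ℚb" => AlgebraicClosure ℚ

/-! ### arithmetic -/

lemma odd_mul_sq {q : ℕ} (hq : q.Prime) {x y z k : ℤ} (hz : z ≠ 0) (hk : ¬ (q : ℤ) ∣ k)
    (h : x ^ 2 * y = k * z) (hodd : Odd (padicValInt q z)) : (q : ℤ) ∣ y := by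
  haveI := Fact.mk hq
  have hk0 : k ≠ 0 := fun h0 => hk (h0 ▸ dvd_zero _)
  have hxy : x ^ 2 * y ≠ 0 := by rw [h]; exact mul_ne_zero hk0 hz
  have hx : x ≠ 0 := fun h0 => hxy (by rw [h0]; ring)
  have hy : y ≠ 0 := fun h0 => hxy (by rw [h0]; ring)
  by_contra hqy
  have e1 : padicValInt q (x ^ 2 * y) = 2 * padicValInt q x := by
    rw [padicValInt.mul (pow_ne_zero _ hx) hy, padicValInt.eq_zero_of_not_dvd hqy,
      pow_two, padicValInt.mul hx hx]
    ring
  have e2 : padicValInt q (k * z) = padicValInt q z := by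
    rw [padicValInt.mul hk0 hz, padicValInt.eq_zero_of_not_dvd hk, zero_add]
  rw [h, e2] at e1
  rw [e1] at hodd
  exact (Nat.not_odd_iff_even.mpr (even_two_mul _)) hodd

/-- **no rational `2`-torsion**: arithmetic form. -/
theorem no_root {c4 c6 D : ℤ} (h : c4 ^ 3 - c6 ^ 2 = 1728 * D) (h2 : (2 : ℤ) ∣ D)
    (hodd : ∀ q : ℕ, q.Prime → (q : ℤ) ∣ D → Odd (padicValInt q D))
    (hss : ∀ q : ℕ, q.Prime → (q : ℤ) ∣ D → ¬ (q : ℤ) ∣ c4) (hbig : |c4| + 1 < |D|) (Y : ℤ) :
    Y ^ 3 - 3 * c4 * Y - 2 * c6 ≠ 0 := by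
  intro hY
  set γ : ℤ := Y ^ 2 - c4 with hγ
  set δ : ℤ := 4 * c4 - Y ^ 2 with hδ
  have hsum : γ + δ = 3 * c4 := by rw [hγ, hδ]; ring
  have key : γ ^ 2 * δ = 6912 * D := by
    have e1 : 2 * c6 = Y ^ 3 - 3 * c4 * Y := by linarith
    have e2 : γ ^ 2 * δ = 4 * c4 ^ 3 - (Y ^ 3 - 3 * c4 * Y) ^ 2 := by rw [hγ, hδ]; ring
    rw [e2, ← e1]
    linear_combination 4 * h
  have hD0 : D ≠ 0 := by
    intro h0
    rw [h0, abs_zero] at hbig
    have := abs_nonneg c4
    linarith
  have hγ0 : γ ≠ 0 := by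
    intro h0
    rw [h0] at key
    have : (6912 : ℤ) * D ≠ 0 := mul_ne_zero (by norm_num) hD0
    exact this (by rw [← key]; ring)
  -- primes dividing `γ`
  have hp : ∀ q : ℕ, q.Prime → (q : ℤ) ∣ γ → q = 3 := by
    intro q hq hqγ
    by_contra hq3
    have hqi := Nat.prime_iff_prime_int.mp hq
    by_cases hq2 : q = 2
    · subst hq2
      have hc4 : ¬ (2 : ℤ) ∣ c4 := hss 2 Nat.prime_two h2
      have hδ2 : ¬ (2 : ℤ) ∣ δ := by
        intro hd
        have e1 : (2 : ℤ) ∣ 3 * c4 := by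
          rw [← hsum]; exact dvd_add (by exact_mod_cast hqγ) hd
        rcases Int.prime_two.dvd_or_dvd e1 with h' | h'
        · revert h'; decide
        · exact hc4 h'
      haveI := Fact.mk Nat.prime_two
      have hδ0 : δ ≠ 0 := fun h0 => hδ2 (h0 ▸ dvd_zero _)
      have e1 : padicValInt 2 (γ ^ 2 * δ) = 2 * padicValInt 2 γ := by
        have e0 : padicValInt 2 δ = 0 :=
          padicValInt.eq_zero_of_not_dvd (p := 2) (by exact_mod_cast hδ2)
        rw [padicValInt.mul (pow_ne_zero _ hγ0) hδ0, e0,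
          pow_two, padicValInt.mul hγ0 hγ0]
        ring
      have e2 : padicValInt 2 (6912 * D) = 8 + padicValInt 2 D := by
        rw [padicValInt.mul (by norm_num) hD0]
        congr 1
        have : (6912 : ℤ) = 27 * ((2 : ℕ) : ℤ) ^ 8 := by norm_num
        rw [this, padicValInt.mul (by norm_num) (by norm_num),
          padicValInt.eq_zero_of_not_dvd (p := 2) (by decide), zero_add]
        rw [padicValInt, Int.natAbs_pow, Int.natAbs_natCast, padicValNat.prime_pow]
      rw [key, e2] at e1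
      have e3 := hodd 2 Nat.prime_two (by exact_mod_cast h2)
      obtain ⟨m, hm⟩ := e3
      omega
    · -- `q ≥ 5`
      have hk : ¬ (q : ℤ) ∣ 6912 := by
        intro hd
        have e1 : (6912 : ℤ) = 2 ^ 8 * 3 ^ 3 := by norm_num
        rw [e1] at hd
        rcases hqi.dvd_or_dvd hd with h' | h'
        · have := hqi.dvd_of_dvd_pow h'
          exact hq2 ((Nat.prime_dvd_prime_iff_eq hq Nat.prime_two).mp (by exact_mod_cast this))
        · have := hqi.dvd_of_dvd_pow h'
          exact hq3 ((Nat.prime_dvd_prime_iff_eq hq Nat.prime_three).mp (by exact_mod_cast this))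
      have hqD : (q : ℤ) ∣ D := by
        have e1 : (q : ℤ) ∣ 6912 * D := by
          rw [← key]; exact (dvd_pow hqγ two_ne_zero).mul_right _
        exact (hqi.dvd_or_dvd e1).resolve_left hk
      have hqδ := odd_mul_sq hq hD0 hk key (hodd q hq hqD)
      have e1 : (q : ℤ) ∣ 3 * c4 := by rw [← hsum]; exact dvd_add hqγ hqδ
      rcases hqi.dvd_or_dvd e1 with h' | h'
      · exact hq3 ((Nat.prime_dvd_prime_iff_eq hq Nat.prime_three).mp (by exact_mod_cast h'))
      · exact hss q hq hqD h'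
  have h9 : ¬ (9 : ℤ) ∣ γ := by
    intro h9
    haveI := Fact.mk Nat.prime_three
    have hp3 : Prime (3 : ℤ) := Int.prime_three
    have h3D : ((3 : ℕ) : ℤ) ∣ D := by
      obtain ⟨m, hm⟩ := h9
      have e1 : (81 : ℤ) * (m ^ 2 * δ) = 6912 * D := by rw [← key, hm]; ring
      have e2 : (3 : ℤ) * (m ^ 2 * δ) = 256 * D := by linarith
      have e3 : (3 : ℤ) ∣ 256 * D := ⟨_, e2.symm⟩
      rcases hp3.dvd_or_dvd e3 with h' | h'
      · exact absurd h' (by decide)
      · exact_mod_cast h'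
    have hc4 := hss 3 Nat.prime_three h3D
    -- `δ = 3 * unit`
    obtain ⟨m, hm⟩ := h9
    have hδ3 : δ = 3 * (c4 - 3 * m) := by linarith
    have hu : ¬ ((3 : ℕ) : ℤ) ∣ (c4 - 3 * m) := by
      intro hd
      apply hc4
      push_cast at hd ⊢
      have := dvd_add hd (dvd_mul_right (3 : ℤ) m)
      simpa using this
    have hm0 : m ≠ 0 := by rintro rfl; exact hγ0 (by rw [hm]; ring)
    have hu0 : c4 - 3 * m ≠ 0 := fun h0 => hu (h0 ▸ dvd_zero _)
    have e1 : m ^ 2 * (c4 - 3 * m) * 9 = 256 * D := by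
      have : (27 : ℤ) * (m ^ 2 * (c4 - 3 * m) * 9) = 27 * (256 * D) := by
        rw [hδ3, hm] at key
        linear_combination key
      linarith
    have e2 : padicValInt 3 (m ^ 2 * (c4 - 3 * m) * 9) = 2 * padicValInt 3 m + 2 := by
      rw [padicValInt.mul (mul_ne_zero (pow_ne_zero _ hm0) hu0) (by norm_num),
        padicValInt.mul (pow_ne_zero _ hm0) hu0, padicValInt.eq_zero_of_not_dvd hu,
        pow_two, padicValInt.mul hm0 hm0]
      have : padicValInt 3 9 = 2 := by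
        have : (9 : ℤ) = ((3 ^ 2 : ℕ) : ℤ) := by norm_num
        rw [this, padicValInt, Int.natAbs_natCast, padicValNat.prime_pow]
      rw [this]
      ring
    have e3 : padicValInt 3 (256 * D) = padicValInt 3 D := by
      rw [padicValInt.mul (by norm_num) hD0,
        padicValInt.eq_zero_of_not_dvd (p := 3) (by decide), zero_add]
    rw [e1, e3] at e2
    obtain ⟨n, hn⟩ := hodd 3 Nat.prime_three h3D
    omega
  -- `γ ∣ 3`
  have hγ3 : |γ| ≤ 3 := by
    have e1 : γ.natAbs ∣ 3 := by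
      have hγn : γ.natAbs ≠ 0 := Int.natAbs_ne_zero.mpr hγ0
      have hpow : γ.natAbs = 3 ^ γ.natAbs.primeFactorsList.length := by
        refine Nat.eq_prime_pow_of_unique_prime_dvd hγn ?_
        intro d hd hdd
        exact hp d hd (Int.natCast_dvd.mpr hdd)
      have hlen : γ.natAbs.primeFactorsList.length ≤ 1 := by
        by_contra hcon
        apply h9
        have e2 : 3 ^ 2 ∣ γ.natAbs := by
          rw [hpow]
          exact pow_dvd_pow _ (by omega)
        have e3 : ((9 : ℕ) : ℤ) ∣ γ := Int.natCast_dvd.mpr (by simpa using e2)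
        exact_mod_cast e3
      rw [hpow]
      exact pow_dvd_pow 3 hlen |>.trans (by norm_num)
    have e2 := Nat.le_of_dvd (by norm_num) e1
    rw [Int.abs_eq_natAbs]
    exact_mod_cast e2
  have hγsq : γ ^ 2 ≤ 9 := by
    have e1 := abs_le.mp hγ3
    nlinarith [e1.1, e1.2]
  have hδle : |δ| ≤ 3 * |c4| + 3 := by
    have e1 : δ = 3 * c4 - γ := by linarith
    rw [e1]
    have e2 := abs_sub (3 * c4) γ
    have e3 : |3 * c4| = 3 * |c4| := by rw [abs_mul]; norm_num
    rw [e3] at e2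
    linarith
  have hfin : 6912 * |D| ≤ 9 * (3 * |c4| + 3) := by
    have e1 : |γ ^ 2 * δ| = 6912 * |D| := by
      rw [key, abs_mul]; norm_num
    rw [← e1, abs_mul, abs_of_nonneg (sq_nonneg γ)]
    have e2 := abs_nonneg δ
    nlinarith [sq_nonneg γ]
  have := abs_nonneg c4
  linarith

/-! ### from a rational root to reducibility -/

/-- **irreducibility of `E[2]`**, from the absence of an integral root of the cubic
`Y³ - 3 c₄ Y - 2 c₆`. -/
theorem irreducible_two (W : WeierstrassCurve ℤ) (hΔ : W.Δ ≠ 0)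
    (h : ∀ Y : ℤ, Y ^ 3 - 3 * W.c₄ * Y - 2 * W.c₆ ≠ 0) : W.ModRepIsIrreducible 2 := by
  haveI := Fermat.Agent.EllTorsion.isElliptic_map_of_Δ_ne_zero hΔ
  have hcard := Fermat.Agent.EllTorsion.card_torsionBy_rat (W.map (Int.castRingHom ℚ)) two_ne_zero
  set V := Submodule.torsionBy ℤ ((W.map (Int.castRingHom ℚ))⁄ℚb).Point ((2 : ℕ) : ℤ) with hV
  have hfin : Finite V := Nat.finite_of_card_ne_zero (by rw [hcard]; norm_num)
  refine ⟨Finite.one_lt_card_iff_nontrivial.mp (by rw [hcard]; norm_num), fun N hN => ?_⟩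
  by_contra hcon
  push Not at hcon
  obtain ⟨hb, ht⟩ := hcon
  obtain ⟨P, hPN, hP0⟩ := N.ne_bot_iff.mp hb
  have h2P : ∀ R : V, R + R = 0 := fun R => by
    rw [← two_smul (ZMod 2) R]
    have : (2 : ZMod 2) = 0 := by decide
    rw [this, zero_smul]
  -- `P` is fixed
  have hfix : ∀ σ : ℚb ≃ₐ[ℚ] ℚb, σ • P = P := by
    intro σ
    by_contra hne
    have hσN : σ • P ∈ N := hN σ P hPN
    have hσ0 : σ • P ≠ 0 := fun h0 => hP0 (by
      have : σ⁻¹ • (σ • P) = 0 := by rw [h0, smul_zero]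
      rwa [inv_smul_smul] at this)
    apply ht
    have e1 : ({0, P, σ • P, P + σ • P} : Set V) ⊆ (N : Set V) := by
      intro x hx
      simp only [Set.mem_insert_iff, Set.mem_singleton_iff] at hx
      rcases hx with rfl | rfl | rfl | rfl
      · exact N.zero_mem
      · exact hPN
      · exact hσN
      · exact N.add_mem hPN hσN
    have e2 : ({0, P, σ • P, P + σ • P} : Set V).ncard = 4 := by
      have d1 : P + σ • P ≠ 0 := fun h0 => hne (by
        have e3 := h2P P
        exact (add_left_cancel (e3.trans h0.symm)).symm)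
      have d2 : P + σ • P ≠ P := fun h0 => hσ0 (by simpa using h0)
      have d3 : P + σ • P ≠ σ • P := fun h0 => hP0 (by simpa using h0)
      rw [Set.ncard_insert_of_notMem, Set.ncard_insert_of_notMem, Set.ncard_pair]
      · exact d3.symm
      · simp only [Set.mem_insert_iff, Set.mem_singleton_iff, not_or]
        exact ⟨fun h0 => hne h0.symm, d2.symm⟩
      · simp only [Set.mem_insert_iff, Set.mem_singleton_iff, not_or]
        exact ⟨hP0.symm, hσ0.symm, d1.symm⟩
    have e3 : 4 ≤ (N : Set V).ncard := by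
      rw [← e2]; exact Set.ncard_le_ncard e1 (Set.toFinite _)
    rw [Submodule.eq_top_iff']
    have e4 : (N : Set V) = Set.univ := by
      refine Set.eq_of_subset_of_ncard_le (Set.subset_univ _) ?_ (Set.toFinite _)
      rw [Set.ncard_univ, hcard]
      simpa using e3
    intro x
    have : x ∈ (N : Set V) := e4 ▸ Set.mem_univ x
    exact this
  -- the x-coordinate
  obtain ⟨⟨P', hP'⟩⟩ : Nonempty {P' : ((W.map (Int.castRingHom ℚ))⁄ℚb).Point // P' = P.1} :=
    ⟨⟨P.1, rfl⟩⟩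
  have hP'0 : P' ≠ 0 := fun h0 => hP0 (Subtype.ext (hP'.symm.trans h0))
  have hP'2 : P' + P' = 0 := by
    have := congrArg Subtype.val (h2P P)
    rw [hP']; exact this
  have hP'fix : ∀ σ : ℚb ≃ₐ[ℚ] ℚb, σ • P' = P' := fun σ => by
    rw [hP']; exact congrArg Subtype.val (hfix σ)
  rcases P' with _ | ⟨x, y, hxy⟩
  · exact hP'0 rfl
  have hxfix : ∀ σ : ℚb ≃ₐ[ℚ] ℚb, σ x = x := fun σ => by
    have e1 := congrArg Iso.xc (hP'fix σ)
    rw [Iso.xc_smul] at e1
    exact e1
  obtain ⟨r, hr⟩ := Iso.rational_of_fixed x hxfix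
  have hyy : y = ((W.map (Int.castRingHom ℚ))⁄ℚb).toAffine.negY x y := by
    have e1 : Point.some x y hxy = -Point.some x y hxy := eq_neg_of_add_eq_zero_left hP'2
    rw [Point.neg_some] at e1
    exact (Point.some.inj e1).2
  have hroot : 4 * x ^ 3 + algebraMap ℚ ℚb (W.b₂ : ℚ) * x ^ 2 +
      2 * algebraMap ℚ ℚb (W.b₄ : ℚ) * x + algebraMap ℚ ℚb (W.b₆ : ℚ) = 0 := by
    have heq := (Affine.equation_iff _ _).mp hxy.1
    rw [Affine.negY] at hyy
    have h0 : 2 * y + ((W.map (Int.castRingHom ℚ))⁄ℚb).a₁ * x +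
        ((W.map (Int.castRingHom ℚ))⁄ℚb).a₃ = 0 := by linear_combination hyy
    have e1 : algebraMap ℚ ℚb (W.b₂ : ℚ) = ((W.map (Int.castRingHom ℚ))⁄ℚb).b₂ := by
      simp [WeierstrassCurve.baseChange, WeierstrassCurve.map_b₂]
    have e2 : algebraMap ℚ ℚb (W.b₄ : ℚ) = ((W.map (Int.castRingHom ℚ))⁄ℚb).b₄ := by
      simp [WeierstrassCurve.baseChange, WeierstrassCurve.map_b₄]
    have e3 : algebraMap ℚ ℚb (W.b₆ : ℚ) = ((W.map (Int.castRingHom ℚ))⁄ℚb).b₆ := by
      simp [WeierstrassCurve.baseChange, WeierstrassCurve.map_b₆]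
    rw [e1, e2, e3]
    unfold WeierstrassCurve.b₂ WeierstrassCurve.b₄ WeierstrassCurve.b₆
    linear_combination (2 * y + ((W.map (Int.castRingHom ℚ))⁄ℚb).a₁ * x +
        ((W.map (Int.castRingHom ℚ))⁄ℚb).a₃) * h0 - 4 * heq
  rw [← hr] at hroot
  have hrootQ : 4 * r ^ 3 + (W.b₂ : ℚ) * r ^ 2 + 2 * (W.b₄ : ℚ) * r + (W.b₆ : ℚ) = 0 := by
    apply (algebraMap ℚ ℚb).injective
    rw [_root_.map_zero, ← hroot]
    push_cast [map_add, map_mul, map_pow]
    simp
  -- integrality
  set z : ℚ := 12 * r + W.b₂ with hz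
  have hzroot : z ^ 3 - 3 * (W.c₄ : ℚ) * z - 2 * (W.c₆ : ℚ) = 0 := by
    rw [hz]
    simp only [WeierstrassCurve.c₄, WeierstrassCurve.c₆]
    push_cast
    linear_combination 432 * hrootQ
  have hzint : IsIntegral ℤ z := by
    refine ⟨Polynomial.X ^ 3 - Polynomial.C (3 * W.c₄) * Polynomial.X - Polynomial.C (2 * W.c₆),
      by monicity!, ?_⟩
    simp only [Polynomial.eval₂_sub, Polynomial.eval₂_mul, Polynomial.eval₂_pow,
      Polynomial.eval₂_X, Polynomial.eval₂_C]
    rw [← hzroot]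
    simp
  obtain ⟨Y, hY⟩ := IsIntegrallyClosed.isIntegral_iff.mp hzint
  apply h Y
  have : ((Y ^ 3 - 3 * W.c₄ * Y - 2 * W.c₆ : ℤ) : ℚ) = 0 := by
    push_cast
    have : ((Y : ℤ) : ℚ) = z := by rw [← hY]; simp
    rw [this]
    exact hzroot
  exact_mod_cast this

end Fermat.Agent.P2.Irr2
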