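import Mathlib

/-!
# P2 block 1: the integral `3`-congruent family (helper91's form)

For a Weierstrass curve `W` the Hesse pencil spanned by `W` and its (integral) Hessian consists of
the curves `3`-congruent to `W`; the member `(u : v)` with `α u - 3 β v = 1` has the Weierstrass
model `model W u v α β`, with discriminant `Δ * D(u,v)^3`.
-/

set_option autoImplicit false

namespace Fermat.Agent.P2.Fam3

open WeierstrassCurve

variable {R : Type*} [CommRing R]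

/-- the binary quartic `D(u,v)` in terms of `b₂, b₄, b₆, b₈` -/
def DD (b2 b4 b6 b8 u v : R) : R :=
  u ^ 4 - b2 * u ^ 3 * v + 9 * b4 * u ^ 2 * v ^ 2 - 27 * b6 * u * v ^ 3 + 27 * b8 * v ^ 4

/-- `c₄` of the member `(u : v)` -/
def CC4 (b2 b4 b6 b8 u v : R) : R :=
  (b2 ^ 2 - 24 * b4) * u ^ 4 + (216 * b6 - 12 * b2 * b4) * u ^ 3 * v +
    (108 * b4 ^ 2 - 54 * b2 * b6 - 432 * b8) * u ^ 2 * v ^ 2 +
    (216 * b2 * b8 - 324 * b4 * b6) * u * v ^ 3 + (729 * b6 ^ 2 - 648 * b4 * b8) * v ^ 4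

/-- `c₆` of the member `(u : v)` -/
def CC6 (b2 b4 b6 b8 u v : R) : R :=
  (-b2 ^ 3 + 36 * b2 * b4 - 216 * b6) * u ^ 6 +
    (18 * b2 ^ 2 * b4 + 108 * b2 * b6 - 648 * b4 ^ 2 + 864 * b8) * u ^ 5 * v +
    (4860 * b4 * b6 - 135 * b2 ^ 2 * b6 - 1080 * b2 * b8) * u ^ 4 * v ^ 2 +
    (540 * b2 ^ 2 * b8 - 14580 * b6 ^ 2) * u ^ 3 * v ^ 3 +
    (3645 * b2 * b6 ^ 2 - 4860 * b2 * b4 * b8 + 29160 * b6 * b8) * u ^ 2 * v ^ 4 +
    (17496 * b4 ^ 2 * b8 - 2916 * b2 * b6 * b8 - 13122 * b4 * b6 ^ 2 - 23328 * b8 ^ 2) *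
      u * v ^ 5 +
    (5832 * b2 * b8 ^ 2 - 26244 * b4 * b6 * b8 + 19683 * b6 ^ 3) * v ^ 6

/-- the quartic of a curve -/
def D (W : WeierstrassCurve R) (u v : R) : R := DD W.b₂ W.b₄ W.b₆ W.b₈ u v

/-- `c₄` of the member `(u : v)` -/
def C4 (W : WeierstrassCurve R) (u v : R) : R := CC4 W.b₂ W.b₄ W.b₆ W.b₈ u v

/-- `c₆` of the member `(u : v)` -/
def C6 (W : WeierstrassCurve R) (u v : R) : R := CC6 W.b₂ W.b₄ W.b₆ W.b₈ u v

/-! ### the cubic form `k₀ x³ + k₁ x² z + k₂ x z² + k₃ z³` -/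

/-- coefficient of `x³` -/
def k0 (W : WeierstrassCurve R) (u v : R) : R := u - v * (W.a₁ ^ 2 + W.a₂)
/-- coefficient of `x²z` -/
def k1 (W : WeierstrassCurve R) (u v : R) : R := u * W.a₂ - 3 * v * (W.a₁ * W.a₃ + W.a₄)
/-- coefficient of `xz²` -/
def k2 (W : WeierstrassCurve R) (u v : R) : R := u * W.a₄ - v * (3 * W.a₃ ^ 2 + 9 * W.a₆)
/-- coefficient of `z³` -/
def k3 (W : WeierstrassCurve R) (u v : R) : R := u * W.a₆ - v * W.b₈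

/-- the coefficient `A₂` -/
def A2 (W : WeierstrassCurve R) (u v α β : R) : R :=
  -3 * k0 W u v * u ^ 2 * β + k1 W u v * (α * u ^ 2 + 6 * u * v * β) +
    k2 W u v * (-6 * α * u * v - 9 * β * v ^ 2) + 27 * k3 W u v * α * v ^ 2

/-- the coefficient `A₄` -/
def A4 (W : WeierstrassCurve R) (u v α β : R) : R :=
  3 * k0 W u v * u * β ^ 2 + k1 W u v * (-2 * u * α * β - 3 * v * β ^ 2) +
    k2 W u v * (u * α ^ 2 + 6 * α * β * v) - 9 * k3 W u v * α ^ 2 * v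

/-- the coefficient `A₆` -/
def A6 (W : WeierstrassCurve R) (u v α β : R) : R :=
  -k0 W u v * β ^ 3 + k1 W u v * α * β ^ 2 - k2 W u v * α ^ 2 * β + k3 W u v * α ^ 3

/-- **the integral model** of the member `(u : v)` of the pencil, for `α u - 3 β v = 1` -/
@[simps] def model (W : WeierstrassCurve R) (u v α β : R) : WeierstrassCurve R where
  a₁ := W.a₁ * u - 3 * W.a₃ * v
  a₂ := A2 W u v α β
  a₃ := D W u v * (α * W.a₃ - β * W.a₁)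
  a₄ := D W u v * A4 W u v α β
  a₆ := D W u v ^ 2 * A6 W u v α β

section

variable (W : WeierstrassCurve R) {u v α β : R}

lemma D_eq (u v : R) : D W u v = k0 W u v * u ^ 3 - 3 * k1 W u v * u ^ 2 * v +
    9 * k2 W u v * u * v ^ 2 - 27 * k3 W u v * v ^ 3 := by
  unfold D DD k0 k1 k2 k3 b₂ b₄ b₆ b₈
  ring

lemma map_D {S : Type*} [CommRing S] (f : R →+* S) (u v : R) :
    D (W.map f) (f u) (f v) = f (D W u v) := by
  simp [D, DD, map_ofNat]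

lemma map_model {S : Type*} [CommRing S] (f : R →+* S) (u v α β : R) :
    (model W u v α β).map f = model (W.map f) (f u) (f v) (f α) (f β) := by
  ext <;> simp [model, A2, A4, A6, k0, k1, k2, k3, D, DD, map_ofNat]

/-- the `b₂` of the model -/
def B2 (b2 b4 b6 b8 u v α β : R) : R :=
  9 * b2 * u ^ 2 * v * β + b2 * u ^ 3 * α - 54 * b4 * u * v ^ 2 * β - 18 * b4 * u ^ 2 * v * α +
    81 * b6 * u * v ^ 2 * α + 81 * b6 * v ^ 3 * β - 108 * b8 * v ^ 3 * α - 12 * u ^ 3 * β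
/-- the `b₄` of the model, divided by `D` -/
def B4 (b2 b4 b6 b8 u v α β : R) : R :=
  -3 * b2 * u * v * β ^ 2 - b2 * u ^ 2 * α * β + 12 * b4 * u * v * α * β + b4 * u ^ 2 * α ^ 2 +
    9 * b4 * v ^ 2 * β ^ 2 - 9 * b6 * u * v * α ^ 2 - 27 * b6 * v ^ 2 * α * β +
    18 * b8 * v ^ 2 * α ^ 2 + 6 * u ^ 2 * β ^ 2
/-- the `b₆` of the model, divided by `D²` -/
def B6 (b2 b4 b6 b8 u v α β : R) : R :=
  b2 * u * α * β ^ 2 + b2 * v * β ^ 3 - 2 * b4 * u * α ^ 2 * β - 6 * b4 * v * α * β ^ 2 +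
    b6 * u * α ^ 3 + 9 * b6 * v * α ^ 2 * β - 4 * b8 * v * α ^ 3 - 4 * u * β ^ 3

lemma model_b₂ (h : α * u - 3 * β * v = 1) :
    (model W u v α β).b₂ = B2 W.b₂ W.b₄ W.b₆ W.b₈ u v α β := by
  have e : (model W u v α β).b₂ = (α * u - 3 * β * v) * (W.a₁ * u - 3 * W.a₃ * v) ^ 2 +
      4 * A2 W u v α β := by
    rw [h]
    simp [b₂]
  rw [e]
  unfold A2 k0 k1 k2 k3 B2 b₂ b₄ b₆ b₈
  ring

lemma model_b₄ (h : α * u - 3 * β * v = 1) :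
    (model W u v α β).b₄ = D W u v * B4 W.b₂ W.b₄ W.b₆ W.b₈ u v α β := by
  have e : (model W u v α β).b₄ = D W u v * ((α * u - 3 * β * v) *
      ((W.a₁ * u - 3 * W.a₃ * v) * (α * W.a₃ - β * W.a₁)) + 2 * A4 W u v α β) := by
    rw [h]
    simp only [b₄, model_a₁, model_a₃, model_a₄]
    ring
  rw [e]
  congr 1
  unfold A4 k0 k1 k2 k3 B4 b₂ b₄ b₆ b₈
  ring

lemma model_b₆ (h : α * u - 3 * β * v = 1) :
    (model W u v α β).b₆ = D W u v ^ 2 * B6 W.b₂ W.b₄ W.b₆ W.b₈ u v α β := by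
  have e : (model W u v α β).b₆ = D W u v ^ 2 * ((α * u - 3 * β * v) *
      (α * W.a₃ - β * W.a₁) ^ 2 + 4 * A6 W u v α β) := by
    rw [h]
    simp only [b₆, model_a₃, model_a₆]
    ring
  rw [e]
  congr 1
  unfold A6 k0 k1 k2 k3 B6 b₂ b₄ b₆ b₈
  ring

lemma CC4_identity (b2 b4 b6 b8 u v α β : R) :
    B2 b2 b4 b6 b8 u v α β ^ 2 - 24 * (DD b2 b4 b6 b8 u v * B4 b2 b4 b6 b8 u v α β) =
      CC4 b2 b4 b6 b8 u v * (α * u - 3 * β * v) ^ 2 := by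
  unfold B2 B4 DD CC4
  ring

lemma CC6_identity (b2 b4 b6 b8 u v α β : R) :
    -B2 b2 b4 b6 b8 u v α β ^ 3 + 36 * B2 b2 b4 b6 b8 u v α β *
      (DD b2 b4 b6 b8 u v * B4 b2 b4 b6 b8 u v α β) -
      216 * (DD b2 b4 b6 b8 u v ^ 2 * B6 b2 b4 b6 b8 u v α β) =
      CC6 b2 b4 b6 b8 u v * (α * u - 3 * β * v) ^ 3 := by
  unfold B2 B4 B6 DD CC6
  ring

theorem model_c₄ (h : α * u - 3 * β * v = 1) : (model W u v α β).c₄ = C4 W u v := by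
  rw [c₄, model_b₂ W h, model_b₄ W h]
  have := CC4_identity W.b₂ W.b₄ W.b₆ W.b₈ u v α β
  rw [h, one_pow, mul_one] at this
  exact this

theorem model_c₆ (h : α * u - 3 * β * v = 1) : (model W u v α β).c₆ = C6 W u v := by
  rw [c₆, model_b₂ W h, model_b₄ W h, model_b₆ W h]
  have := CC6_identity W.b₂ W.b₄ W.b₆ W.b₈ u v α β
  rw [h, one_pow, mul_one] at this
  exact this

end

section Int

/-! ### the discriminant, over `ℤ` -/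

/-- Fisher's quartic in terms of `c₄, c₆` -/
def DF (a b l m : R) : R := l ^ 4 - 6 * a * l ^ 2 * m ^ 2 - 8 * b * l * m ^ 3 - 3 * a ^ 2 * m ^ 4
/-- Fisher's `c₄` -/
def CF4 (a b l m : R) : R := a * l ^ 4 + 4 * b * l ^ 3 * m + 6 * a ^ 2 * l ^ 2 * m ^ 2 +
  4 * a * b * l * m ^ 3 - (3 * a ^ 3 - 4 * b ^ 2) * m ^ 4
/-- Fisher's `c₆` -/
def CF6 (a b l m : R) : R := b * l ^ 6 + 6 * a ^ 2 * l ^ 5 * m + 15 * a * b * l ^ 4 * m ^ 2 +
  20 * b ^ 2 * l ^ 3 * m ^ 3 + 15 * a ^ 2 * b * l ^ 2 * m ^ 4 +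
  6 * (3 * a ^ 4 - 2 * a * b ^ 2) * l * m ^ 5 + (9 * a ^ 3 * b - 8 * b ^ 3) * m ^ 6

lemma CF_identity (a b l m : R) :
    CF4 a b l m ^ 3 - CF6 a b l m ^ 2 = (a ^ 3 - b ^ 2) * DF a b l m ^ 3 := by
  unfold CF4 CF6 DF
  ring

lemma DF_eq (W : WeierstrassCurve R) (u v : R) :
    DF W.c₄ W.c₆ (4 * u - W.b₂ * v) (-v) = 4 ^ 4 * D W u v := by
  have rel := W.b_relation
  unfold DF D DD c₄ c₆
  linear_combination (-1728 * v ^ 4) * rel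

lemma CF4_eq (W : WeierstrassCurve R) (u v : R) :
    CF4 W.c₄ W.c₆ (4 * u - W.b₂ * v) (-v) = 4 ^ 4 * C4 W u v := by
  have rel := W.b_relation
  unfold CF4 C4 CC4 c₄ c₆
  linear_combination (-13824 * W.b₂ * u * v ^ 3 + 41472 * W.b₄ * v ^ 4 +
    27648 * u ^ 2 * v ^ 2) * rel

lemma CF6_eq (W : WeierstrassCurve R) (u v : R) :
    CF6 W.c₄ W.c₆ (4 * u - W.b₂ * v) (-v) = 4 ^ 6 * C6 W u v := by
  have rel := W.b_relation
  unfold CF6 C6 CC6 c₄ c₆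
  linear_combination (1492992 * W.b₂ * W.b₄ ^ 2 * v ^ 6 - 1492992 * W.b₂ ^ 2 * W.b₆ * v ^ 6 +
    4976640 * W.b₂ * W.b₄ * u ^ 2 * v ^ 4 + 8957952 * W.b₂ * W.b₆ * u * v ^ 5 -
    5971968 * W.b₂ * W.b₈ * v ^ 6 - 552960 * W.b₂ ^ 2 * u ^ 3 * v ^ 3 +
    26873856 * W.b₄ * W.b₆ * v ^ 6 - 23887872 * W.b₄ ^ 2 * u * v ^ 5 +
    1105920 * W.b₂ * u ^ 4 * v ^ 2 - 29859840 * W.b₆ * u ^ 2 * v ^ 4 +
    23887872 * W.b₈ * u * v ^ 5 - 884736 * u ^ 5 * v) * rel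

/-- `C₄³ - C₆² = 1728 Δ D³` -/
lemma C_relation (W : WeierstrassCurve ℤ) (u v : ℤ) :
    C4 W u v ^ 3 - C6 W u v ^ 2 = 1728 * (W.Δ * D W u v ^ 3) := by
  have h := CF_identity W.c₄ W.c₆ (4 * u - W.b₂ * v) (-v)
  rw [CF4_eq, CF6_eq, DF_eq, ← W.c_relation] at h
  have h12 : ((4 : ℤ) ^ 12) ≠ 0 := by norm_num
  refine mul_left_cancel₀ h12 ?_
  linear_combination h

theorem model_Δ (W : WeierstrassCurve ℤ) {u v α β : ℤ} (h : α * u - 3 * β * v = 1) :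
    (model W u v α β).Δ = W.Δ * D W u v ^ 3 := by
  have h1 := (model W u v α β).c_relation
  rw [model_c₄ W h, model_c₆ W h, C_relation] at h1
  have h2 : (1728 : ℤ) ≠ 0 := by norm_num
  exact mul_left_cancel₀ h2 h1

/-- `v² C₄ = D_u² - 8 D (2u² - b₂ u v + 3 b₄ v²)` -/
lemma C4_eq_deriv (W : WeierstrassCurve R) (u v : R) :
    v ^ 2 * C4 W u v = (4 * u ^ 3 - 3 * W.b₂ * u ^ 2 * v + 18 * W.b₄ * u * v ^ 2 -
      27 * W.b₆ * v ^ 3) ^ 2 - 8 * D W u v * (2 * u ^ 2 - W.b₂ * u * v + 3 * W.b₄ * v ^ 2) := by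
  unfold C4 CC4 D DD
  ring

end Int

end Fermat.Agent.P2.Fam3
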