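import Mathlib

/-!
# P2 block 1: counting lemmas for the sieve
-/

set_option autoImplicit false

open Finset Polynomial

namespace Fermat.Agent.P2.Sieve

/-- elements of an interval in one residue class -/
lemma card_le_of_modEq {n Y : ℕ} (hn : 0 < n) (S : Finset ℕ) (hS : S ⊆ range Y)
    (h : ∀ i ∈ S, ∀ j ∈ S, i ≡ j [MOD n]) : #S ≤ Y / n + 1 := by
  have h1 : Set.InjOn (fun i => i / n) (S : Set ℕ) := by
    intro i hi j hj hij
    have h2 : i % n = j % n := h i hi j hj
    have h3 : i / n = j / n := hij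
    rw [← Nat.div_add_mod i n, ← Nat.div_add_mod j n, h2, h3]
  calc #S = #(S.image (fun i => i / n)) := (card_image_of_injOn h1).symm
    _ ≤ #(range (Y / n + 1)) := by
        refine card_le_card ?_
        intro x hx
        obtain ⟨i, hi, rfl⟩ := mem_image.mp hx
        have h2 : i < Y := mem_range.mp (hS hi)
        exact mem_range.mpr (Nat.lt_succ_of_le (Nat.div_le_div_right h2.le))
    _ = Y / n + 1 := card_range _

/-- the binary quartic -/
def Q4 (a b c d u v : ℤ) : ℤ := u ^ 4 + a * u ^ 3 * v + b * u ^ 2 * v ^ 2 + c * u * v ^ 3 + d * v ^ 4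

/-- the quartic polynomial -/
noncomputable def f4 (a b c d : ℤ) : ℤ[X] := X ^ 4 + C a * X ^ 3 + C b * X ^ 2 + C c * X + C d

variable {a b c d : ℤ}

lemma natDegree_f4 : (f4 a b c d).natDegree = 4 := by
  unfold f4; compute_degree!

lemma monic_f4 : (f4 a b c d).Monic := by
  unfold f4; monicity!

/-- **Hensel**: two zeroes mod `q²` in the same class mod `q` are in the same class mod `q²` -/
lemma hensel {A B : ℤ[X]} {R : ℤ} (hb : A * f4 a b c d + B * derivative (f4 a b c d) = C R)
    {q : ℕ} (hq : q.Prime) (hqR : ¬ (q : ℤ) ∣ R) {u v u' v' : ℤ} (hv : ¬ (q : ℤ) ∣ v)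
    (hv' : ¬ (q : ℤ) ∣ v') (h : (q : ℤ) ^ 2 ∣ Q4 a b c d u v)
    (h' : (q : ℤ) ^ 2 ∣ Q4 a b c d u' v') (hc : (q : ℤ) ∣ u * v' - u' * v) :
    (q : ℤ) ^ 2 ∣ u * v' - u' * v := by
  haveI := Fact.mk hq
  obtain ⟨t, ht⟩ := hc
  -- `w = v v'`, `x = u v'`, `y = u' v = x - q t`
  have e1 : (q : ℤ) ^ 2 ∣ Q4 a b c d (u * v') (v * v') := by
    have : Q4 a b c d (u * v') (v * v') = v' ^ 4 * Q4 a b c d u v := by unfold Q4; ring
    rw [this]; exact h.mul_left _
  have e2 : (q : ℤ) ^ 2 ∣ Q4 a b c d (u' * v) (v * v') := by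
    have : Q4 a b c d (u' * v) (v * v') = v ^ 4 * Q4 a b c d u' v' := by unfold Q4; ring
    rw [this]; exact h'.mul_left _
  set w := v * v' with hw
  set x := u * v' with hx
  have hy : u' * v = x - q * t := by rw [← ht]; ring
  have hqw : ¬ (q : ℤ) ∣ w := fun hd => by
    rcases (Nat.prime_iff_prime_int.mp hq).dvd_or_dvd hd with h | h
    · exact hv h
    · exact hv' h
  set D1 : ℤ := 4 * x ^ 3 + 3 * a * x ^ 2 * w + 2 * b * x * w ^ 2 + c * w ^ 3 with hD1
  have e3 : (q : ℤ) ^ 2 ∣ q * (t * D1) := by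
    rw [hy] at e2
    have : (q : ℤ) * (t * D1) = Q4 a b c d x w - Q4 a b c d (x - q * t) w +
        (q : ℤ) ^ 2 * (t ^ 2 * (6 * x ^ 2 - 4 * q * t * x + q ^ 2 * t ^ 2 +
          a * w * (3 * x - q * t) + b * w ^ 2)) := by
      rw [hD1]; unfold Q4; ring
    rw [this]
    exact (e1.sub e2).add (dvd_mul_right _ _)
  have e4 : (q : ℤ) ∣ t * D1 := by
    rw [pow_two] at e3
    exact (mul_dvd_mul_iff_left (by exact_mod_cast hq.ne_zero)).mp e3
  have hD1q : ¬ (q : ℤ) ∣ D1 := by
    intro hd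
    apply hqR
    rw [← ZMod.intCast_zmod_eq_zero_iff_dvd] at hd ⊢
    have hw0 : (w : ZMod q) ≠ 0 := fun h0 => hqw ((ZMod.intCast_zmod_eq_zero_iff_dvd _ _).mp h0)
    have e5 : ((Q4 a b c d x w : ℤ) : ZMod q) = 0 := by
      rw [ZMod.intCast_zmod_eq_zero_iff_dvd]
      exact (dvd_pow_self _ two_ne_zero).trans e1
    -- evaluate the Bezout identity at `x / w`
    set ξ : ZMod q := x / w with hξ
    have hb' := congrArg (fun p : ℤ[X] => (p.map (Int.castRingHom (ZMod q))).eval ξ) hb
    simp only [Polynomial.map_add, Polynomial.map_mul, eval_add, eval_mul, Polynomial.map_C,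
      eval_C] at hb'
    simp only [eq_intCast] at hb'
    have hf : ((f4 a b c d).map (Int.castRingHom (ZMod q))).eval ξ = 0 := by
      have h1 : ((f4 a b c d).map (Int.castRingHom (ZMod q))).eval ξ * (w : ZMod q) ^ 4 =
          ((Q4 a b c d x w : ℤ) : ZMod q) := by
        unfold f4 Q4
        simp only [Polynomial.map_add, Polynomial.map_mul, Polynomial.map_pow, Polynomial.map_X,
          Polynomial.map_C, eval_add, eval_mul, eval_pow, eval_X, eval_C]
        simp only [eq_intCast]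
        push_cast
        rw [hξ]
        field_simp
      rw [e5] at h1
      exact (mul_eq_zero.mp h1).resolve_right (pow_ne_zero _ hw0)
    have hf' : ((derivative (f4 a b c d)).map (Int.castRingHom (ZMod q))).eval ξ = 0 := by
      have h1 : ((derivative (f4 a b c d)).map (Int.castRingHom (ZMod q))).eval ξ *
          (w : ZMod q) ^ 3 = ((D1 : ℤ) : ZMod q) := by
        unfold f4
        rw [hD1]
        simp only [derivative_add, derivative_mul, derivative_pow, derivative_X, derivative_C,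
          Polynomial.map_add, Polynomial.map_mul, Polynomial.map_pow, Polynomial.map_X,
          Polynomial.map_C, eval_add, eval_mul, eval_pow, eval_X, eval_C, derivative_X_pow,
          zero_mul, zero_add, Polynomial.map_natCast, eval_natCast, Polynomial.map_one, eval_one]
        simp only [eq_intCast]
        push_cast
        norm_num
        rw [hξ]
        field_simp
        try ring
      rw [hd] at h1
      exact (mul_eq_zero.mp h1).resolve_right (pow_ne_zero _ hw0)
    rw [hf, hf', mul_zero, mul_zero, add_zero] at hb'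
    exact hb'.symm
  have e6 : (q : ℤ) ∣ t := ((Nat.prime_iff_prime_int.mp hq).dvd_or_dvd e4).resolve_right hD1q
  rw [ht, pow_two]
  exact mul_dvd_mul_left _ e6

/-- the root of a pair modulo `q` -/
lemma root_mem {q : ℕ} (hq : q.Prime) {u v : ℤ} (hv : ¬ (q : ℤ) ∣ v)
    (h : (q : ℤ) ^ 2 ∣ Q4 a b c d u v) :
    letI := Fact.mk hq
    ((u : ZMod q) / (v : ZMod q)) ∈ ((f4 a b c d).map (Int.castRingHom (ZMod q))).roots := by
  letI := Fact.mk hq
  have hv0 : (v : ZMod q) ≠ 0 := fun h0 => hv ((ZMod.intCast_zmod_eq_zero_iff_dvd _ _).mp h0)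
  rw [Polynomial.mem_roots (monic_f4.map _).ne_zero, IsRoot.def]
  have e5 : ((Q4 a b c d u v : ℤ) : ZMod q) = 0 := by
    rw [ZMod.intCast_zmod_eq_zero_iff_dvd]
    exact (dvd_pow_self _ two_ne_zero).trans h
  have h1 : ((f4 a b c d).map (Int.castRingHom (ZMod q))).eval ((u : ZMod q) / v) *
      (v : ZMod q) ^ 4 = ((Q4 a b c d u v : ℤ) : ZMod q) := by
    unfold f4 Q4
    simp only [Polynomial.map_add, Polynomial.map_mul, Polynomial.map_pow, Polynomial.map_X,
      Polynomial.map_C, eval_add, eval_mul, eval_pow, eval_X, eval_C]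
    simp only [eq_intCast]
    push_cast
    field_simp
  rw [e5] at h1
  exact (mul_eq_zero.mp h1).resolve_right (pow_ne_zero _ hv0)

/-- counting: a set of pairs, at most `n` in each class of roots -/
lemma card_le_four_mul {q : ℕ} (hq : q.Prime) {ι : Type*} [DecidableEq ι] (S : Finset ι)
    (U V : ι → ℤ) (n : ℕ) (hV : ∀ i ∈ S, ¬ (q : ℤ) ∣ V i)
    (hD : ∀ i ∈ S, (q : ℤ) ^ 2 ∣ Q4 a b c d (U i) (V i))
    (hn : ∀ T ⊆ S, (∀ i ∈ T, ∀ j ∈ T, (q : ℤ) ∣ U i * V j - U j * V i) → #T ≤ n) :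
    #S ≤ n * 4 := by
  classical
  letI := Fact.mk hq
  let g : ι → ZMod q := fun i => (U i : ZMod q) / (V i : ZMod q)
  have h1 : #S ≤ n * #(S.image g) := by
    refine card_le_mul_card_image S n fun r _ => hn _ (filter_subset _ _) ?_
    intro i hi j hj
    rw [mem_filter] at hi hj
    have hvi : (V i : ZMod q) ≠ 0 := fun h0 =>
      hV i hi.1 ((ZMod.intCast_zmod_eq_zero_iff_dvd _ _).mp h0)
    have hvj : (V j : ZMod q) ≠ 0 := fun h0 =>
      hV j hj.1 ((ZMod.intCast_zmod_eq_zero_iff_dvd _ _).mp h0)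
    have h2 : (U i : ZMod q) / (V i : ZMod q) = (U j : ZMod q) / (V j : ZMod q) :=
      hi.2.trans hj.2.symm
    rw [div_eq_div_iff hvi hvj] at h2
    rw [← ZMod.intCast_zmod_eq_zero_iff_dvd]
    push_cast
    rw [h2, sub_self]
  refine h1.trans (Nat.mul_le_mul_left _ ?_)
  have h2 : S.image g ⊆ ((f4 a b c d).map (Int.castRingHom (ZMod q))).roots.toFinset := by
    intro x hx
    obtain ⟨i, hi, rfl⟩ := mem_image.mp hx
    rw [Multiset.mem_toFinset]
    exact root_mem hq (hV i hi) (hD i hi)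
  refine (card_le_card h2).trans ((Multiset.toFinset_card_le _).trans
    ((card_roots' _).trans ?_))
  rw [(monic_f4 (a := a) (b := b) (c := c) (d := d)).natDegree_map, natDegree_f4]

end Fermat.Agent.P2.Sieve
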