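import Mathlib
import Fermat.Agent.P2.Fam3
import Fermat.Agent.P2.SieveAux
import Fermat.Prelude.Def_FLTPrelim_Modularity

/-!
# P2 block 1: local conditions on the parameter `(u : v)`
-/

set_option autoImplicit false

open Polynomial

namespace Fermat.Agent.P2.Local

open Fam3 Sieve

/-- `∂D/∂u` -/
def Du {R : Type*} [CommRing R] (W : WeierstrassCurve R) (u v : R) : R :=
  4 * u ^ 3 - 3 * W.b₂ * u ^ 2 * v + 18 * W.b₄ * u * v ^ 2 - 27 * W.b₆ * v ^ 3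

variable (W : WeierstrassCurve ℤ)

lemma D_eq_Q4 (u v : ℤ) :
    D W u v = Q4 (-W.b₂) (9 * W.b₄) (-27 * W.b₆) (27 * W.b₈) u v := by
  unfold D DD Q4; ring

/-- the dehomogenized quartic -/
noncomputable def fW : ℤ[X] := f4 (-W.b₂) (9 * W.b₄) (-27 * W.b₆) (27 * W.b₈)

lemma bez {R : Type*} [CommRing R] (a b l : R) :
    24 * (a ^ 3 - b ^ 2) * (2 * a * (l * (l ^ 3 - 3 * a * l + 2 * b) -
      (l ^ 4 - 6 * a * l ^ 2 + 8 * b * l - 3 * a ^ 2)) - 3 * b * (l ^ 3 - 3 * a * l + 2 * b)) +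
    (2 * b * (l * (l ^ 3 - 3 * a * l + 2 * b) -
      (l ^ 4 - 6 * a * l ^ 2 + 8 * b * l - 3 * a ^ 2)) -
      a * ((3 * a - l ^ 2) * (l ^ 3 - 3 * a * l + 2 * b) +
        l * (l ^ 4 - 6 * a * l ^ 2 + 8 * b * l - 3 * a ^ 2))) *
      ((3 * a - l ^ 2) * (l ^ 3 - 3 * a * l + 2 * b) +
        l * (l ^ 4 - 6 * a * l ^ 2 + 8 * b * l - 3 * a ^ 2)) = 144 * (a ^ 3 - b ^ 2) ^ 2 := by
  ring

/-- the resultant -/
noncomputable def RR : ℤ := 144 * (1728 * W.Δ) ^ 2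

/-- **Bezout identity** for the quartic. -/
theorem exists_bezout : ∃ A B : ℤ[X], A * fW W + B * derivative (fW W) = C (RR W) := by
  set a : ℤ[X] := C W.c₄ with ha
  set b : ℤ[X] := C W.c₆ with hb
  set l : ℤ[X] := 4 * X - C W.b₂ with hl
  have e1 : 256 * fW W = l ^ 4 - 6 * a * l ^ 2 + 8 * b * l - 3 * a ^ 2 := by
    have h := DF_eq (W.map (C : ℤ →+* ℤ[X])) X 1
    unfold DF at h
    rw [WeierstrassCurve.map_c₄, WeierstrassCurve.map_c₆, WeierstrassCurve.map_b₂] at h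
    have h2 : D (W.map (C : ℤ →+* ℤ[X])) X 1 = fW W := by
      unfold D DD fW f4
      rw [WeierstrassCurve.map_b₂, WeierstrassCurve.map_b₄, WeierstrassCurve.map_b₆,
        WeierstrassCurve.map_b₈]
      simp only [map_neg, map_mul, map_ofNat]
      ring
    rw [h2] at h
    rw [hl, ha, hb]
    linear_combination -h
  have e2 : 16 * derivative (fW W) = l ^ 3 - 3 * a * l + 2 * b := by
    have h1 : derivative (fW W) = 4 * X ^ 3 + 3 * C (-W.b₂) * X ^ 2 + 2 * C (9 * W.b₄) * X +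
        C (-27 * W.b₆) := by
      unfold fW f4
      simp only [derivative_add, derivative_mul, derivative_X_pow, derivative_X, derivative_C,
        zero_mul, zero_add, map_natCast, Nat.cast_ofNat]
      norm_num
      ring
    rw [h1, ha, hb, hl]
    simp only [WeierstrassCurve.c₄, WeierstrassCurve.c₆, map_neg, map_mul, map_ofNat, map_sub,
      map_add, map_pow]
    ring
  have key := bez a b l
  rw [← e1, ← e2] at key
  have hR : 144 * (a ^ 3 - b ^ 2) ^ 2 = C (RR W) := by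
    rw [ha, hb, RR, W.c_relation]
    simp only [map_mul, map_pow, map_sub, map_ofNat]
  rw [hR] at key
  refine ⟨256 * (24 * (a ^ 3 - b ^ 2) * (-2 * a) + (-2 * b - a * l) *
      ((3 * a - l ^ 2) * (16 * derivative (fW W)) + l * (256 * fW W))),
    16 * (24 * (a ^ 3 - b ^ 2) * (2 * a * l - 3 * b) + (2 * b * l - a * (3 * a - l ^ 2)) *
      ((3 * a - l ^ 2) * (16 * derivative (fW W)) + l * (256 * fW W))), ?_⟩
  rw [← key]
  ring

lemma RR_dvd {q : ℕ} (hq : q.Prime) (h : (q : ℤ) ∣ RR W) : q = 2 ∨ q = 3 ∨ (q : ℤ) ∣ W.Δ := by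
  have hqi := Nat.prime_iff_prime_int.mp hq
  have e1 : RR W = 2 ^ 16 * (3 ^ 8 * W.Δ ^ 2) := by unfold RR; ring
  rw [e1] at h
  rcases hqi.dvd_or_dvd h with h | h
  · left
    exact (Nat.prime_dvd_prime_iff_eq hq Nat.prime_two).mp
      (by exact_mod_cast hqi.dvd_of_dvd_pow h)
  · rcases hqi.dvd_or_dvd h with h | h
    · right; left
      exact (Nat.prime_dvd_prime_iff_eq hq Nat.prime_three).mp
        (by exact_mod_cast hqi.dvd_of_dvd_pow h)
    · right; right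
      exact hqi.dvd_of_dvd_pow h

/-- zeroes of `D` modulo a prime not dividing the resultant are simple -/
lemma not_dvd_Du {q : ℕ} (hq : q.Prime) (hqR : ¬ (q : ℤ) ∣ RR W) {u v : ℤ}
    (hv : ¬ (q : ℤ) ∣ v) (h : (q : ℤ) ∣ D W u v) : ¬ (q : ℤ) ∣ Du W u v := by
  intro hd
  apply hqR
  haveI := Fact.mk hq
  obtain ⟨A, B, hb⟩ := exists_bezout W
  rw [← ZMod.intCast_zmod_eq_zero_iff_dvd] at hd h ⊢
  have hw0 : (v : ZMod q) ≠ 0 := fun h0 => hv ((ZMod.intCast_zmod_eq_zero_iff_dvd _ _).mp h0)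
  set ξ : ZMod q := u / v with hξ
  have hb' := congrArg (fun p : ℤ[X] => (p.map (Int.castRingHom (ZMod q))).eval ξ) hb
  simp only [Polynomial.map_add, Polynomial.map_mul, eval_add, eval_mul, Polynomial.map_C,
    eval_C] at hb'
  simp only [eq_intCast] at hb'
  have hf : ((fW W).map (Int.castRingHom (ZMod q))).eval ξ = 0 := by
    have h1 : ((fW W).map (Int.castRingHom (ZMod q))).eval ξ * (v : ZMod q) ^ 4 =
        ((D W u v : ℤ) : ZMod q) := by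
      rw [D_eq_Q4]
      unfold fW f4 Q4
      simp only [Polynomial.map_add, Polynomial.map_mul, Polynomial.map_pow, Polynomial.map_X,
        Polynomial.map_C, eval_add, eval_mul, eval_pow, eval_X, eval_C]
      simp only [eq_intCast]
      push_cast
      rw [hξ]
      field_simp
    rw [h] at h1
    exact (mul_eq_zero.mp h1).resolve_right (pow_ne_zero _ hw0)
  have hf' : ((derivative (fW W)).map (Int.castRingHom (ZMod q))).eval ξ = 0 := by
    have h0 : derivative (fW W) = 4 * X ^ 3 + 3 * C (-W.b₂) * X ^ 2 + 2 * C (9 * W.b₄) * X +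
        C (-27 * W.b₆) := by
      unfold fW f4
      simp only [derivative_add, derivative_mul, derivative_X_pow, derivative_X, derivative_C,
        zero_mul, zero_add, map_natCast, Nat.cast_ofNat]
      norm_num
      ring
    have h1 : ((derivative (fW W)).map (Int.castRingHom (ZMod q))).eval ξ *
        (v : ZMod q) ^ 3 = ((Du W u v : ℤ) : ZMod q) := by
      rw [h0]
      unfold Du
      simp only [Polynomial.map_add, Polynomial.map_mul, Polynomial.map_pow, Polynomial.map_X,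
        Polynomial.map_C, eval_add, eval_mul, eval_pow, eval_X, eval_C, Polynomial.map_ofNat,
        eval_ofNat]
      simp only [eq_intCast]
      push_cast
      rw [hξ]
      field_simp
      try ring
    rw [hd] at h1
    exact (mul_eq_zero.mp h1).resolve_right (pow_ne_zero _ hw0)
  rw [hf, hf', mul_zero, mul_zero, add_zero] at hb'
  exact hb'.symm

lemma C4_eq_Du (u v : ℤ) : v ^ 2 * C4 W u v =
    Du W u v ^ 2 - 8 * D W u v * (2 * u ^ 2 - W.b₂ * u * v + 3 * W.b₄ * v ^ 2) :=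
  C4_eq_deriv W u v

/-- at a simple zero of `D`, `C₄` does not vanish -/
lemma not_dvd_C4 {q : ℕ} (hq : q.Prime) {u v : ℤ} (h : (q : ℤ) ∣ D W u v)
    (hd : ¬ (q : ℤ) ∣ Du W u v) : ¬ (q : ℤ) ∣ C4 W u v := by
  intro hc
  apply hd
  have hqi := Nat.prime_iff_prime_int.mp hq
  refine hqi.dvd_of_dvd_pow (n := 2) ?_
  have e1 : Du W u v ^ 2 = v ^ 2 * C4 W u v +
      D W u v * (8 * (2 * u ^ 2 - W.b₂ * u * v + 3 * W.b₄ * v ^ 2)) := by
    rw [C4_eq_Du]; ring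
  rw [e1]
  exact dvd_add (hc.mul_left _) (h.mul_right _)

lemma D_add_sub (x q : ℤ) : ∃ k : ℤ, D W (x + q) 1 = D W x 1 + q * Du W x 1 + q ^ 2 * k := by
  refine ⟨6 * x ^ 2 + 4 * x * q + q ^ 2 - W.b₂ * (3 * x + q) + 9 * W.b₄, ?_⟩
  unfold D DD Du
  ring

lemma Du_add_sub (x q : ℤ) : ∃ k : ℤ, Du W (x + q) 1 = Du W x 1 + q * k := by
  refine ⟨12 * x ^ 2 + 12 * x * q + 4 * q ^ 2 - 3 * W.b₂ * (2 * x + q) + 18 * W.b₄, ?_⟩
  unfold Du
  ring

/-- from a simple zero modulo `q` to an integer `x` with `q ∥ D(x,1)` -/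
lemma exists_exact {q : ℕ} (hq : q.Prime) {x : ℤ} (h : (q : ℤ) ∣ D W x 1)
    (hd : ¬ (q : ℤ) ∣ Du W x 1) : ∃ y : ℤ, (q : ℤ) ∣ y - x ∧ (q : ℤ) ∣ D W y 1 ∧
      ¬ (q : ℤ) ^ 2 ∣ D W y 1 ∧ ¬ (q : ℤ) ∣ Du W y 1 := by
  by_cases h2 : (q : ℤ) ^ 2 ∣ D W x 1
  · obtain ⟨k, hk⟩ := D_add_sub W x q
    obtain ⟨k', hk'⟩ := Du_add_sub W x q
    refine ⟨x + q, by simp, ?_, ?_, ?_⟩
    · rw [hk]
      exact dvd_add (dvd_add h (dvd_mul_right _ _)) ((dvd_pow_self _ two_ne_zero).mul_right _)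
    · intro hcon
      apply hd
      rw [hk] at hcon
      have e1 : (q : ℤ) ^ 2 ∣ q * Du W x 1 := by
        have := (hcon.sub (dvd_mul_right ((q : ℤ) ^ 2) k)).sub h2
        have e : D W x 1 + q * Du W x 1 + (q : ℤ) ^ 2 * k - (q : ℤ) ^ 2 * k - D W x 1 =
          q * Du W x 1 := by ring
        rwa [e] at this
      rw [pow_two] at e1
      exact (mul_dvd_mul_iff_left (by exact_mod_cast hq.ne_zero)).mp e1
    · rw [hk']
      intro hcon
      exact hd ((Int.dvd_add_left (dvd_mul_right _ _)).mp hcon)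
  · exact ⟨x, by simp, h, h2, hd⟩

lemma nodal_D : D W (W.b₂ * W.c₄ + 9 * (18 * W.b₆ - W.b₂ * W.b₄)) W.c₄ = W.Δ *
    (-567 * W.b₂ ^ 6 + 40824 * W.b₂ ^ 4 * W.b₄ - 743580 * W.b₂ ^ 2 * W.b₄ ^ 2 -
      236196 * W.b₂ ^ 3 * W.b₆ + 8503056 * W.b₂ * W.b₄ * W.b₆ + 279936 * W.b₄ ^ 3 -
      25509168 * W.b₆ ^ 2) := by
  have rel := W.b_relation
  unfold D DD WeierstrassCurve.c₄ WeierstrassCurve.Δ
  linear_combination (-135 * W.b₂ ^ 8 + 9558 * W.b₂ ^ 6 * W.b₄ - 162567 * W.b₂ ^ 4 * W.b₄ ^ 2 -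
    59049 * W.b₂ ^ 5 * W.b₆ - 303264 * W.b₂ ^ 2 * W.b₄ ^ 3 + 2125764 * W.b₂ ^ 3 * W.b₄ * W.b₆ -
    6377292 * W.b₂ ^ 2 * W.b₆ ^ 2 + 2239488 * W.b₄ ^ 4) * rel

lemma nodal_Du : Du W (W.b₂ * W.c₄ + 9 * (18 * W.b₆ - W.b₂ * W.b₄)) W.c₄ = -W.c₆ ^ 3 + W.Δ *
    (-1188 * W.b₂ ^ 3 + 42768 * W.b₂ * W.b₄ - 256608 * W.b₆) := by
  have rel := W.b_relation
  unfold Du WeierstrassCurve.c₄ WeierstrassCurve.c₆ WeierstrassCurve.Δ
  linear_combination (-297 * W.b₂ ^ 5 + 10692 * W.b₂ ^ 3 * W.b₄ -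
    64152 * W.b₂ ^ 2 * W.b₆) * rel

lemma D_smul (k u v : ℤ) : D W (k * u) (k * v) = k ^ 4 * D W u v := by
  unfold D DD; ring

lemma Du_smul (k u v : ℤ) : Du W (k * u) (k * v) = k ^ 3 * Du W u v := by
  unfold Du; ring

lemma D_congr {m : ℤ} {u v u' v' : ℤ} (hu : m ∣ u - u') (hv : m ∣ v - v') :
    m ∣ D W u v - D W u' v' := by
  have hu' := (Int.modEq_iff_dvd.mpr hu)
  have hv' := (Int.modEq_iff_dvd.mpr hv)
  have : D W u' v' ≡ D W u v [ZMOD m] := by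
    unfold D DD
    gcongr
  exact Int.modEq_iff_dvd.mp this

lemma Du_congr {m : ℤ} {u v u' v' : ℤ} (hu : m ∣ u - u') (hv : m ∣ v - v') :
    m ∣ Du W u v - Du W u' v' := by
  have hu' := (Int.modEq_iff_dvd.mpr hu)
  have hv' := (Int.modEq_iff_dvd.mpr hv)
  have : Du W u' v' ≡ Du W u v [ZMOD m] := by
    unfold Du
    gcongr
  exact Int.modEq_iff_dvd.mp this

lemma C4_congr {m : ℤ} {u v u' v' : ℤ} (hu : m ∣ u - u') (hv : m ∣ v - v') :
    m ∣ C4 W u v - C4 W u' v' := by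
  have hu' := (Int.modEq_iff_dvd.mpr hu)
  have hv' := (Int.modEq_iff_dvd.mpr hv)
  have : C4 W u' v' ≡ C4 W u v [ZMOD m] := by
    unfold C4 CC4
    gcongr
  exact Int.modEq_iff_dvd.mp this

/-- the simple zero at a multiplicative prime -/
lemma exists_nodal {q : ℕ} (hq : q.Prime) (hΔ : (q : ℤ) ∣ W.Δ) (hc : ¬ (q : ℤ) ∣ W.c₄) :
    ∃ x : ℤ, (q : ℤ) ∣ D W x 1 ∧ ¬ (q : ℤ) ∣ Du W x 1 ∧ (q = 3 → ¬ (3 : ℤ) ∣ x) := by
  have hqi := Nat.prime_iff_prime_int.mp hq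
  have hcop : IsCoprime (q : ℤ) W.c₄ := (Prime.coprime_iff_not_dvd hqi).mpr hc
  obtain ⟨s, k, hsk⟩ := hcop
  -- `k c₄ = 1 mod q`
  have hk : (q : ℤ) ∣ W.c₄ * k - 1 := ⟨-s, by linear_combination hsk⟩
  set n := W.b₂ * W.c₄ + 9 * (18 * W.b₆ - W.b₂ * W.b₄) with hn
  have hDn : (q : ℤ) ∣ D W n W.c₄ := by rw [nodal_D]; exact hΔ.mul_right _
  have hc6 : ¬ (q : ℤ) ∣ W.c₆ := by
    intro h6
    apply hc
    refine hqi.dvd_of_dvd_pow (n := 3) ?_
    have e1 := W.c_relation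
    have e2 : W.c₄ ^ 3 = 1728 * W.Δ + W.c₆ ^ 2 := by linarith
    rw [e2]
    exact dvd_add (hΔ.mul_left _) (dvd_pow h6 two_ne_zero)
  have hDun : ¬ (q : ℤ) ∣ Du W n W.c₄ := by
    rw [nodal_Du]
    intro h6
    have e1 := (Int.dvd_add_left (hΔ.mul_right _)).mp h6
    exact hc6 (hqi.dvd_of_dvd_pow ((dvd_neg).mp e1))
  have hkc : ∀ m : ℤ, (q : ℤ) ∣ k * m → (q : ℤ) ∣ m := fun m hm => by
    have e1 : m = W.c₄ * (k * m) - (W.c₄ * k - 1) * m := by ring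
    rw [e1]
    exact dvd_sub (hm.mul_left _) (hk.mul_right _)
  have hcg : (q : ℤ) ∣ 1 - k * W.c₄ := by
    have := (dvd_neg).mpr hk
    have e1 : 1 - k * W.c₄ = -(W.c₄ * k - 1) := by ring
    rw [e1]; exact this
  refine ⟨k * n, ?_, ?_, ?_⟩
  · have e1 := D_congr W (m := q) (u := k * n) (u' := k * n) (v := 1) (v' := k * W.c₄)
      (by simp) hcg
    rw [D_smul] at e1
    exact (dvd_sub_left (hDn.mul_left _)).mp e1
  · intro hcon
    have e1 := Du_congr W (m := q) (u := k * n) (u' := k * n) (v := 1) (v' := k * W.c₄)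
      (by simp) hcg
    rw [Du_smul] at e1
    have e2 := (dvd_sub_right hcon).mp e1
    have e3 : (q : ℤ) ∣ Du W n W.c₄ := by
      have e4 : k ^ 3 * Du W n W.c₄ = k * (k * (k * Du W n W.c₄)) := by ring
      rw [e4] at e2
      exact hkc _ (hkc _ (hkc _ e2))
    exact hDun e3
  · rintro rfl
    intro hcon
    have e1 : (3 : ℤ) ∣ n := by exact_mod_cast hkc n (by exact_mod_cast hcon)
    rw [hn] at e1
    have e2 : (3 : ℤ) ∣ W.b₂ * W.c₄ := by
      refine (Int.dvd_add_left ?_).mp e1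
      exact ⟨3 * (18 * W.b₆ - W.b₂ * W.b₄), by ring⟩
    rcases Int.prime_three.dvd_or_dvd e2 with h | h
    · apply hc
      have : W.c₄ = W.b₂ * W.b₂ - 3 * (8 * W.b₄) := by rw [WeierstrassCurve.c₄]; ring
      rw [this]
      push_cast
      exact dvd_sub (h.mul_right _) (dvd_mul_right _ _)
    · exact hc (by exact_mod_cast h)

/-! ### good parameters at `q` -/

/-- the local condition at `q` -/
structure Good (q : ℕ) (u v : ℤ) : Prop where
  cop : ¬ ((q : ℤ) ∣ u ∧ (q : ℤ) ∣ v)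
  sq : ¬ (q : ℤ) ^ 2 ∣ D W u v
  par : (q : ℤ) ∣ W.Δ → ((q : ℤ) ∣ D W u v ↔ Even (padicValInt q W.Δ))
  c4 : (q : ℤ) ∣ W.Δ * D W u v → ¬ (q : ℤ) ∣ C4 W u v
  three : q = 3 → ¬ (3 : ℤ) ∣ u

variable {W}

lemma Good.congr {q : ℕ} {u v u' v' : ℤ} (h : Good W q u v) (hu : (q : ℤ) ^ 2 ∣ u' - u)
    (hv : (q : ℤ) ^ 2 ∣ v' - v) : Good W q u' v' := by
  have hu1 : (q : ℤ) ∣ u' - u := (dvd_pow_self _ two_ne_zero).trans hu
  have hv1 : (q : ℤ) ∣ v' - v := (dvd_pow_self _ two_ne_zero).trans hv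
  have hD2 := D_congr W hu hv
  have hD1 := D_congr W hu1 hv1
  have hC1 := C4_congr W hu1 hv1
  have key : ∀ {m a b : ℤ}, m ∣ a - b → (m ∣ a ↔ m ∣ b) := fun {m a b} h =>
    ⟨fun ha => by have := dvd_sub ha h; simpa using this,
      fun hb => by have := dvd_add h hb; simpa using this⟩
  refine ⟨?_, ?_, ?_, ?_, ?_⟩
  · rintro ⟨h1, h2⟩
    exact h.cop ⟨(key hu1).mp h1, (key hv1).mp h2⟩
  · intro h1
    exact h.sq ((key hD2).mp h1)
  · intro h1
    rw [key hD1]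
    exact h.par h1
  · intro h1 h2
    have h3 : (q : ℤ) ∣ W.Δ * D W u' v' - W.Δ * D W u v := by
      rw [← mul_sub]; exact hD1.mul_left _
    exact h.c4 ((key h3).mp h1) ((key hC1).mp h2)
  · rintro rfl h1
    refine h.three rfl ?_
    have := (key hu1).mp (by exact_mod_cast h1)
    exact_mod_cast this

/-- outside the controlled primes, a parameter with `q² ∤ D(u,v)` is good -/
lemma good_of_sq {q : ℕ} (hq : q.Prime) (hqR : ¬ (q : ℤ) ∣ RR W) {u v : ℤ}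
    (hcop : ¬ ((q : ℤ) ∣ u ∧ (q : ℤ) ∣ v)) (hsq : ¬ (q : ℤ) ^ 2 ∣ D W u v) : Good W q u v := by
  have hqi := Nat.prime_iff_prime_int.mp hq
  have hΔ : ¬ (q : ℤ) ∣ W.Δ := fun h => hqR (by
    have e1 : RR W = W.Δ * (144 * 1728 ^ 2 * W.Δ) := by unfold RR; ring
    rw [e1]; exact h.mul_right _)
  have h3 : q ≠ 3 := by
    rintro rfl
    apply hqR
    have e1 : RR W = 3 * (48 * (1728 * W.Δ) ^ 2) := by unfold RR; ring
    rw [e1]; exact dvd_mul_right _ _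
  refine ⟨hcop, hsq, fun h => absurd h hΔ, fun h => ?_, fun h => absurd h h3⟩
  have hD : (q : ℤ) ∣ D W u v := (hqi.dvd_or_dvd h).resolve_left hΔ
  have hv : ¬ (q : ℤ) ∣ v := by
    intro hv
    apply hcop
    refine ⟨?_, hv⟩
    have h2 : (q : ℤ) ∣ u ^ 4 := by
      have : u ^ 4 = D W u v - v * (-W.b₂ * u ^ 3 + 9 * W.b₄ * u ^ 2 * v - 27 * W.b₆ * u * v ^ 2 +
        27 * W.b₈ * v ^ 3) := by unfold D DD; ring
      rw [this]
      exact hD.sub (hv.mul_right _)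
    exact hqi.dvd_of_dvd_pow h2
  exact not_dvd_C4 W hq hD (not_dvd_Du W hq hqR hv hD)

lemma good_one_zero (hss : W.IsSemistableModel) {q : ℕ} (hq : q.Prime)
    (h : (q : ℤ) ∣ W.Δ → Odd (padicValInt q W.Δ)) : Good W q 1 0 := by
  have hqi := Nat.prime_iff_prime_int.mp hq
  have hD : D W 1 0 = 1 := by unfold D DD; ring
  have hC : C4 W 1 0 = W.c₄ := by unfold C4 CC4 WeierstrassCurve.c₄; ring
  have hq1 : ¬ (q : ℤ) ∣ 1 := hqi.not_dvd_one
  refine ⟨fun h1 => hq1 h1.1, ?_, ?_, ?_, ?_⟩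
  · rw [hD]
    exact fun h1 => hq1 ((dvd_pow_self _ two_ne_zero).trans h1)
  · intro h1
    rw [hD]
    exact ⟨fun h2 => absurd h2 hq1, fun h2 => absurd h2 (Nat.not_even_iff_odd.mpr (h h1))⟩
  · rw [hD, hC, mul_one]
    exact hss q hq
  · rintro rfl
    exact_mod_cast hq1

/-- the local choice at every prime -/
lemma exists_good (hss : W.IsSemistableModel) {q : ℕ} (hq : q.Prime) :
    ∃ u v : ℤ, Good W q u v := by
  by_cases h : (q : ℤ) ∣ W.Δ ∧ Even (padicValInt q W.Δ)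
  · obtain ⟨h1, h2⟩ := h
    obtain ⟨x, hx1, hx2, hx3⟩ := exists_nodal W hq h1 (hss q hq h1)
    obtain ⟨y, hyx, hy1, hy2, hy3⟩ := exists_exact W hq hx1 hx2
    have hqi := Nat.prime_iff_prime_int.mp hq
    refine ⟨y, 1, fun h0 => hqi.not_dvd_one h0.2, hy2, fun _ => ⟨fun _ => h2, fun _ => hy1⟩,
      fun _ => not_dvd_C4 W hq hy1 hy3, ?_⟩
    rintro rfl hy
    apply hx3 rfl
    have := dvd_sub hy (by exact_mod_cast hyx : (3 : ℤ) ∣ y - x)
    simpa using this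
  · refine ⟨1, 0, good_one_zero hss hq fun h1 => ?_⟩
    exact Nat.not_even_iff_odd.mp fun h2 => h ⟨h1, h2⟩

/-- the local choice at `q₁` -/
lemma exists_good_dvd {q : ℕ} (hq : q.Prime) (hqR : ¬ (q : ℤ) ∣ RR W) {x : ℤ}
    (hx : (q : ℤ) ∣ D W x 1) : ∃ u v : ℤ, Good W q u v ∧ (q : ℤ) ∣ D W u v := by
  have hqi := Nat.prime_iff_prime_int.mp hq
  obtain ⟨y, -, hy1, hy2, -⟩ := exists_exact W hq hx (not_dvd_Du W hq hqR hqi.not_dvd_one hx)
  exact ⟨y, 1, good_of_sq hq hqR (fun h => hqi.not_dvd_one h.2) hy2, hy1⟩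

end Fermat.Agent.P2.Local
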