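import Mathlib
import Fermat.Agent.P2.SieveAux

/-!
# P2 block 1: counting the bad pairs for one prime
-/

set_option autoImplicit false

open Finset Polynomial

namespace Fermat.Agent.P2.Sieve

variable {a b c d : ℤ}

lemma modEq_of_dvd {M P : ℤ} {n : ℕ} (hcop : IsCoprime (n : ℤ) M) {i j : ℕ}
    (h : (n : ℤ) ∣ (P + M * i) - (P + M * j)) : i ≡ j [MOD n] := by
  have h1 : (n : ℤ) ∣ M * ((i : ℤ) - j) := by
    have : (P + M * i) - (P + M * j) = M * ((i : ℤ) - j) := by ring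
    rwa [this] at h
  have h2 : (n : ℤ) ∣ (i : ℤ) - j := hcop.dvd_of_dvd_mul_left h1
  have h3 : (j : ℤ) ≡ i [ZMOD n] := (Int.modEq_iff_dvd).mpr h2
  exact (Int.natCast_modEq_iff.mp h3).symm

lemma card_bad1 {q : ℕ} (hq : q.Prime) {M : ℤ} (hqM : ¬ (q : ℤ) ∣ M) (P T : ℤ) (Y : ℕ) :
    #{p ∈ range Y ×ˢ range Y | (q : ℤ) ∣ P + M * (p.1 : ℕ) ∧ (q : ℤ) ∣ T + M * (p.2 : ℕ)} ≤
      (Y / q + 1) * (Y / q + 1) := by
  have hcop : IsCoprime (q : ℤ) M :=
    (Prime.coprime_iff_not_dvd (Nat.prime_iff_prime_int.mp hq)).mpr hqM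
  have key : ∀ P : ℤ, #{i ∈ range Y | (q : ℤ) ∣ P + M * (i : ℕ)} ≤ Y / q + 1 := by
    intro P
    refine card_le_of_modEq hq.pos _ (filter_subset _ _) ?_
    intro i hi j hj
    rw [mem_filter] at hi hj
    exact modEq_of_dvd hcop (dvd_sub hi.2 hj.2)
  refine (card_le_card (t := {i ∈ range Y | (q : ℤ) ∣ P + M * (i : ℕ)} ×ˢ
    {i ∈ range Y | (q : ℤ) ∣ T + M * (i : ℕ)}) ?_).trans ?_
  · intro p hp
    simp only [mem_filter, mem_product] at hp ⊢
    exact ⟨⟨hp.1.1, hp.2.1⟩, ⟨hp.1.2, hp.2.2⟩⟩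
  · rw [card_product]
    exact Nat.mul_le_mul (key P) (key T)

lemma card_bad2 {A B : ℤ[X]} {R : ℤ} (hb : A * f4 a b c d + B * derivative (f4 a b c d) = C R)
    {q : ℕ} (hq : q.Prime) (hqR : ¬ (q : ℤ) ∣ R) {M : ℤ} (hqM : ¬ (q : ℤ) ∣ M) (P T : ℤ) (Y : ℕ) :
    #{p ∈ range Y ×ˢ range Y | ¬ (q : ℤ) ∣ T + M * (p.2 : ℕ) ∧
      (q : ℤ) ^ 2 ∣ Q4 a b c d (P + M * (p.1 : ℕ)) (T + M * (p.2 : ℕ))} ≤
      ((Y / q ^ 2 + 1) * 4) * Y := by
  classical
  have hcop : IsCoprime ((q ^ 2 : ℕ) : ℤ) M := by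
    push_cast
    exact ((Prime.coprime_iff_not_dvd (Nat.prime_iff_prime_int.mp hq)).mpr hqM).pow_left
  set S : Finset (ℕ × ℕ) := {p ∈ range Y ×ˢ range Y | ¬ (q : ℤ) ∣ T + M * (p.2 : ℕ) ∧
      (q : ℤ) ^ 2 ∣ Q4 a b c d (P + M * (p.1 : ℕ)) (T + M * (p.2 : ℕ))} with hS
  have h1 : #S ≤ ((Y / q ^ 2 + 1) * 4) * #(S.image Prod.snd) := by
    refine card_le_mul_card_image S _ fun j _ => ?_
    refine card_le_four_mul (a := a) (b := b) (c := c) (d := d) hq _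
      (fun p => P + M * (p.1 : ℕ)) (fun p => T + M * (p.2 : ℕ)) _ ?_ ?_ ?_
    · intro p hp
      exact (mem_filter.mp (mem_filter.mp hp).1).2.1
    · intro p hp
      exact (mem_filter.mp (mem_filter.mp hp).1).2.2
    · intro T' hT' hpair
      have hinj : Set.InjOn Prod.fst (T' : Set (ℕ × ℕ)) := by
        intro x hx y hy hxy
        have hx2 := (mem_filter.mp (hT' hx)).2
        have hy2 := (mem_filter.mp (hT' hy)).2
        exact Prod.ext hxy (hx2.trans hy2.symm)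
      rw [← card_image_of_injOn hinj]
      refine card_le_of_modEq (pow_pos hq.pos 2) _ ?_ ?_
      · intro x hx
        obtain ⟨p, hp, rfl⟩ := mem_image.mp hx
        exact (mem_product.mp (mem_filter.mp (mem_filter.mp (hT' hp)).1).1).1
      · intro x hx y hy
        obtain ⟨p, hp, rfl⟩ := mem_image.mp hx
        obtain ⟨p', hp', rfl⟩ := mem_image.mp hy
        have hp1 := (mem_filter.mp (mem_filter.mp (hT' hp)).1).2
        have hp1' := (mem_filter.mp (mem_filter.mp (hT' hp')).1).2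
        have h2 := hensel hb hq hqR hp1.1 hp1'.1 hp1.2 hp1'.2 (hpair p hp p' hp')
        have hpj : p.2 = j := (mem_filter.mp (hT' hp)).2
        have hpj' : p'.2 = j := (mem_filter.mp (hT' hp')).2
        have h3 : ((q ^ 2 : ℕ) : ℤ) ∣ (P + M * (p.1 : ℕ)) - (P + M * (p'.1 : ℕ)) := by
          rw [hpj, hpj'] at h2
          have hcop2 : IsCoprime ((q : ℤ) ^ 2) (T + M * (j : ℕ)) := by
            rw [← hpj]
            exact ((Prime.coprime_iff_not_dvd (Nat.prime_iff_prime_int.mp hq)).mpr hp1.1).pow_left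
          push_cast
          refine hcop2.dvd_of_dvd_mul_right ?_
          have : ((P + M * (p.1 : ℤ)) - (P + M * (p'.1 : ℤ))) * (T + M * (j : ℤ)) =
            (P + M * (p.1 : ℤ)) * (T + M * (j : ℤ)) - (P + M * (p'.1 : ℤ)) * (T + M * (j : ℤ)) := by
            ring
          rw [this]
          exact h2
        exact modEq_of_dvd hcop h3
  refine h1.trans (Nat.mul_le_mul_left _ ?_)
  refine (card_le_card (t := range Y) ?_).trans (card_range Y).le
  intro x hx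
  obtain ⟨p, hp, rfl⟩ := mem_image.mp hx
  exact (mem_product.mp (mem_filter.mp hp).1).2

lemma eq_of_mul_eq {u v u' v' : ℤ} (hc : IsCoprime u v) (hc' : IsCoprime u' v') (hv : 0 < v)
    (hv' : 0 < v') (h : u * v' = u' * v) : u = u' ∧ v = v' := by
  have h1 : v ∣ v' := by
    refine hc.symm.dvd_of_dvd_mul_left ?_
    rw [h]; exact dvd_mul_left _ _
  have h2 : v' ∣ v := by
    refine hc'.symm.dvd_of_dvd_mul_left ?_
    rw [← h]; exact dvd_mul_left _ _
  have h3 : v = v' := Int.dvd_antisymm hv.le hv'.le h1 h2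
  subst h3
  exact ⟨mul_right_cancel₀ hv.ne' h, rfl⟩

lemma card_bad3 {A B : ℤ[X]} {R : ℤ} (hb : A * f4 a b c d + B * derivative (f4 a b c d) = C R)
    {q : ℕ} (hq : q.Prime) (hqR : ¬ (q : ℤ) ∣ R) {M : ℤ} (hM : M ≠ 0) (P T : ℤ)
    {H : ℤ} (hH : 2 * H ^ 2 < (q : ℤ) ^ 2) (S : Finset (ℕ × ℕ))
    (hS : ∀ p ∈ S, IsCoprime (P + M * (p.1 : ℕ)) (T + M * (p.2 : ℕ)) ∧
      0 < T + M * (p.2 : ℕ) ∧ T + M * (p.2 : ℕ) ≤ H ∧ |P + M * (p.1 : ℕ)| ≤ H ∧
      ¬ (q : ℤ) ∣ T + M * (p.2 : ℕ) ∧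
      (q : ℤ) ^ 2 ∣ Q4 a b c d (P + M * (p.1 : ℕ)) (T + M * (p.2 : ℕ))) :
    #S ≤ 1 * 4 := by
  classical
  refine card_le_four_mul (a := a) (b := b) (c := c) (d := d) hq S
      (fun p => P + M * (p.1 : ℕ)) (fun p => T + M * (p.2 : ℕ)) _ ?_ ?_ ?_
  · intro p hp; exact (hS p hp).2.2.2.2.1
  · intro p hp; exact (hS p hp).2.2.2.2.2
  · intro T' hT' hpair
    rw [card_le_one]
    intro p hp p' hp'
    obtain ⟨hc, hv, hvH, huH, hqv, hqD⟩ := hS p (hT' hp)
    obtain ⟨hc', hv', hvH', huH', hqv', hqD'⟩ := hS p' (hT' hp')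
    have h2 := hensel hb hq hqR hqv hqv' hqD hqD' (hpair p hp p' hp')
    set u := P + M * (p.1 : ℕ)
    set v := T + M * (p.2 : ℕ)
    set u' := P + M * (p'.1 : ℕ) with hu'
    set v' := T + M * (p'.2 : ℕ) with hv'def
    have h3 : u * v' - u' * v = 0 := by
      refine Int.eq_zero_of_abs_lt_dvd h2 (lt_of_le_of_lt ?_ hH)
      have e1 : |u * v'| ≤ H * H := by
        rw [abs_mul]
        refine mul_le_mul huH ?_ (abs_nonneg _) ((abs_nonneg _).trans huH)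
        rw [abs_of_pos hv']; exact hvH'
      have e2 : |u' * v| ≤ H * H := by
        rw [abs_mul]
        refine mul_le_mul huH' ?_ (abs_nonneg _) ((abs_nonneg _).trans huH')
        rw [abs_of_pos hv]; exact hvH
      have e3 := abs_sub (u * v') (u' * v)
      linarith
    obtain ⟨h4, h5⟩ := eq_of_mul_eq hc hc' hv hv' (sub_eq_zero.mp h3)
    have h6 : (p.1 : ℤ) = p'.1 := by
      have : M * (p.1 : ℤ) = M * p'.1 := by linarith [h4]
      exact mul_left_cancel₀ hM this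
    have h7 : (p.2 : ℤ) = p'.2 := by
      have : M * (p.2 : ℤ) = M * p'.2 := by linarith [h5]
      exact mul_left_cancel₀ hM this
    exact Prod.ext (by exact_mod_cast h6) (by exact_mod_cast h7)

end Fermat.Agent.P2.Sieve
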