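import Mathlib
import Fermat.Agent.P2.SieveCount

/-!
# P2 block 1: the sieve for squarefree values of a binary quartic form
-/

set_option autoImplicit false

open Finset Polynomial Filter

namespace Fermat.Agent.P2.Sieve

variable {a b c d : ℤ}

lemma eventually_pi_le {ε : ℝ} (hε : 0 < ε) :
    ∀ᶠ n : ℕ in atTop, (Nat.primeCounting n : ℝ) ≤ ε * n := by
  have h1 := Chebyshev.eventually_primeCounting_le (ε := 1) one_pos
  have h2 : ∀ᶠ x : ℝ in atTop, (Real.log 4 + 1) / ε ≤ Real.log x :=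
    Real.tendsto_log_atTop.eventually_ge_atTop _
  have h3 := (h1.and (h2.and (eventually_gt_atTop (1 : ℝ))))
  have h4 := tendsto_natCast_atTop_atTop (R := ℝ) |>.eventually h3
  filter_upwards [h4] with n hn
  obtain ⟨hn1, hn2, hn3⟩ := hn
  rw [Nat.floor_natCast] at hn1
  refine hn1.trans ?_
  have hlog : 0 < Real.log n := Real.log_pos hn3
  rw [div_le_iff₀ hlog]
  have h5 : Real.log 4 + 1 ≤ ε * Real.log n := by
    rw [div_le_iff₀ hε] at hn2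
    linarith
  have h6 : (0 : ℝ) ≤ n := by positivity
  nlinarith

lemma sum_prime_bound (Y N1 : ℕ) (hY : 1 ≤ Y) (M : ℤ)
    (hM12 : ∀ q : ℕ, q.Prime → q ≤ 12 → (q : ℤ) ∣ M) :
    ((∑ q ∈ (Nat.primesLE N1).filter (fun q : ℕ => ¬ (q : ℤ) ∣ M),
      ((Y / q + 1) * (Y / q + 1) + ((Y / q ^ 2 + 1) * 4) * Y) : ℕ) : ℝ) ≤
      5 / 12 * (Y : ℝ) ^ 2 + 7 * Y * Nat.primeCounting N1 := by
  have hY' : (1 : ℝ) ≤ Y := by exact_mod_cast hY
  have hmem : ∀ q ∈ (Nat.primesLE N1).filter (fun q : ℕ => ¬ (q : ℤ) ∣ M), 12 < q ∧ q ≤ N1 := by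
    intro q hq
    rw [mem_filter, Nat.mem_primesLE] at hq
    refine ⟨?_, hq.1.1⟩
    by_contra hcon
    exact hq.2 (hM12 q hq.1.2 (not_lt.mp hcon))
  push_cast
  calc ∑ q ∈ (Nat.primesLE N1).filter (fun q : ℕ => ¬ (q : ℤ) ∣ M),
      ((((Y / q : ℕ) : ℝ) + 1) * (((Y / q : ℕ) : ℝ) + 1) +
        ((((Y / q ^ 2 : ℕ) : ℝ) + 1) * 4) * (Y : ℝ))
      ≤ ∑ q ∈ (Nat.primesLE N1).filter (fun q : ℕ => ¬ (q : ℤ) ∣ M),
        (5 * (Y : ℝ) ^ 2 * ((q : ℝ) ^ 2)⁻¹ + 7 * Y) := by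
        refine sum_le_sum fun q hq => ?_
        have hq12 : (12 : ℝ) < q := by exact_mod_cast (hmem q hq).1
        have hq0 : (0 : ℝ) < q := by linarith
        have e1 : ((Y / q : ℕ) : ℝ) ≤ (Y : ℝ) / q := Nat.cast_div_le
        have e2 : ((Y / q ^ 2 : ℕ) : ℝ) ≤ (Y : ℝ) / q ^ 2 := by
          have := Nat.cast_div_le (α := ℝ) (m := Y) (n := q ^ 2)
          push_cast at this
          exact this
        have e3 : (0 : ℝ) ≤ ((Y / q : ℕ) : ℝ) := by positivity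
        have e4 : ((((Y / q : ℕ) : ℝ) + 1) * (((Y / q : ℕ) : ℝ) + 1)) ≤
            ((Y : ℝ) / q + 1) * ((Y : ℝ) / q + 1) := by
          apply mul_le_mul <;> linarith
        have e5 : ((((Y / q ^ 2 : ℕ) : ℝ) + 1) * 4) * (Y : ℝ) ≤
            (((Y : ℝ) / q ^ 2 + 1) * 4) * Y := by
          gcongr
        have e6 : ((Y : ℝ) / q + 1) * ((Y : ℝ) / q + 1) =
            (Y : ℝ) ^ 2 * ((q : ℝ) ^ 2)⁻¹ + 2 * ((Y : ℝ) / q) + 1 := by
          field_simp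
          ring
        have e7 : (Y : ℝ) / q ≤ Y := by
          rw [div_le_iff₀ hq0]
          nlinarith
        have e8 : (((Y : ℝ) / q ^ 2 + 1) * 4) * Y =
            4 * (Y : ℝ) ^ 2 * ((q : ℝ) ^ 2)⁻¹ + 4 * Y := by
          field_simp
        rw [e8] at e5
        rw [e6] at e4
        linarith
    _ = 5 * (Y : ℝ) ^ 2 * (∑ q ∈ (Nat.primesLE N1).filter (fun q : ℕ => ¬ (q : ℤ) ∣ M),
        ((q : ℝ) ^ 2)⁻¹) + #((Nat.primesLE N1).filter (fun q : ℕ => ¬ (q : ℤ) ∣ M)) * (7 * Y) := by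
        rw [sum_add_distrib, ← mul_sum, sum_const, nsmul_eq_mul]
    _ ≤ 5 * (Y : ℝ) ^ 2 * (1 / 12) + Nat.primeCounting N1 * (7 * Y) := by
        have e1 : (∑ q ∈ (Nat.primesLE N1).filter (fun q : ℕ => ¬ (q : ℤ) ∣ M),
            ((q : ℝ) ^ 2)⁻¹) ≤ 1 / 12 := by
          calc (∑ q ∈ (Nat.primesLE N1).filter (fun q : ℕ => ¬ (q : ℤ) ∣ M), ((q : ℝ) ^ 2)⁻¹)
              ≤ ∑ q ∈ Ioc 12 (max 12 N1), ((q : ℝ) ^ 2)⁻¹ := by
                refine sum_le_sum_of_subset_of_nonneg ?_ fun _ _ _ => by positivity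
                intro q hq
                have := hmem q hq
                rw [mem_Ioc]
                exact ⟨this.1, this.2.trans (le_max_right _ _)⟩
            _ ≤ ((12 : ℕ) : ℝ)⁻¹ - ((max 12 N1 : ℕ) : ℝ)⁻¹ :=
                sum_Ioc_inv_sq_le_sub (by norm_num) (le_max_left _ _)
            _ ≤ 1 / 12 := by
                have : (0 : ℝ) ≤ ((max 12 N1 : ℕ) : ℝ)⁻¹ := by positivity
                push_cast at this ⊢
                linarith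
        have e2 : (#((Nat.primesLE N1).filter (fun q : ℕ => ¬ (q : ℤ) ∣ M)) : ℝ) ≤
            Nat.primeCounting N1 := by
          rw [← Nat.primesLE_card_eq_primeCounting]
          exact_mod_cast card_le_card (filter_subset _ _)
        gcongr
    _ = 5 / 12 * (Y : ℝ) ^ 2 + 7 * Y * Nat.primeCounting N1 := by ring

lemma not_dvd_snd {u v : ℤ} {q : ℕ} (hq : q.Prime) (h : ¬ ((q : ℤ) ∣ u ∧ (q : ℤ) ∣ v))
    (hD : (q : ℤ) ^ 2 ∣ Q4 a b c d u v) : ¬ (q : ℤ) ∣ v := by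
  intro hv
  apply h
  refine ⟨?_, hv⟩
  have h1 : (q : ℤ) ∣ Q4 a b c d u v := (dvd_pow_self _ two_ne_zero).trans hD
  have h2 : (q : ℤ) ∣ u ^ 4 := by
    have : u ^ 4 = Q4 a b c d u v - v * (a * u ^ 3 + b * u ^ 2 * v + c * u * v ^ 2 + d * v ^ 3) := by
      unfold Q4; ring
    rw [this]
    exact h1.sub (hv.mul_right _)
  exact (Nat.prime_iff_prime_int.mp hq).dvd_of_dvd_pow h2

lemma isCoprime_of_prime {u v : ℤ} (hv : v ≠ 0)
    (h : ∀ q : ℕ, q.Prime → ¬ ((q : ℤ) ∣ u ∧ (q : ℤ) ∣ v)) : IsCoprime u v := by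
  rw [Int.isCoprime_iff_gcd_eq_one]
  by_contra hg
  obtain ⟨q, hq, hqd⟩ := Nat.exists_prime_and_dvd hg
  exact h q hq ⟨(Int.natCast_dvd_natCast.mpr hqd).trans (Int.gcd_dvd_left _ _),
    (Int.natCast_dvd_natCast.mpr hqd).trans (Int.gcd_dvd_right _ _)⟩

/-- the finite form of the sieve -/
theorem exists_good {A B : ℤ[X]} {R : ℤ}
    (hb : A * f4 a b c d + B * derivative (f4 a b c d) = C R)
    {M : ℤ} (hM : 0 < M) (hMR : ∀ q : ℕ, q.Prime → (q : ℤ) ∣ R → (q : ℤ) ∣ M)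
    (hM12 : ∀ q : ℕ, q.Prime → q ≤ 12 → (q : ℤ) ∣ M) {P T : ℤ}
    (h0 : ∀ q : ℕ, q.Prime → (q : ℤ) ∣ M → ¬ ((q : ℤ) ∣ P ∧ (q : ℤ) ∣ T))
    {Y : ℕ} (hY : 1 ≤ Y) {K C₀ : ℕ}
    (hu : ∀ i ∈ range Y, |P + M * (i : ℕ)| ≤ K * Y)
    (hv : ∀ j ∈ range Y, 0 < T + M * (j : ℕ) ∧ T + M * (j : ℕ) ≤ K * Y)
    (hne : ∀ i ∈ range Y, ∀ j ∈ range Y, Q4 a b c d (P + M * (i : ℕ)) (T + M * (j : ℕ)) ≠ 0)
    (hC : ∀ i ∈ range Y, ∀ j ∈ range Y,
      |Q4 a b c d (P + M * (i : ℕ)) (T + M * (j : ℕ))| ≤ (C₀ * Y ^ 2) ^ 2)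
    (hπ1 : 7 * (Y : ℝ) * Nat.primeCounting (2 * K * Y) ≤ (Y : ℝ) ^ 2 / 4)
    (hπ2 : 4 * (Nat.primeCounting (C₀ * Y ^ 2) : ℝ) ≤ (Y : ℝ) ^ 2 / 4) :
    ∃ i ∈ range Y, ∃ j ∈ range Y, IsCoprime (P + M * (i : ℕ)) (T + M * (j : ℕ)) ∧
      ∀ q : ℕ, q.Prime → ¬ (q : ℤ) ∣ M →
        ¬ (q : ℤ) ^ 2 ∣ Q4 a b c d (P + M * (i : ℕ)) (T + M * (j : ℕ)) := by
  classical
  set Q1 := (Nat.primesLE (2 * K * Y)).filter (fun q : ℕ => ¬ (q : ℤ) ∣ M) with hQ1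
  set Q2 := (Nat.primesLE (C₀ * Y ^ 2)).filter (fun q : ℕ => ¬ (q : ℤ) ∣ M ∧ 2 * K * Y < q) with hQ2
  let B1 : ℕ → Finset (ℕ × ℕ) := fun q => {p ∈ range Y ×ˢ range Y |
    (q : ℤ) ∣ P + M * (p.1 : ℕ) ∧ (q : ℤ) ∣ T + M * (p.2 : ℕ)}
  let B2 : ℕ → Finset (ℕ × ℕ) := fun q => {p ∈ range Y ×ˢ range Y | ¬ (q : ℤ) ∣ T + M * (p.2 : ℕ) ∧
      (q : ℤ) ^ 2 ∣ Q4 a b c d (P + M * (p.1 : ℕ)) (T + M * (p.2 : ℕ))}
  let B3 : ℕ → Finset (ℕ × ℕ) := fun q => {p ∈ range Y ×ˢ range Y |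
    IsCoprime (P + M * (p.1 : ℕ)) (T + M * (p.2 : ℕ)) ∧ ¬ (q : ℤ) ∣ T + M * (p.2 : ℕ) ∧
      (q : ℤ) ^ 2 ∣ Q4 a b c d (P + M * (p.1 : ℕ)) (T + M * (p.2 : ℕ))}
  set Bad : Finset (ℕ × ℕ) := Q1.biUnion (fun q : ℕ => B1 q ∪ B2 q) ∪ Q2.biUnion B3 with hBad
  have hcard : (#Bad : ℝ) < (Y : ℝ) ^ 2 := by
    have h1 : #Bad ≤ (∑ q ∈ Q1, ((Y / q + 1) * (Y / q + 1) + ((Y / q ^ 2 + 1) * 4) * Y)) +
        #Q2 * 4 := by
      refine (card_union_le _ _).trans (Nat.add_le_add ?_ ?_)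
      · refine card_biUnion_le.trans (sum_le_sum fun q hq => ?_)
        rw [hQ1, mem_filter, Nat.mem_primesLE] at hq
        refine (card_union_le _ _).trans (Nat.add_le_add ?_ ?_)
        · exact card_bad1 hq.1.2 hq.2 P T Y
        · exact card_bad2 hb hq.1.2 (fun h => hq.2 (hMR q hq.1.2 h)) hq.2 P T Y
      · refine card_biUnion_le_card_mul _ _ _ fun q hq => ?_
        rw [hQ2, mem_filter, Nat.mem_primesLE] at hq
        have hH : 2 * ((K * Y : ℕ) : ℤ) ^ 2 < (q : ℤ) ^ 2 := by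
          have h1 : ((2 * K * Y : ℕ) : ℤ) < q := by exact_mod_cast hq.2.2
          push_cast at h1 ⊢
          have h2 : (0 : ℤ) ≤ (K : ℤ) * Y := by positivity
          nlinarith
        refine (card_bad3 hb hq.1.2 (fun h => hq.2.1 (hMR q hq.1.2 h)) hM.ne' P T hH (B3 q)
          ?_).trans (by norm_num)
        intro p hp
        rw [mem_filter, mem_product] at hp
        push_cast
        exact ⟨hp.2.1, (hv _ hp.1.2).1, (hv _ hp.1.2).2, hu _ hp.1.1, hp.2.2.1, hp.2.2.2⟩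
    have h2 : (#Bad : ℝ) ≤ ((∑ q ∈ Q1, ((Y / q + 1) * (Y / q + 1) +
        ((Y / q ^ 2 + 1) * 4) * Y) : ℕ) : ℝ) + #Q2 * 4 := by exact_mod_cast h1
    have h3 := sum_prime_bound Y (2 * K * Y) hY M hM12
    have h4 : (#Q2 : ℝ) ≤ Nat.primeCounting (C₀ * Y ^ 2) := by
      rw [← Nat.primesLE_card_eq_primeCounting]
      exact_mod_cast card_le_card (filter_subset _ _)
    have hY' : (1 : ℝ) ≤ Y := by exact_mod_cast hY
    nlinarith
  have hex : ∃ p ∈ range Y ×ˢ range Y, p ∉ Bad := by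
    by_contra hcon
    push Not at hcon
    have h1 : #(range Y ×ˢ range Y) ≤ #Bad := card_le_card hcon
    rw [card_product, card_range] at h1
    have h2 : (Y : ℝ) * Y ≤ #Bad := by exact_mod_cast h1
    nlinarith
  obtain ⟨p, hp, hpB⟩ := hex
  rw [mem_product] at hp
  rw [hBad, mem_union, not_or, mem_biUnion, mem_biUnion] at hpB
  push Not at hpB
  obtain ⟨hp1, hp2⟩ := hpB
  obtain ⟨hv0, hvK⟩ := hv _ hp.2
  have hKY : ∀ q : ℕ, q ≤ K * Y → q ≤ 2 * K * Y := fun q h => by nlinarith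
  -- no common prime
  have hnc : ∀ q : ℕ, q.Prime → ¬ ((q : ℤ) ∣ P + M * (p.1 : ℕ) ∧ (q : ℤ) ∣ T + M * (p.2 : ℕ)) := by
    intro q hq hcon
    by_cases hqM : (q : ℤ) ∣ M
    · refine h0 q hq hqM ⟨?_, ?_⟩
      · exact (Int.dvd_add_left (hqM.mul_right _)).mp hcon.1
      · exact (Int.dvd_add_left (hqM.mul_right _)).mp hcon.2
    · have h1 : (q : ℤ) ≤ T + M * (p.2 : ℕ) := Int.le_of_dvd hv0 hcon.2
      have h2 : q ≤ K * Y := by exact_mod_cast h1.trans hvK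
      have h3 : q ∈ Q1 := by
        rw [hQ1, mem_filter, Nat.mem_primesLE]
        exact ⟨⟨hKY q h2, hq⟩, hqM⟩
      have h4 := hp1 q h3
      apply h4
      rw [mem_union]
      left
      rw [mem_filter, mem_product]
      exact ⟨hp, hcon⟩
  have hcop : IsCoprime (P + M * (p.1 : ℕ)) (T + M * (p.2 : ℕ)) := isCoprime_of_prime hv0.ne' hnc
  refine ⟨p.1, hp.1, p.2, hp.2, hcop, fun q hq hqM hqD => ?_⟩
  have hqv := not_dvd_snd hq (hnc q hq) hqD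
  by_cases hq1 : q ≤ 2 * K * Y
  · have h3 : q ∈ Q1 := by
      rw [hQ1, mem_filter, Nat.mem_primesLE]
      exact ⟨⟨hq1, hq⟩, hqM⟩
    apply hp1 q h3
    rw [mem_union]
    right
    rw [mem_filter, mem_product]
    exact ⟨hp, hqv, hqD⟩
  · have hq2 : q ≤ C₀ * Y ^ 2 := by
      have h1 : (q : ℤ) ^ 2 ≤ |Q4 a b c d (P + M * (p.1 : ℕ)) (T + M * (p.2 : ℕ))| :=
        Int.le_of_dvd (abs_pos.mpr (hne _ hp.1 _ hp.2)) ((dvd_abs _ _).mpr hqD)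
      have h2 : (q : ℤ) ^ 2 ≤ (C₀ * Y ^ 2) ^ 2 := h1.trans (hC _ hp.1 _ hp.2)
      have h3 : (q : ℤ) ≤ C₀ * Y ^ 2 := by
        exact abs_le_of_sq_le_sq' h2 (by positivity) |>.2
      exact_mod_cast h3
    have h3 : q ∈ Q2 := by
      rw [hQ2, mem_filter, Nat.mem_primesLE]
      exact ⟨⟨hq2, hq⟩, hqM, not_le.mp hq1⟩
    apply hp2 q h3
    rw [mem_filter, mem_product]
    exact ⟨hp, hcop, hqv, hqD⟩

end Fermat.Agent.P2.Sieve
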