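import Mathlib
import Fermat.Agent.P2.Sieve

/-!
# P2 block 1: the sieve, final form
-/

set_option autoImplicit false

open Finset Polynomial Filter Topology

namespace Fermat.Agent.P2.Sieve

variable {a b c d : ℤ}

/-- the quartic form over `ℝ` -/
def QR (a b c d : ℤ) (x y : ℝ) : ℝ :=
  x ^ 4 + a * x ^ 3 * y + b * x ^ 2 * y ^ 2 + c * x * y ^ 3 + d * y ^ 4

lemma cast_Q4 (u v : ℤ) : ((Q4 a b c d u v : ℤ) : ℝ) = QR a b c d u v := by
  unfold Q4 QR; push_cast; ring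

lemma QR_smul (z x y : ℝ) : QR a b c d (z * x) (z * y) = z ^ 4 * QR a b c d x y := by
  unfold QR; ring

lemma exists_delta {s : ℤ} {x y : ℤ} (h : 0 < s * Q4 a b c d x y) :
    ∃ t : ℕ, 1 ≤ t ∧ ∀ x' y' : ℝ, |x' - x| ≤ 1 / t → |y' - y| ≤ 1 / t →
      1 / 2 < (s : ℝ) * QR a b c d x' y' := by
  have hc : Continuous (fun p : ℝ × ℝ => (s : ℝ) * QR a b c d p.1 p.2) := by
    unfold QR
    fun_prop
  have h1 : (1 : ℝ) / 2 < (s : ℝ) * QR a b c d x y := by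
    have h2 : (1 : ℤ) ≤ s * Q4 a b c d x y := h
    have h3 : (1 : ℝ) ≤ ((s * Q4 a b c d x y : ℤ) : ℝ) := by exact_mod_cast h2
    rw [Int.cast_mul, cast_Q4] at h3
    linarith
  have h2 := (hc.continuousAt (x := ((x : ℝ), (y : ℝ)))).eventually
    (lt_mem_nhds (a := (1 : ℝ) / 2) h1)
  obtain ⟨δ, hδ, hball⟩ := Metric.eventually_nhds_iff.mp h2
  obtain ⟨n, hn⟩ := exists_nat_one_div_lt hδ
  refine ⟨n + 1, by omega, fun x' y' hx hy => hball (y := (x', y')) ?_⟩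
  rw [Prod.dist_eq, max_lt_iff, Real.dist_eq, Real.dist_eq]
  push_cast at hx hy
  exact ⟨hx.trans_lt hn, hy.trans_lt hn⟩

lemma abs_Q4_le {u v H : ℤ} (hu : |u| ≤ H) (hv : |v| ≤ H) :
    |Q4 a b c d u v| ≤ (1 + |a| + |b| + |c| + |d|) * H ^ 4 := by
  have hH : 0 ≤ H := (abs_nonneg u).trans hu
  have key : ∀ (e : ℤ) (i j : ℕ), i + j = 4 → |e * (u ^ i * v ^ j)| ≤ |e| * H ^ 4 := by
    intro e i j hij
    rw [abs_mul, abs_mul, abs_pow, abs_pow, ← hij, pow_add]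
    have := pow_le_pow_left₀ (abs_nonneg u) hu i
    have := pow_le_pow_left₀ (abs_nonneg v) hv j
    gcongr
  have e1 := key 1 4 0 rfl
  have e2 := key a 3 1 rfl
  have e3 := key b 2 2 rfl
  have e4 := key c 1 3 rfl
  have e5 := key d 0 4 rfl
  have : Q4 a b c d u v = 1 * (u ^ 4 * v ^ 0) + a * (u ^ 3 * v ^ 1) + b * (u ^ 2 * v ^ 2) +
    c * (u ^ 1 * v ^ 3) + d * (u ^ 0 * v ^ 4) := by unfold Q4; ring
  rw [this]
  rw [abs_one] at e1
  calc _ ≤ |1 * (u ^ 4 * v ^ 0)| + |a * (u ^ 3 * v ^ 1)| + |b * (u ^ 2 * v ^ 2)| +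
    |c * (u ^ 1 * v ^ 3)| + |d * (u ^ 0 * v ^ 4)| := by
        refine (abs_add_le _ _).trans (add_le_add ?_ le_rfl)
        refine (abs_add_le _ _).trans (add_le_add ?_ le_rfl)
        refine (abs_add_le _ _).trans (add_le_add ?_ le_rfl)
        exact abs_add_le _ _
    _ ≤ _ := by linarith

/-- **The sieve**: a binary quartic form takes values which are squarefree outside `M`, at pairs
in a given congruence class modulo `M`, in a given sector. -/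
theorem exists_sieve {A B : ℤ[X]} {R : ℤ}
    (hb : A * f4 a b c d + B * derivative (f4 a b c d) = C R)
    {M : ℤ} (hM : 0 < M) (hMR : ∀ q : ℕ, q.Prime → (q : ℤ) ∣ R → (q : ℤ) ∣ M)
    (hM12 : ∀ q : ℕ, q.Prime → q ≤ 12 → (q : ℤ) ∣ M) {u₀ v₀ : ℤ}
    (h0 : ∀ q : ℕ, q.Prime → (q : ℤ) ∣ M → ¬ ((q : ℤ) ∣ u₀ ∧ (q : ℤ) ∣ v₀))
    {s : ℤ} {x y : ℤ} (hy : 0 < y) (hxy : 0 < s * Q4 a b c d x y) (N : ℕ) :
    ∃ u v : ℤ, 0 < v ∧ IsCoprime u v ∧ M ∣ u - u₀ ∧ M ∣ v - v₀ ∧ 0 < s * Q4 a b c d u v ∧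
      (N : ℤ) * (|u| + |v| + 1) ^ 4 ≤ (s * Q4 a b c d u v) ^ 3 ∧
      ∀ q : ℕ, q.Prime → ¬ (q : ℤ) ∣ M → ¬ (q : ℤ) ^ 2 ∣ Q4 a b c d u v := by
  obtain ⟨t, ht, hδ⟩ := exists_delta hxy
  -- constants
  obtain ⟨M', rfl⟩ : ∃ M' : ℕ, M = (M' : ℤ) := ⟨M.toNat, (Int.toNat_of_nonneg hM.le).symm⟩
  have hM' : 0 < M' := by exact_mod_cast hM
  set K : ℕ := M' * t * (x.natAbs + y.natAbs + 1) with hK
  have hK0 : 0 < K := by positivity
  set E : ℕ := 1 + a.natAbs + b.natAbs + c.natAbs + d.natAbs with hE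
  set C₀ : ℕ := E * K ^ 2 with hC₀
  have hE1 : 1 ≤ E := by omega
  have hC0 : 0 < C₀ := by positivity
  -- choose `Y`
  have ev1 := eventually_pi_le (ε := 1 / (56 * K)) (by positivity)
  have ev2 := eventually_pi_le (ε := 1 / (16 * C₀)) (by positivity)
  have lim1 : Tendsto (fun Y : ℕ => 2 * K * Y) atTop atTop :=
    tendsto_id.const_mul_atTop' (by positivity)
  have lim2 : Tendsto (fun Y : ℕ => C₀ * Y ^ 2) atTop atTop :=
    (tendsto_pow_atTop two_ne_zero).const_mul_atTop' hC0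
  obtain ⟨Y, h1, h2, hYbig, hY1⟩ := ((lim1.eventually ev1).and ((lim2.eventually ev2).and
    ((eventually_ge_atTop (648 * N * K ^ 4)).and (eventually_ge_atTop 1)))).exists
  have hYpos : (0 : ℝ) < Y := by exact_mod_cast hY1
  -- the box
  set Z : ℤ := M' * t * Y with hZ
  have hZ0 : 0 < Z := by positivity
  set P : ℤ := u₀ % M' + Z * x with hP
  set T : ℤ := v₀ % M' + Z * y with hT
  have hu0 := Int.emod_nonneg u₀ hM.ne'
  have hu1 := Int.emod_lt_of_pos u₀ hM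
  have hv0 := Int.emod_nonneg v₀ hM.ne'
  have hv1 := Int.emod_lt_of_pos v₀ hM
  -- the offset
  have hoff : ∀ (r : ℤ), 0 ≤ r → r < M' → ∀ i ∈ range Y,
      0 ≤ r + M' * (i : ℕ) ∧ r + (M' : ℤ) * (i : ℕ) ≤ M' * Y := by
    intro r hr0 hr1 i hi
    have hi' : (i : ℤ) + 1 ≤ Y := by exact_mod_cast mem_range.mp hi
    constructor
    · positivity
    · nlinarith
  have hMYZ : (M' : ℤ) * Y ≤ Z := by
    have : (1 : ℤ) ≤ t := by exact_mod_cast ht
    have h3 : (0 : ℤ) ≤ (M' : ℤ) * Y := by positivity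
    rw [hZ]; nlinarith
  have hKYZ : ((K : ℤ)) * Y = Z * (|x| + |y| + 1) := by
    rw [hK, hZ]; push_cast; ring
  have hU : ∀ i ∈ range Y, |P + M' * (i : ℕ)| ≤ K * Y := by
    intro i hi
    obtain ⟨e1, e2⟩ := hoff _ hu0 hu1 i hi
    have e3 : P + M' * (i : ℕ) = Z * x + (u₀ % M' + M' * (i : ℕ)) := by rw [hP]; ring
    rw [e3, hKYZ]
    calc |Z * x + (u₀ % M' + M' * (i : ℕ))| ≤ |Z * x| + |u₀ % M' + M' * (i : ℕ)| := abs_add_le _ _
      _ = Z * |x| + (u₀ % M' + M' * (i : ℕ)) := by rw [abs_mul, abs_of_pos hZ0, abs_of_nonneg e1]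
      _ ≤ Z * (|x| + |y| + 1) := by nlinarith [abs_nonneg y]
  have hV : ∀ j ∈ range Y, 0 < T + M' * (j : ℕ) ∧ T + M' * (j : ℕ) ≤ K * Y := by
    intro j hj
    obtain ⟨e1, e2⟩ := hoff _ hv0 hv1 j hj
    have e3 : T + M' * (j : ℕ) = Z * y + (v₀ % M' + M' * (j : ℕ)) := by rw [hT]; ring
    rw [e3, hKYZ, abs_of_pos hy]
    have e4 : 0 < Z * y := by positivity
    constructor
    · linarith
    · nlinarith [abs_nonneg x]
  have hval : ∀ i ∈ range Y, ∀ j ∈ range Y, (Z : ℝ) ^ 4 / 2 <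
      (s : ℝ) * ((Q4 a b c d (P + M' * (i : ℕ)) (T + M' * (j : ℕ)) : ℤ) : ℝ) := by
    intro i hi j hj
    obtain ⟨e1, e2⟩ := hoff _ hu0 hu1 i hi
    obtain ⟨f1, f2⟩ := hoff _ hv0 hv1 j hj
    have hZR : (0 : ℝ) < Z := by exact_mod_cast hZ0
    have htR : (0 : ℝ) < t := by exact_mod_cast ht
    have hb1 : ∀ (r : ℤ), 0 ≤ r → r ≤ M' * Y → |(r : ℝ) / Z| ≤ 1 / t := by
      intro r hr0 hr1
      have hr0' : (0 : ℝ) ≤ r := by exact_mod_cast hr0
      rw [abs_of_nonneg (by positivity), div_le_div_iff₀ hZR htR]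
      have : (r : ℝ) ≤ M' * Y := by exact_mod_cast hr1
      rw [hZ]
      push_cast
      nlinarith
    have g1 := hb1 _ e1 e2
    have g2 := hb1 _ f1 f2
    have g3 := hδ (x + ((u₀ % M' + M' * (i : ℕ) : ℤ) : ℝ) / Z)
      (y + ((v₀ % M' + M' * (j : ℕ) : ℤ) : ℝ) / Z) (by rwa [add_sub_cancel_left])
      (by rwa [add_sub_cancel_left])
    have g4 : ((Q4 a b c d (P + M' * (i : ℕ)) (T + M' * (j : ℕ)) : ℤ) : ℝ) = (Z : ℝ) ^ 4 *
        QR a b c d (x + ((u₀ % M' + M' * (i : ℕ) : ℤ) : ℝ) / Z)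
        (y + ((v₀ % M' + M' * (j : ℕ) : ℤ) : ℝ) / Z) := by
      rw [cast_Q4, ← QR_smul]
      congr 1
      · rw [mul_add, mul_div_cancel₀ _ hZR.ne', hP]; push_cast; ring
      · rw [mul_add, mul_div_cancel₀ _ hZR.ne', hT]; push_cast; ring
    rw [g4]
    have hZ4 : (0 : ℝ) < (Z : ℝ) ^ 4 := by positivity
    nlinarith
  have hpos : ∀ i ∈ range Y, ∀ j ∈ range Y,
      0 < s * Q4 a b c d (P + M' * (i : ℕ)) (T + M' * (j : ℕ)) := by
    intro i hi j hj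
    have e1 := hval i hi j hj
    have e2 : (0 : ℝ) < (Z : ℝ) ^ 4 / 2 := by
      have : (0 : ℝ) < Z := by exact_mod_cast hZ0
      positivity
    have e3 := e2.trans e1
    exact_mod_cast e3
  have h0' : ∀ q : ℕ, q.Prime → (q : ℤ) ∣ (M' : ℤ) → ¬ ((q : ℤ) ∣ P ∧ (q : ℤ) ∣ T) := by
    intro q hq hqM ⟨g1, g2⟩
    have hqZ : (q : ℤ) ∣ Z := by
      rw [hZ, mul_assoc]; exact hqM.mul_right _
    refine h0 q hq hqM ⟨?_, ?_⟩
    · have e1 : (q : ℤ) ∣ u₀ % M' := (Int.dvd_add_left (hqZ.mul_right _)).mp g1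
      rw [← Int.emod_add_mul_ediv u₀ M']
      exact dvd_add e1 (hqM.mul_right _)
    · have e1 : (q : ℤ) ∣ v₀ % M' := (Int.dvd_add_left (hqZ.mul_right _)).mp g2
      rw [← Int.emod_add_mul_ediv v₀ M']
      exact dvd_add e1 (hqM.mul_right _)
  obtain ⟨i, hi, j, hj, hcop, hsq⟩ := exists_good (K := K) (C₀ := C₀) hb hM hMR hM12 h0' hY1 hU hV
    (fun i hi j hj h => by
      have := hpos i hi j hj
      rw [h, mul_zero] at this
      exact lt_irrefl _ this)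
    (fun i hi j hj => by
      have e1 := abs_Q4_le (a := a) (b := b) (c := c) (d := d) (hU i hi)
        (by rw [abs_of_pos (hV j hj).1]; exact (hV j hj).2)
      refine e1.trans ?_
      rw [hC₀]
      have e2 : (1 + |a| + |b| + |c| + |d| : ℤ) = (E : ℤ) := by rw [hE]; push_cast; ring
      rw [e2]
      push_cast
      have e3 : (1 : ℤ) ≤ E := by exact_mod_cast hE1
      have e4 : (0 : ℤ) ≤ ((K : ℤ) * Y) ^ 4 := by positivity
      calc (E : ℤ) * ((K : ℤ) * (Y : ℤ)) ^ 4 ≤ (E : ℤ) * ((E : ℤ) * ((K : ℤ) * (Y : ℤ)) ^ 4) := by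
            refine mul_le_mul_of_nonneg_left ?_ (by positivity)
            nlinarith
        _ = ((E : ℤ) * (K : ℤ) ^ 2 * (Y : ℤ) ^ 2) ^ 2 := by ring)
    (by
      have e1 : (K : ℝ) ≠ 0 := by positivity
      push_cast at h1
      have e2 : 1 / (56 * (K : ℝ)) * (2 * K * Y) = Y / 28 := by field_simp; norm_num
      rw [e2] at h1
      nlinarith)
    (by
      have e1 : (C₀ : ℝ) ≠ 0 := by positivity
      push_cast at h2
      have e2 : 1 / (16 * (C₀ : ℝ)) * (C₀ * Y ^ 2) = Y ^ 2 / 16 := by field_simp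
      rw [e2] at h2
      linarith)
  refine ⟨P + M' * (i : ℕ), T + M' * (j : ℕ), (hV j hj).1, hcop, ?_, ?_, hpos i hi j hj, ?_, hsq⟩
  · have e1 : P + M' * (i : ℕ) - u₀ = M' * (t * Y * x + i - u₀ / M') := by
      have := Int.emod_add_mul_ediv u₀ M'
      rw [hP, hZ]
      linear_combination this
    rw [e1]; exact dvd_mul_right _ _
  · have e1 : T + M' * (j : ℕ) - v₀ = M' * (t * Y * y + j - v₀ / M') := by
      have := Int.emod_add_mul_ediv v₀ M'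
      rw [hT, hZ]
      linear_combination this
    rw [e1]; exact dvd_mul_right _ _
  · -- size
    have e1 := hval i hi j hj
    have e2 := hU i hi
    have e3 := (hV j hj).2
    have e4 := (hV j hj).1
    set u := P + M' * (i : ℕ)
    set v := T + M' * (j : ℕ)
    have hK1 : (1 : ℤ) ≤ K := by exact_mod_cast hK0
    have hY1' : (1 : ℤ) ≤ Y := by exact_mod_cast hY1
    have hKY1 : (1 : ℤ) ≤ K * Y := by nlinarith
    have e5 : |u| + |v| + 1 ≤ 3 * (K * Y) := by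
      rw [abs_of_pos e4]; linarith
    have e6 : (N : ℤ) * (|u| + |v| + 1) ^ 4 ≤ N * (3 * (K * Y)) ^ 4 := by
      have : (0 : ℤ) ≤ |u| + |v| + 1 := by positivity
      gcongr
    have hYbig' : (648 * N * K ^ 4 : ℤ) ≤ Y := by exact_mod_cast hYbig
    have hZY : (Y : ℤ) ≤ Z := by
      have : (1 : ℤ) ≤ M' := by exact_mod_cast hM'
      nlinarith
    have e7 : 8 * ((N : ℤ) * (3 * (K * Y)) ^ 4) ≤ Z ^ 12 := by
      calc 8 * ((N : ℤ) * (3 * (K * Y)) ^ 4) = (648 * (N : ℤ) * (K : ℤ) ^ 4) * (Y : ℤ) ^ 4 := by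
            ring
        _ ≤ (Y : ℤ) * (Y : ℤ) ^ 4 := by gcongr
        _ = (Y : ℤ) ^ 5 := by ring
        _ ≤ (Y : ℤ) ^ 12 := pow_le_pow_right₀ hY1' (by norm_num)
        _ ≤ Z ^ 12 := by gcongr
    have e8 : (Z : ℝ) ^ 12 / 8 < (((s * Q4 a b c d u v : ℤ) : ℝ)) ^ 3 := by
      have : (Z : ℝ) ^ 12 / 8 = ((Z : ℝ) ^ 4 / 2) ^ 3 := by ring
      rw [this]
      push_cast
      have h3 : (0 : ℝ) ≤ (Z : ℝ) ^ 4 / 2 := by positivity
      exact pow_lt_pow_left₀ e1 h3 (by norm_num)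
    have e9 : (Z : ℤ) ^ 12 < 8 * (s * Q4 a b c d u v) ^ 3 := by
      have : (Z : ℝ) ^ 12 < 8 * (((s * Q4 a b c d u v : ℤ) : ℝ)) ^ 3 := by linarith
      exact_mod_cast this
    linarith

end Fermat.Agent.P2.Sieve
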