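import Mathlib
import Fermat.Agent.P2.Local
import Fermat.Agent.P2.Irr2
import Fermat.Agent.P2.SieveMain

/-!
# P2 block 1: auxiliary lemmas for the choice of the parameter
-/

set_option autoImplicit false

open Polynomial

namespace Fermat.Agent.P2.Param

open Fam3 Sieve Local

lemma isCoprime_prod_sq {P : Finset ℕ} (hP : ∀ q ∈ P, q.Prime) {p : ℕ} (hp : p.Prime)
    (hpP : p ∉ P) : IsCoprime (∏ q ∈ P, (q : ℤ) ^ 2) ((p : ℤ) ^ 2) := by
  refine IsCoprime.prod_left fun q hq => ?_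
  refine IsCoprime.pow ?_
  refine (Nat.isCoprime_iff_coprime).mpr ((Nat.coprime_primes (hP q hq) hp).mpr ?_)
  rintro rfl
  exact hpP hq

lemma crt (P : Finset ℕ) (hP : ∀ q ∈ P, q.Prime) (f : ℕ → ℤ) :
    ∃ x : ℤ, ∀ q ∈ P, (q : ℤ) ^ 2 ∣ x - f q := by
  classical
  induction P using Finset.induction_on with
  | empty => exact ⟨0, fun q hq => absurd hq (Finset.notMem_empty q)⟩
  | insert p P hp ih =>
    obtain ⟨x, hx⟩ := ih fun q hq => hP q (Finset.mem_insert_of_mem hq)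
    obtain ⟨a, b, hab⟩ := isCoprime_prod_sq (fun q hq => hP q (Finset.mem_insert_of_mem hq))
      (hP p (Finset.mem_insert_self _ _)) hp
    set m : ℤ := ∏ q ∈ P, (q : ℤ) ^ 2 with hm
    refine ⟨x + m * (a * (f p - x)), fun q hq => ?_⟩
    rcases Finset.mem_insert.mp hq with rfl | hq
    · refine ⟨-(b * (f q - x)), ?_⟩
      linear_combination (f q - x) * hab
    · have h1 : (q : ℤ) ^ 2 ∣ m := Finset.dvd_prod_of_mem (fun q : ℕ => (q : ℤ) ^ 2) hq
      have e1 : x + m * (a * (f p - x)) - f q = (x - f q) + m * (a * (f p - x)) := by ring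
      rw [e1]
      exact dvd_add (hx q hq) (h1.mul_right _)

lemma prime_dvd_prod_sq {P : Finset ℕ} (hP : ∀ q ∈ P, q.Prime) {q : ℕ} (hq : q.Prime) :
    (q : ℤ) ∣ ∏ p ∈ P, (p : ℤ) ^ 2 ↔ q ∈ P := by
  constructor
  · intro h
    obtain ⟨p, hp, hd⟩ := (Nat.prime_iff_prime_int.mp hq).exists_mem_finset_dvd h
    have h2 := (Nat.prime_iff_prime_int.mp hq).dvd_of_dvd_pow hd
    have h3 : q ∣ p := by exact_mod_cast h2
    rwa [(Nat.prime_dvd_prime_iff_eq hq (hP p hp)).mp h3]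
  · intro h
    exact (dvd_pow_self (q : ℤ) two_ne_zero).trans
      (Finset.dvd_prod_of_mem (fun q : ℕ => (q : ℤ) ^ 2) h)

variable (W : WeierstrassCurve ℤ)

/-- `D` takes the value `-3c₄²` -/
lemma D_b2_four : D W W.b₂ 4 = -3 * W.c₄ ^ 2 := by
  have rel := W.b_relation
  unfold D DD WeierstrassCurve.c₄
  linear_combination 1728 * rel

/-- `D` takes positive values -/
lemma exists_D_pos : ∃ x : ℤ, 0 < D W x 1 := by
  set S : ℤ := |W.b₂| + |9 * W.b₄| + |27 * W.b₆| + |27 * W.b₈| with hS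
  have h1 := abs_nonneg W.b₂
  have h2 := abs_nonneg (9 * W.b₄)
  have h3 := abs_nonneg (27 * W.b₆)
  have h4 := abs_nonneg (27 * W.b₈)
  refine ⟨S + 1, ?_⟩
  set x : ℤ := S + 1 with hx
  have hx1 : 1 ≤ x := by linarith
  have e1 : D W x 1 = x ^ 4 - W.b₂ * x ^ 3 + (9 * W.b₄) * x ^ 2 - (27 * W.b₆) * x +
      27 * W.b₈ := by unfold D DD; ring
  have hx3 : 0 < x ^ 3 := by positivity
  have f1 : W.b₂ * x ^ 3 ≤ |W.b₂| * x ^ 3 := by
    have := le_abs_self W.b₂; gcongr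
  have f2 : -(|9 * W.b₄| * x ^ 3) ≤ (9 * W.b₄) * x ^ 2 := by
    have e := neg_abs_le (9 * W.b₄)
    have e' : x ^ 2 ≤ x ^ 3 := pow_le_pow_right₀ hx1 (by norm_num)
    have e'' : 0 ≤ x ^ 2 := by positivity
    nlinarith
  have f3 : (27 * W.b₆) * x ≤ |27 * W.b₆| * x ^ 3 := by
    have e := le_abs_self (27 * W.b₆)
    have e' : x ≤ x ^ 3 := by
      calc x = x ^ 1 := (pow_one x).symm
        _ ≤ x ^ 3 := pow_le_pow_right₀ hx1 (by norm_num)
    nlinarith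
  have f4 : -(|27 * W.b₈| * x ^ 3) ≤ 27 * W.b₈ := by
    have e := neg_abs_le (27 * W.b₈)
    have e' : 1 ≤ x ^ 3 := one_le_pow₀ hx1
    nlinarith
  rw [e1]
  have e2 : x ^ 4 = x ^ 3 * (|W.b₂| + |9 * W.b₄| + |27 * W.b₆| + |27 * W.b₈|) + x ^ 3 := by
    rw [← hS]; rw [hx]; ring
  rw [e2]
  nlinarith

/-- the sign condition -/
lemma exists_sign (hΔ : W.Δ ≠ 0) (hc : W.c₄ ≠ 0) :
    ∃ s x y : ℤ, (s = 1 ∨ s = -1) ∧ s * W.Δ < 0 ∧ 0 < y ∧ 0 < s * D W x y := by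
  rcases lt_or_gt_of_ne hΔ with h | h
  · obtain ⟨x, hx⟩ := exists_D_pos W
    exact ⟨1, x, 1, Or.inl rfl, by linarith, one_pos, by linarith⟩
  · refine ⟨-1, W.b₂, 4, Or.inr rfl, by linarith, by norm_num, ?_⟩
    rw [D_b2_four]
    have : 0 < W.c₄ ^ 2 := by positivity
    linarith

/-- bound for `C₄` -/
lemma exists_bound : ∃ N : ℕ, ∀ u v : ℤ, |C4 W u v| ≤ N * (|u| + |v| + 1) ^ 4 := by
  obtain ⟨c0, hc0⟩ : ∃ c : ℤ, W.b₂ ^ 2 - 24 * W.b₄ = c := ⟨_, rfl⟩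
  obtain ⟨c1, hc1⟩ : ∃ c : ℤ, 216 * W.b₆ - 12 * W.b₂ * W.b₄ = c := ⟨_, rfl⟩
  obtain ⟨c2, hc2⟩ : ∃ c : ℤ, 108 * W.b₄ ^ 2 - 54 * W.b₂ * W.b₆ - 432 * W.b₈ = c := ⟨_, rfl⟩
  obtain ⟨c3, hc3⟩ : ∃ c : ℤ, 216 * W.b₂ * W.b₈ - 324 * W.b₄ * W.b₆ = c := ⟨_, rfl⟩
  obtain ⟨c4, hc4⟩ : ∃ c : ℤ, 729 * W.b₆ ^ 2 - 648 * W.b₄ * W.b₈ = c := ⟨_, rfl⟩
  refine ⟨c0.natAbs + c1.natAbs + c2.natAbs + c3.natAbs + c4.natAbs, fun u v => ?_⟩
  set H : ℤ := |u| + |v| + 1 with hH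
  have hu : |u| ≤ H := by have := abs_nonneg v; linarith
  have hv : |v| ≤ H := by have := abs_nonneg u; linarith
  have hH0 : 0 ≤ H := (abs_nonneg u).trans hu
  have key : ∀ (e : ℤ) (i j : ℕ), i + j = 4 → |e * (u ^ i * v ^ j)| ≤ |e| * H ^ 4 := by
    intro e i j hij
    rw [abs_mul, abs_mul, abs_pow, abs_pow, ← hij, pow_add]
    have := pow_le_pow_left₀ (abs_nonneg u) hu i
    have := pow_le_pow_left₀ (abs_nonneg v) hv j
    gcongr
  have e1 := key c0 4 0 rfl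
  have e2 := key c1 3 1 rfl
  have e3 := key c2 2 2 rfl
  have e4 := key c3 1 3 rfl
  have e5 := key c4 0 4 rfl
  have : C4 W u v = c0 * (u ^ 4 * v ^ 0) + c1 * (u ^ 3 * v ^ 1) + c2 * (u ^ 2 * v ^ 2) +
    c3 * (u ^ 1 * v ^ 3) + c4 * (u ^ 0 * v ^ 4) := by
    rw [← hc0, ← hc1, ← hc2, ← hc3, ← hc4]
    unfold C4 CC4; ring
  rw [this]
  push_cast
  calc _ ≤ |c0 * (u ^ 4 * v ^ 0)| + |c1 * (u ^ 3 * v ^ 1)| + |c2 * (u ^ 2 * v ^ 2)| +
    |c3 * (u ^ 1 * v ^ 3)| + |c4 * (u ^ 0 * v ^ 4)| := by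
        refine (abs_add_le _ _).trans (add_le_add ?_ le_rfl)
        refine (abs_add_le _ _).trans (add_le_add ?_ le_rfl)
        refine (abs_add_le _ _).trans (add_le_add ?_ le_rfl)
        exact abs_add_le _ _
    _ ≤ _ := by linarith

variable {W}

lemma c4_ne_zero (hss : W.IsSemistableModel) (h2 : (2 : ℤ) ∣ W.Δ) : W.c₄ ≠ 0 := by
  intro h
  exact hss 2 Nat.prime_two (by exact_mod_cast h2) (by rw [h]; exact dvd_zero _)

/-- from good parameters at all primes to the conditions on the model -/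
theorem curve_of_good (hΔ : W.Δ ≠ 0) (h2 : (2 : ℤ) ∣ W.Δ) {u v : ℤ}
    (hcop : IsCoprime u v) (hgood : ∀ q : ℕ, q.Prime → Good W q u v) {s : ℤ}
    (hs : s = 1 ∨ s = -1) (hsΔ : s * W.Δ < 0) (hsD : 0 < s * D W u v)
    (hsize : |C4 W u v| + 1 < (s * D W u v) ^ 3) :
    ∃ α β : ℤ, α * u - 3 * β * v = 1 ∧ (model W u v α β).Δ < 0 ∧
      (model W u v α β).IsSemistableModel ∧ (2 : ℤ) ∣ (model W u v α β).Δ ∧
      (∀ q : ℕ, q.Prime → (q : ℤ) ∣ (model W u v α β).Δ →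
        Odd (padicValInt q (model W u v α β).Δ)) ∧
      (model W u v α β).ModRepIsIrreducible 2 ∧
      ∀ q : ℕ, q.Prime → (q : ℤ) ∣ D W u v → (q : ℤ) ∣ (model W u v α β).Δ := by
  have h3u : ¬ (3 : ℤ) ∣ u := (hgood 3 Nat.prime_three).three rfl
  have hcop3 : IsCoprime u (3 * v) := by
    refine IsCoprime.mul_right ?_ hcop
    exact (((Prime.coprime_iff_not_dvd Int.prime_three).mpr h3u)).symm
  obtain ⟨α, β', hab⟩ := hcop3
  have h : α * u - 3 * (-β') * v = 1 := by linear_combination hab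
  refine ⟨α, -β', h, ?_⟩
  set W' := model W u v α (-β') with hW'
  have hΔ' : W'.Δ = W.Δ * D W u v ^ 3 := model_Δ W h
  have hc4' : W'.c₄ = C4 W u v := model_c₄ W h
  have hD0 : D W u v ≠ 0 := fun h0 => by rw [h0, mul_zero] at hsD; exact lt_irrefl _ hsD
  have hs2 : s * s = 1 := by rcases hs with rfl | rfl <;> norm_num
  have hneg : W'.Δ < 0 := by
    rw [hΔ']
    have e1 : W.Δ * D W u v ^ 3 = (s * W.Δ) * (s * D W u v) ^ 3 := by
      have : (s * W.Δ) * (s * D W u v) ^ 3 = (s * s) * (s * s) * (W.Δ * D W u v ^ 3) := by ring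
      rw [this, hs2]; ring
    rw [e1]
    exact mul_neg_of_neg_of_pos hsΔ (by positivity)
  have hdvd : ∀ q : ℕ, q.Prime → (q : ℤ) ∣ W'.Δ → (q : ℤ) ∣ W.Δ * D W u v := by
    intro q hq hqΔ
    have hqi := Nat.prime_iff_prime_int.mp hq
    rw [hΔ'] at hqΔ
    rcases hqi.dvd_or_dvd hqΔ with h' | h'
    · exact h'.mul_right _
    · exact (hqi.dvd_of_dvd_pow h').mul_left _
  have hss' : W'.IsSemistableModel := by
    intro q hq hqΔ
    rw [hc4']
    exact (hgood q hq).c4 (hdvd q hq hqΔ)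
  have h2' : (2 : ℤ) ∣ W'.Δ := by rw [hΔ']; exact h2.mul_right _
  have hodd : ∀ q : ℕ, q.Prime → (q : ℤ) ∣ W'.Δ → Odd (padicValInt q W'.Δ) := by
    intro q hq hqΔ
    haveI := Fact.mk hq
    have hqi := Nat.prime_iff_prime_int.mp hq
    have e1 : padicValInt q W'.Δ = padicValInt q W.Δ + 3 * padicValInt q (D W u v) := by
      rw [hΔ', padicValInt.mul hΔ (pow_ne_zero _ hD0), pow_succ, pow_two,
        padicValInt.mul (mul_ne_zero hD0 hD0) hD0, padicValInt.mul hD0 hD0]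
      ring
    have hv1 : (q : ℤ) ∣ D W u v → padicValInt q (D W u v) = 1 := by
      intro hqD
      have f1 : 1 ≤ padicValInt q (D W u v) := by
        have := (padicValInt_dvd_iff (p := q) 1 (D W u v)).mp (by simpa using hqD)
        rcases this with h' | h'
        · exact absurd h' hD0
        · exact h'
      have f2 : ¬ 2 ≤ padicValInt q (D W u v) := by
        intro h'
        exact (hgood q hq).sq ((padicValInt_dvd_iff (p := q) 2 (D W u v)).mpr (Or.inr h'))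
      omega
    rw [e1]
    by_cases hqΔ0 : (q : ℤ) ∣ W.Δ
    · by_cases hqD : (q : ℤ) ∣ D W u v
      · rw [hv1 hqD]
        have := ((hgood q hq).par hqΔ0).mp hqD
        exact this.add_odd (by decide)
      · rw [padicValInt.eq_zero_of_not_dvd hqD]
        have := fun h' => hqD (((hgood q hq).par hqΔ0).mpr h')
        simpa using Nat.not_even_iff_odd.mp this
    · have hqD : (q : ℤ) ∣ D W u v := (hqi.dvd_or_dvd (hdvd q hq hqΔ)).resolve_left hqΔ0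
      rw [padicValInt.eq_zero_of_not_dvd hqΔ0, hv1 hqD]
      decide
  refine ⟨hneg, hss', h2', hodd, ?_, ?_⟩
  · refine Irr2.irreducible_two W' hneg.ne fun Y => ?_
    refine Irr2.no_root W'.c_relation.symm h2' hodd hss' ?_ Y
    rw [hc4', hΔ', abs_mul, abs_pow]
    have e1 : |D W u v| = s * D W u v := by
      rcases hs with rfl | rfl
      · rw [one_mul] at hsD ⊢; exact abs_of_pos hsD
      · rw [neg_one_mul] at hsD ⊢; exact abs_of_neg (by linarith)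
    rw [e1]
    have e2 : 1 ≤ |W.Δ| := Int.one_le_abs hΔ
    have e3 : 0 < (s * D W u v) ^ 3 := by positivity
    nlinarith
  · intro q _ hqD
    rw [hΔ']
    exact (dvd_pow hqD three_ne_zero).mul_left _

end Fermat.Agent.P2.Param
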