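import Mathlib
import Fermat.Agent.P2.ParamAux

/-!
# P2 block 1: the choice of the parameter `(u : v)`
-/

set_option autoImplicit false

open Polynomial

namespace Fermat.Agent.P2.Param

open Fam3 Sieve Local

variable {W : WeierstrassCurve ℤ}

lemma small_prime {q : ℕ} (hq : q.Prime) (h : q ≤ 12) : (q : ℤ) ∣ 2310 := by
  interval_cases q <;> first | (exfalso; revert hq; decide) | norm_num

/-- **the choice of the parameter**, from the existence of auxiliary primes -/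
theorem exists_param_of (hΔ : W.Δ ≠ 0) (hss : W.IsSemistableModel) (h2 : (2 : ℤ) ∣ W.Δ)
    (haux : ∀ B : ℕ, ∃ q : ℕ, q.Prime ∧ B < q ∧ q % 12 = 1 ∧ ∃ x : ℤ, (q : ℤ) ∣ D W x 1) :
    ∃ u v α β : ℤ, α * u - 3 * β * v = 1 ∧ (model W u v α β).Δ < 0 ∧
      (model W u v α β).IsSemistableModel ∧ (2 : ℤ) ∣ (model W u v α β).Δ ∧
      (∀ q : ℕ, q.Prime → (q : ℤ) ∣ (model W u v α β).Δ →
        Odd (padicValInt q (model W u v α β).Δ)) ∧
      (model W u v α β).ModRepIsIrreducible 2 ∧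
      ∃ q₁ q₀ : ℕ, q₁.Prime ∧ q₀.Prime ∧ q₁ % 12 = 1 ∧ q₀ % 12 = 1 ∧ q₁ ≠ q₀ ∧
        (q₁ : ℤ) ∣ (model W u v α β).Δ ∧ (q₀ : ℤ) ∣ (model W u v α β).Δ := by
  classical
  have hRR0 : RR W ≠ 0 := by
    unfold RR
    have : (1728 * W.Δ) ≠ 0 := mul_ne_zero (by norm_num) hΔ
    positivity
  obtain ⟨q₁, hq₁, hB₁, h12₁, x₁, hx₁⟩ := haux (RR W).natAbs
  obtain ⟨q₀, hq₀, hB₀, h12₀, x₀, hx₀⟩ := haux (max (RR W).natAbs q₁)
  have hndvd : ∀ q : ℕ, (RR W).natAbs < q → ¬ (q : ℤ) ∣ RR W := by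
    intro q hB hd
    have := Nat.le_of_dvd (Int.natAbs_pos.mpr hRR0) (Int.natCast_dvd.mp hd)
    omega
  have hR₁ := hndvd q₁ hB₁
  have hR₀ := hndvd q₀ (lt_of_le_of_lt (le_max_left _ _) hB₀)
  have hne : q₁ ≠ q₀ := (lt_of_le_of_lt (le_max_right _ _) hB₀).ne
  -- local choices
  have hloc : ∀ q : ℕ, ∃ u v : ℤ, q.Prime →
      (Good W q u v ∧ ((q = q₁ ∨ q = q₀) → (q : ℤ) ∣ D W u v)) := by
    intro q
    by_cases hq : q.Prime
    · by_cases h1 : q = q₁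
      · subst h1
        obtain ⟨u, v, h3, h4⟩ := exists_good_dvd hq hR₁ hx₁
        exact ⟨u, v, fun _ => ⟨h3, fun _ => h4⟩⟩
      · by_cases h0 : q = q₀
        · subst h0
          obtain ⟨u, v, h3, h4⟩ := exists_good_dvd hq hR₀ hx₀
          exact ⟨u, v, fun _ => ⟨h3, fun _ => h4⟩⟩
        · obtain ⟨u, v, h3⟩ := exists_good hss hq
          refine ⟨u, v, fun _ => ⟨h3, fun h => ?_⟩⟩
          rcases h with h | h
          · exact absurd h h1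
          · exact absurd h h0
    · exact ⟨0, 0, fun h => absurd h hq⟩
  choose fu fv hf using hloc
  set n : ℤ := W.Δ * (2310 * (q₁ * q₀)) with hn
  have hn0 : n ≠ 0 := by
    have h1 : (q₁ : ℤ) ≠ 0 := by exact_mod_cast hq₁.ne_zero
    have h0 : (q₀ : ℤ) ≠ 0 := by exact_mod_cast hq₀.ne_zero
    exact mul_ne_zero hΔ (mul_ne_zero (by norm_num) (mul_ne_zero h1 h0))
  set P : Finset ℕ := n.natAbs.primeFactors with hP
  have hmemP : ∀ q : ℕ, q.Prime → (q : ℤ) ∣ n → q ∈ P := fun q hq hd => by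
    rw [hP, Nat.mem_primeFactors]
    exact ⟨hq, Int.natCast_dvd.mp hd, Int.natAbs_ne_zero.mpr hn0⟩
  have hPp : ∀ q ∈ P, q.Prime := fun q hq => Nat.prime_of_mem_primeFactors hq
  obtain ⟨u₀, hu₀⟩ := crt P hPp fu
  obtain ⟨v₀, hv₀⟩ := crt P hPp fv
  set M : ℤ := ∏ q ∈ P, (q : ℤ) ^ 2 with hM
  have hM0 : 0 < M := Finset.prod_pos fun q hq => by
    have := (hPp q hq).pos
    positivity
  have hsmall : ∀ q : ℕ, q.Prime → q ≤ 12 → (q : ℤ) ∣ M := fun q hq h =>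
    (prime_dvd_prod_sq hPp hq).mpr (hmemP q hq
      (((small_prime hq h).mul_right _).mul_left _))
  have hMR : ∀ q : ℕ, q.Prime → (q : ℤ) ∣ RR W → (q : ℤ) ∣ M := by
    intro q hq hd
    rcases RR_dvd W hq hd with rfl | rfl | h
    · exact hsmall 2 hq (by norm_num)
    · exact hsmall 3 hq (by norm_num)
    · exact (prime_dvd_prod_sq hPp hq).mpr (hmemP q hq (h.mul_right _))
  have hgood0 : ∀ q ∈ P, ∀ u v : ℤ, M ∣ u - u₀ → M ∣ v - v₀ →
      (q : ℤ) ^ 2 ∣ u - fu q ∧ (q : ℤ) ^ 2 ∣ v - fv q := by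
    intro q hq u v hu hv
    have hqM : (q : ℤ) ^ 2 ∣ M := Finset.dvd_prod_of_mem (fun q : ℕ => (q : ℤ) ^ 2) hq
    constructor
    · have := dvd_add (hqM.trans hu) (hu₀ q hq)
      simpa using this
    · have := dvd_add (hqM.trans hv) (hv₀ q hq)
      simpa using this
  have h0 : ∀ q : ℕ, q.Prime → (q : ℤ) ∣ M → ¬ ((q : ℤ) ∣ u₀ ∧ (q : ℤ) ∣ v₀) := by
    intro q hq hqM
    have hqP := (prime_dvd_prod_sq hPp hq).mp hqM
    obtain ⟨e1, e2⟩ := hgood0 q hqP u₀ v₀ (by simp) (by simp)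
    exact ((hf q hq).1.congr e1 e2).cop
  obtain ⟨s, x, y, hs, hsΔ, hy, hxy⟩ := exists_sign W hΔ (c4_ne_zero hss h2)
  obtain ⟨N, hN⟩ := exists_bound W
  obtain ⟨A, B, hb⟩ := exists_bezout W
  rw [D_eq_Q4] at hxy
  obtain ⟨u, v, hv, hcop, hu1, hv1, hpos, hsize, hsq⟩ :=
    exists_sieve (R := RR W) hb hM0 hMR hsmall h0 hy hxy (N + 2)
  rw [← D_eq_Q4] at hpos hsize
  have hgood : ∀ q : ℕ, q.Prime → Good W q u v := by
    intro q hq
    by_cases hqM : (q : ℤ) ∣ M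
    · obtain ⟨e1, e2⟩ := hgood0 q ((prime_dvd_prod_sq hPp hq).mp hqM) u v hu1 hv1
      exact (hf q hq).1.congr e1 e2
    · refine good_of_sq hq (fun h => hqM (hMR q hq h)) ?_ ?_
      · rintro ⟨h1, h2⟩
        exact (Nat.prime_iff_prime_int.mp hq).not_unit (hcop.isUnit_of_dvd' h1 h2)
      · have := hsq q hq hqM
        rwa [← D_eq_Q4] at this
  have hsz : |C4 W u v| + 1 < (s * D W u v) ^ 3 := by
    refine lt_of_lt_of_le ?_ hsize
    have e1 := hN u v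
    have e2 : (1 : ℤ) ≤ (|u| + |v| + 1) ^ 4 := by
      have := abs_nonneg u
      have := abs_nonneg v
      exact one_le_pow₀ (by linarith)
    push_cast
    nlinarith
  obtain ⟨α, β, hab, c1, c2, c3, c4, c5, c6⟩ :=
    curve_of_good hΔ h2 hcop hgood hs hsΔ hpos hsz
  refine ⟨u, v, α, β, hab, c1, c2, c3, c4, c5, q₁, q₀, hq₁, hq₀, h12₁, h12₀, hne,
    c6 q₁ hq₁ ?_, c6 q₀ hq₀ ?_⟩
  · have hqP : q₁ ∈ P := hmemP q₁ hq₁ ⟨W.Δ * (2310 * q₀), by rw [hn]; ring⟩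
    obtain ⟨e1, e2⟩ := hgood0 q₁ hqP u v hu1 hv1
    have e3 := D_congr W ((dvd_pow_self _ two_ne_zero).trans e1)
      ((dvd_pow_self _ two_ne_zero).trans e2)
    have e4 := dvd_add e3 ((hf q₁ hq₁).2 (Or.inl rfl))
    simpa using e4
  · have hqP : q₀ ∈ P := hmemP q₀ hq₀ ⟨W.Δ * (2310 * q₁), by rw [hn]; ring⟩
    obtain ⟨e1, e2⟩ := hgood0 q₀ hqP u v hu1 hv1
    have e3 := D_congr W ((dvd_pow_self _ two_ne_zero).trans e1)
      ((dvd_pow_self _ two_ne_zero).trans e2)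
    have e4 := dvd_add e3 ((hf q₀ hq₀).2 (Or.inr rfl))
    simpa using e4

end Fermat.Agent.P2.Param
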