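import Fermat.Agent.P2.Cong3
import Fermat.Agent.P2.Defs
import Fermat.Agent.P2.Param
import Fermat.Agent.P2.AuxPrimes

set_option autoImplicit false

/-!
# P2, Block 1: assembly
-/

open WeierstrassCurve

namespace Fermat.Agent.P2

/-- the output of the sieve and the local choices (helper10) -/
def ParamOut : Prop :=
  ∀ W : WeierstrassCurve ℤ, W.Δ ≠ 0 → W.IsSemistableModel → (2 : ℤ) ∣ W.Δ →
    ∃ u v α β : ℤ, α * u - 3 * β * v = 1 ∧ Curve (Fam3.model W u v α β)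

theorem block1Out_of (h : ParamOut) : Block1Out := by
  intro W hΔ hW h2
  obtain ⟨u, v, α, β, huv, hC⟩ := h W hΔ hW h2
  exact ⟨_, hC, fun ℓ hℓ hg hg' hℓ3 => Cong3.three_dvd_model W huv hC.neg.ne hℓ hg hg' hℓ3⟩

/-- the parameter exists -/
theorem paramOut : ParamOut := by
  intro W hΔ hss h2
  obtain ⟨u, v, α, β, huv, hneg, hss', h2', hodd, hirr, q₁, q₀, hq₁, hq₀, h12₁, h12₀, hne, hd₁, hd₀⟩ :=
    Param.exists_param_of hΔ hss h2 (AuxPrimes.exists_auxPrime W)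
  exact ⟨u, v, α, β, huv, hneg, hss', h2', hodd, hirr, q₁, q₀, ⟨hq₁, hd₁⟩, ⟨hq₀, hd₀⟩, h12₁,
    by rintro rfl; norm_num at h12₀, hne.symm⟩

/-- **Block 1** -/
theorem block1Out : Block1Out := block1Out_of paramOut

/-- **Block 1**, with two auxiliary primes `≡ 1 mod 12` of bad reduction -/
theorem block1Out_strong (W : WeierstrassCurve ℤ) (hΔ : W.Δ ≠ 0) (hss : W.IsSemistableModel)
    (h2 : (2 : ℤ) ∣ W.Δ) :
    ∃ W' : WeierstrassCurve ℤ, Curve W' ∧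
      (∃ q₁ q₀ : ℕ, q₁.Prime ∧ q₀.Prime ∧ q₁ % 12 = 1 ∧ q₀ % 12 = 1 ∧ q₁ ≠ q₀ ∧
        (q₁ : ℤ) ∣ W'.Δ ∧ (q₀ : ℤ) ∣ W'.Δ) ∧
      ∀ ℓ : ℕ, ℓ.Prime → W.IsGoodPrimeFor ℓ → W'.IsGoodPrimeFor ℓ → ℓ ≠ 3 →
        (3 : ℤ) ∣ (W'.apOfModel ℓ - W.apOfModel ℓ) := by
  obtain ⟨u, v, α, β, huv, hneg, hss', h2', hodd, hirr, q₁, q₀, hq₁, hq₀, h12₁, h12₀, hne, hd₁, hd₀⟩ :=
    Param.exists_param_of hΔ hss h2 (AuxPrimes.exists_auxPrime W)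
  exact ⟨Fam3.model W u v α β, ⟨hneg, hss', h2', hodd, hirr, q₁, q₀, ⟨hq₁, hd₁⟩, ⟨hq₀, hd₀⟩, h12₁,
      by rintro rfl; norm_num at h12₀, hne.symm⟩,
    ⟨q₁, q₀, hq₁, hq₀, h12₁, h12₀, hne, hd₁, hd₀⟩,
    fun ℓ hℓ hg hg' hℓ3 => Cong3.three_dvd_model W huv hneg.ne hℓ hg hg' hℓ3⟩

end Fermat.Agent.P2
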