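import Fermat.Agent.P2.Sel.Out
import Fermat.Agent.P2.Iso.Main

/-!
# Route P2, Block 2 (complete)
-/

set_option autoImplicit false

namespace Fermat.Agent.P2

open Sel

theorem block2Out : Block2Out := by
  intro S a D hS h2 hR
  obtain ⟨q₁, h₁, q₀, h₀, h⟩ := hR
  exact block2_of_iso' S a D hS h2 ⟨q₀, h₀, h.2.1⟩ (Iso.iso (hyp_of_galData D hS h2))

end Fermat.Agent.P2
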