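import Fermat.Agent.P2.Cong3Gal

set_option autoImplicit false

/-!
# The congruence modulo `3` for the integral family `Fam3.model`
-/

open WeierstrassCurve

namespace Fermat.Agent.P2.Cong3

theorem pA_eq (a b l m : ℚ) :
    pA (-27 * a) (-54 * b) (l / 4) (m / 36) = -27 * (Fam3.CF4 a b l m / 4 ^ 4) := by
  unfold pA Fam3.CF4
  ring

theorem pB_eq (a b l m : ℚ) :
    pB (-27 * a) (-54 * b) (l / 4) (m / 36) = -54 * (Fam3.CF6 a b l m / 4 ^ 6) := by
  unfold pB Fam3.CF6
  ring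

/-- the integral model is the member `((4u - b₂v)/4 : -v/36)` of the Hesse pencil -/
theorem isMember_model (W : WeierstrassCurve ℤ) {u v α β : ℤ} (h : α * u - 3 * β * v = 1)
    (hΔ : (Fam3.model W u v α β).Δ ≠ 0) :
    IsMember (W.map (Int.castRingHom ℚ)) ((Fam3.model W u v α β).map (Int.castRingHom ℚ))
      ((4 * u - W.b₂ * v : ℚ) / 4) ((-v : ℚ) / 36) where
  c₄ := by
    rw [pA_eq, WeierstrassCurve.map_c₄, WeierstrassCurve.map_c₄, WeierstrassCurve.map_c₆,
      Fam3.model_c₄ W h]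
    congr 1
    rw [eq_div_iff (by norm_num)]
    have := congrArg (Int.castRingHom ℚ) (Fam3.CF4_eq W u v)
    simp only [Fam3.CF4, eq_intCast] at this ⊢
    push_cast at this ⊢
    linear_combination -this
  c₆ := by
    rw [pB_eq, WeierstrassCurve.map_c₄, WeierstrassCurve.map_c₆, WeierstrassCurve.map_c₆,
      Fam3.model_c₆ W h]
    congr 1
    rw [eq_div_iff (by norm_num)]
    have := congrArg (Int.castRingHom ℚ) (Fam3.CF6_eq W u v)
    simp only [Fam3.CF6, eq_intCast] at this ⊢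
    push_cast at this ⊢
    linear_combination -this
  Δ := by
    rw [WeierstrassCurve.map_Δ]
    simpa using hΔ

/-- **The congruence modulo `3` between `W` and `Fam3.model W u v α β`.** -/
theorem three_dvd_model (W : WeierstrassCurve ℤ) {u v α β : ℤ} (h : α * u - 3 * β * v = 1)
    (hΔ : (Fam3.model W u v α β).Δ ≠ 0) {ℓ : ℕ} (hℓ : ℓ.Prime)
    (hW : W.IsGoodPrimeFor ℓ) (hW' : (Fam3.model W u v α β).IsGoodPrimeFor ℓ) (hℓ3 : ℓ ≠ 3) :
    (3 : ℤ) ∣ (Fam3.model W u v α β).apOfModel ℓ - W.apOfModel ℓ := by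
  have hΔ0 : W.Δ ≠ 0 := by
    intro h0
    apply hΔ
    rw [Fam3.model_Δ W h, h0, zero_mul]
  exact three_dvd_apOfModel_sub hΔ0 (isMember_model W h hΔ) hℓ hW hW' hℓ3

end Fermat.Agent.P2.Cong3
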