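import Mathlib

set_option autoImplicit false

/-!
# The Hesse pencil: algebraic identities

`E : y² = x³ + a x + b`; the member `(u : w)` of the pencil spanned by `E` and its Hessian is
`y² = x³ + A x + B` with `A = pA a b u w`, `B = pB a b u w`, discriminant form `pD`.
Points of order `3` correspond by `(x, y) ↦ (pN/pT, pD y/pT)`.
-/

namespace Fermat.Agent.P2.Cong3

section

variable {R : Type*} [CommRing R] (a b u w x y : R)

/-- the binary quartic -/
def pD : R := u ^ 4 + 18 * a * u ^ 2 * w ^ 2 + 108 * b * u * w ^ 3 - 27 * a ^ 2 * w ^ 4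

/-- the coefficient `A` of the member `(u : w)` -/
def pA : R := a * u ^ 4 + 18 * b * u ^ 3 * w - 18 * a ^ 2 * u ^ 2 * w ^ 2 - 54 * a * b * u * w ^ 3 -
  (27 * a ^ 3 + 243 * b ^ 2) * w ^ 4

/-- the coefficient `B` of the member `(u : w)` -/
def pB : R := b * u ^ 6 - 4 * a ^ 2 * u ^ 5 * w - 45 * a * b * u ^ 4 * w ^ 2 -
  270 * b ^ 2 * u ^ 3 * w ^ 3 + 135 * a ^ 2 * b * u ^ 2 * w ^ 4 -
  (108 * a ^ 4 + 486 * a * b ^ 2) * u * w ^ 5 - (243 * a ^ 3 * b + 1458 * b ^ 3) * w ^ 6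

/-- numerator of the new abscissa -/
def pN : R := x * (u ^ 3 + 9 * a * u * w ^ 2 + 27 * b * w ^ 3) +
  3 * w * (a * u ^ 2 + 9 * b * u * w - 3 * a ^ 2 * w ^ 2)

/-- denominator of the new abscissa -/
def pT : R := u - 3 * w * x

/-- the `3`-division polynomial -/
def psi : R := 3 * x ^ 4 + 6 * a * x ^ 2 + 12 * b * x - a ^ 2

theorem eq_key : pD a b u w ^ 2 * (x ^ 3 + a * x + b) * pT u w x -
    (pN a b u w x ^ 3 + pA a b u w * pN a b u w x * pT u w x ^ 2 + pB a b u w * pT u w x ^ 3) =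
    - w * pD a b u w ^ 2 * psi a b x := by
  unfold pD pA pB pN pT psi
  ring

theorem psi_key : 3 * pN a b u w x ^ 4 + 6 * pA a b u w * pN a b u w x ^ 2 * pT u w x ^ 2 +
    12 * pB a b u w * pN a b u w x * pT u w x ^ 3 - pA a b u w ^ 2 * pT u w x ^ 4 =
    pD a b u w ^ 3 * psi a b x := by
  unfold pD pA pB pN pT psi
  ring

theorem disc_key : 4 * pA a b u w ^ 3 + 27 * pB a b u w ^ 2 =
    (4 * a ^ 3 + 27 * b ^ 2) * pD a b u w ^ 3 := by
  unfold pD pA pB
  ring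

theorem D_of_T : w ^ 4 * (27 * psi a b x) =
    pD a b u w - pT u w x * (u ^ 3 + 3 * w * x * u ^ 2 + (9 * w ^ 2 * x ^ 2 + 18 * a * w ^ 2) * u +
      27 * w ^ 3 * x ^ 3 + 54 * a * w ^ 3 * x + 108 * b * w ^ 3) := by
  unfold pD pT psi
  ring

theorem N_sub (x' : R) : pN a b u w x * pT u w x' - pN a b u w x' * pT u w x =
    pD a b u w * (x - x') := by
  unfold pD pN pT
  ring

end

end Fermat.Agent.P2.Cong3
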