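import Fermat.Agent.P2.Cong3Hom
import Fermat.Agent.P2.Fam3
import Fermat.Agent.Lib.VariableChangePoint
import Fermat.Agent.EllRed.FrobeniusMain
import Fermat.Agent.FrobExists

set_option autoImplicit false
set_option linter.unusedSectionVars false

/-!
# The Hesse pencil: Galois equivariance and the congruence modulo `3`
-/

open WeierstrassCurve WeierstrassCurve.Affine WeierstrassCurve.Affine.Point

namespace Fermat.Agent.P2.Cong3

section Map

variable {R S : Type*} [CommRing R] [CommRing S] (f : R →+* S) (a b u w x : R)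

theorem map_pD : f (pD a b u w) = pD (f a) (f b) (f u) (f w) := by
  simp only [pD, map_add, map_sub, map_mul, map_pow, map_ofNat]

theorem map_pA : f (pA a b u w) = pA (f a) (f b) (f u) (f w) := by
  simp only [pA, map_add, map_sub, map_mul, map_pow, map_ofNat]

theorem map_pB : f (pB a b u w) = pB (f a) (f b) (f u) (f w) := by
  simp only [pB, map_add, map_sub, map_mul, map_pow, map_ofNat]

theorem map_pN : f (pN a b u w x) = pN (f a) (f b) (f u) (f w) (f x) := by
  simp only [pN, map_add, map_sub, map_mul, map_pow, map_ofNat]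

theorem map_pT : f (pT u w x) = pT (f u) (f w) (f x) := by
  simp only [pT, map_sub, map_mul, map_ofNat]

theorem map_psi : f (psi a b x) = psi (f a) (f b) (f x) := by
  simp only [psi, map_add, map_sub, map_mul, map_pow, map_ofNat]

variable {a b} in
theorem IsShort.map {V : WeierstrassCurve R} (h : IsShort V a b) : IsShort (V.map f) (f a) (f b) where
  a₁ := by rw [WeierstrassCurve.map_a₁, h.a₁, _root_.map_zero]
  a₂ := by rw [WeierstrassCurve.map_a₂, h.a₂, _root_.map_zero]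
  a₃ := by rw [WeierstrassCurve.map_a₃, h.a₃, _root_.map_zero]
  a₄ := by rw [WeierstrassCurve.map_a₄, h.a₄]
  a₆ := by rw [WeierstrassCurve.map_a₆, h.a₆]

end Map

section Short

/-- the short model -/
def sw {F : Type*} [CommRing F] (a b : F) : WeierstrassCurve F := ⟨0, 0, 0, a, b⟩

theorem isShort_sw {F : Type*} [CommRing F] (a b : F) : IsShort (sw a b) a b :=
  ⟨rfl, rfl, rfl, rfl, rfl⟩

variable {F : Type*} [Field F] (h6 : (6 : F) ≠ 0) (W : WeierstrassCurve F)

/-- the variable change to the short model -/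
noncomputable def vcS : VariableChange F where
  u := (Units.mk0 6 h6)⁻¹
  r := -W.b₂ / 12
  s := -W.a₁ / 2
  t := -(W.a₃ - W.a₁ * W.b₂ / 12) / 2

theorem vcS_smul : vcS h6 W • W = sw (-27 * W.c₄) (-54 * W.c₆) := by
  have h2 : (2 : F) ≠ 0 := by
    intro h; apply h6
    have : (6 : F) = 2 * 3 := by norm_num
    rw [this, h, zero_mul]
  have h3 : (3 : F) ≠ 0 := by
    intro h; apply h6
    have : (6 : F) = 2 * 3 := by norm_num
    rw [this, h, mul_zero]
  have h12 : (12 : F) ≠ 0 := by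
    have : (12 : F) = 2 * 6 := by norm_num
    rw [this]; exact mul_ne_zero h2 h6
  have hu : (((vcS h6 W).u⁻¹ : Fˣ) : F) = 6 := by
    simp [vcS]
  ext
  · rw [variableChange_a₁, hu]
    simp only [vcS, sw]
    field_simp
    ring
  · rw [variableChange_a₂, hu]
    simp only [vcS, sw, WeierstrassCurve.b₂]
    field_simp
    ring
  · rw [variableChange_a₃, hu]
    simp only [vcS, sw, WeierstrassCurve.b₂]
    field_simp
    ring
  · rw [variableChange_a₄, hu]
    simp only [vcS, sw, WeierstrassCurve.b₂, WeierstrassCurve.c₄, WeierstrassCurve.b₄]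
    field_simp
    ring
  · rw [variableChange_a₆, hu]
    simp only [vcS, sw, WeierstrassCurve.b₂, WeierstrassCurve.c₆, WeierstrassCurve.b₄,
      WeierstrassCurve.b₆]
    field_simp
    ring

end Short

section Galois

variable {F K : Type*} [Field F] [Field K] [DecidableEq K] [Algebra F K]

/-- `theta` is Galois equivariant on points of order `3`. -/
theorem theta_smul {V V' : WeierstrassCurve F} {a b u w : F} (h2 : (2 : K) ≠ 0)
    (hV : IsShort V a b) (hV' : IsShort V' (pA a b u w) (pB a b u w)) (hΔ : V'.Δ ≠ 0)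
    (σ : K ≃ₐ[F] K) {P : (V⁄K).Point} (hP : 3 • P = 0) :
    theta (V⁄K) (V'⁄K) (algebraMap F K a) (algebraMap F K b) (algebraMap F K u)
      (algebraMap F K w) (σ • P) = σ • theta (V⁄K) (V'⁄K) (algebraMap F K a) (algebraMap F K b)
        (algebraMap F K u) (algebraMap F K w) P := by
  have hVK : IsShort (V⁄K) (algebraMap F K a) (algebraMap F K b) := hV.map (algebraMap F K)
  have hVK' : IsShort (V'⁄K) (pA (algebraMap F K a) (algebraMap F K b) (algebraMap F K u)
      (algebraMap F K w)) (pB (algebraMap F K a) (algebraMap F K b) (algebraMap F K u)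
      (algebraMap F K w)) := by
    rw [← map_pA, ← map_pB]
    exact hV'.map (algebraMap F K)
  have hΔK : (V'⁄K).Δ ≠ 0 := by
    have e : (V'⁄K).Δ = algebraMap F K V'.Δ := WeierstrassCurve.map_Δ V' _
    rw [e]
    exact (_root_.map_ne_zero _).mpr hΔ
  rcases P with _ | ⟨x, y, h⟩
  · rfl
  · have hx := (hVK.three_torsion_iff h2 h).mp hP
    have hx' : psi (algebraMap F K a) (algebraMap F K b) ((σ : K →ₐ[F] K) x) = 0 := by
      have := congrArg σ hx
      rw [_root_.map_zero] at this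
      rw [← this]
      have e := map_psi (σ : K →+* K) (algebraMap F K a) (algebraMap F K b) x
      simp only [RingHom.coe_coe, AlgEquiv.commutes] at e
      exact e.symm
    rw [algEquiv_smul_def, algEquiv_smul_def, Point.map_some, theta_some hVK hVK' hΔK _ hx',
      theta_some hVK hVK' hΔK h hx, Point.map_some, Point.some.injEq]
    have eN := map_pN (σ : K →+* K) (algebraMap F K a) (algebraMap F K b) (algebraMap F K u)
      (algebraMap F K w) x
    have eT := map_pT (σ : K →+* K) (algebraMap F K u) (algebraMap F K w) x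
    have eD := map_pD (σ : K →+* K) (algebraMap F K a) (algebraMap F K b) (algebraMap F K u)
      (algebraMap F K w)
    simp only [RingHom.coe_coe, AlgEquiv.commutes] at eN eT eD
    change pN _ _ _ _ (σ x) / pT _ _ (σ x) = σ (_ / _) ∧
      pD _ _ _ _ * σ y / pT _ _ (σ x) = σ (_ / _)
    rw [map_div₀, map_div₀, eN, eT, _root_.map_mul, eD]
    exact ⟨rfl, rfl⟩

end Galois

section Main

open Fermat.Agent.VarChange

local notation "Qbar" => AlgebraicClosure ℚ

theorem six_ne_zero_rat : (6 : ℚ) ≠ 0 := by norm_num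

/-- the hypothesis: `W'` is the member `(u : w)` of the Hesse pencil of `W` (over `ℚ`). -/
structure IsMember (W W' : WeierstrassCurve ℚ) (u w : ℚ) : Prop where
  c₄ : -27 * W'.c₄ = pA (-27 * W.c₄) (-54 * W.c₆) u w
  c₆ : -54 * W'.c₆ = pB (-27 * W.c₄) (-54 * W.c₆) u w
  Δ : W'.Δ ≠ 0

/-- the isomorphism from the short model -/
noncomputable def toW (W : WeierstrassCurve ℚ) :
    ((sw (-27 * W.c₄) (-54 * W.c₆))⁄Qbar).Point ≃+ (W⁄Qbar).Point :=
  pointBaseChangeEquiv (K := Qbar) (vcS six_ne_zero_rat W) (vcS_smul six_ne_zero_rat W)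

theorem toW_smul (W : WeierstrassCurve ℚ) (σ : Qbar ≃ₐ[ℚ] Qbar)
    (P : ((sw (-27 * W.c₄) (-54 * W.c₆))⁄Qbar).Point) : toW W (σ • P) = σ • toW W P :=
  pointBaseChangeEquiv_smul _ _ σ P

theorem toW_symm_smul (W : WeierstrassCurve ℚ) (σ : Qbar ≃ₐ[ℚ] Qbar)
    (P : (W⁄Qbar).Point) : (toW W).symm (σ • P) = σ • (toW W).symm P := by
  apply (toW W).injective
  rw [AddEquiv.apply_symm_apply, toW_smul, AddEquiv.apply_symm_apply]

/-- the map on points of the short models -/
noncomputable def thetaS (W W' : WeierstrassCurve ℚ) (u w : ℚ) :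
    ((sw (-27 * W.c₄) (-54 * W.c₆))⁄Qbar).Point →
      ((sw (-27 * W'.c₄) (-54 * W'.c₆))⁄Qbar).Point :=
  theta ((sw (-27 * W.c₄) (-54 * W.c₆))⁄Qbar) ((sw (-27 * W'.c₄) (-54 * W'.c₆))⁄Qbar)
      (algebraMap ℚ Qbar (-27 * W.c₄)) (algebraMap ℚ Qbar (-54 * W.c₆)) (algebraMap ℚ Qbar u)
      (algebraMap ℚ Qbar w)

variable {W W' : WeierstrassCurve ℚ} {u w : ℚ} (h : IsMember W W' u w)

include h

theorem IsMember.isShort' : IsShort (sw (-27 * W'.c₄) (-54 * W'.c₆))
    (pA (-27 * W.c₄) (-54 * W.c₆) u w) (pB (-27 * W.c₄) (-54 * W.c₆) u w) := by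
  rw [← h.c₄, ← h.c₆]
  exact isShort_sw _ _

theorem IsMember.Δ' : (sw (-27 * W'.c₄) (-54 * W'.c₆)).Δ ≠ 0 := by
  rw [(isShort_sw _ _).Δ_eq]
  have := W'.c_relation
  have h2 : (-16 : ℚ) * (4 * (-27 * W'.c₄) ^ 3 + 27 * (-54 * W'.c₆) ^ 2) =
      16 * 4 * 27 ^ 3 * (1728 * W'.Δ) := by
    rw [this]; ring
  rw [h2]
  exact mul_ne_zero (by norm_num) (mul_ne_zero (by norm_num) h.Δ)

theorem IsMember.isShortK : IsShort ((sw (-27 * W'.c₄) (-54 * W'.c₆))⁄Qbar)
    (pA (algebraMap ℚ Qbar (-27 * W.c₄)) (algebraMap ℚ Qbar (-54 * W.c₆)) (algebraMap ℚ Qbar u)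
      (algebraMap ℚ Qbar w))
    (pB (algebraMap ℚ Qbar (-27 * W.c₄)) (algebraMap ℚ Qbar (-54 * W.c₆)) (algebraMap ℚ Qbar u)
      (algebraMap ℚ Qbar w)) := by
  rw [← map_pA, ← map_pB]
  exact h.isShort'.map (algebraMap ℚ Qbar)

theorem IsMember.ΔK : ((sw (-27 * W'.c₄) (-54 * W'.c₆))⁄Qbar).Δ ≠ 0 := by
  have e : ((sw (-27 * W'.c₄) (-54 * W'.c₆))⁄Qbar).Δ =
      algebraMap ℚ Qbar (sw (-27 * W'.c₄) (-54 * W'.c₆)).Δ := WeierstrassCurve.map_Δ _ _
  rw [e]
  exact (_root_.map_ne_zero _).mpr h.Δ'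

omit h in
theorem isShortK₀ (W : WeierstrassCurve ℚ) : IsShort ((sw (-27 * W.c₄) (-54 * W.c₆))⁄Qbar)
    (algebraMap ℚ Qbar (-27 * W.c₄)) (algebraMap ℚ Qbar (-54 * W.c₆)) :=
  (isShort_sw _ _).map (algebraMap ℚ Qbar)

theorem IsMember.thetaS_add {P Q : ((sw (-27 * W.c₄) (-54 * W.c₆))⁄Qbar).Point} (hP : 3 • P = 0)
    (hQ : 3 • Q = 0) : thetaS W W' u w (P + Q) = thetaS W W' u w P + thetaS W W' u w Q :=
  theta_add two_ne_zero (isShortK₀ W) h.isShortK h.ΔK hP hQ

theorem IsMember.thetaS_torsion {P : ((sw (-27 * W.c₄) (-54 * W.c₆))⁄Qbar).Point}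
    (hP : 3 • P = 0) : 3 • thetaS W W' u w P = 0 :=
  theta_torsion two_ne_zero (isShortK₀ W) h.isShortK h.ΔK hP

theorem IsMember.thetaS_smul (σ : Qbar ≃ₐ[ℚ] Qbar)
    {P : ((sw (-27 * W.c₄) (-54 * W.c₆))⁄Qbar).Point} (hP : 3 • P = 0) :
    thetaS W W' u w (σ • P) = σ • thetaS W W' u w P :=
  theta_smul two_ne_zero (isShort_sw _ _) h.isShort' h.Δ' σ hP

theorem IsMember.eq_zero_of_thetaS {P : ((sw (-27 * W.c₄) (-54 * W.c₆))⁄Qbar).Point}
    (hP : 3 • P = 0) (h0 : thetaS W W' u w P = 0) : P = 0 := by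
  rcases P with _ | ⟨x, y, hxy⟩
  · rfl
  · exfalso
    have hx := ((isShortK₀ W).three_torsion_iff two_ne_zero hxy).mp hP
    rw [thetaS, theta_some (isShortK₀ W) h.isShortK h.ΔK hxy hx] at h0
    exact Point.some_ne_zero _ h0

/-- **the isomorphism `W[3] → W'[3]`** (as an additive map) -/
noncomputable def IsMember.Theta :
    Submodule.torsionBy ℤ (W⁄Qbar).Point ((3 : ℕ) : ℤ) →+
      Submodule.torsionBy ℤ (W'⁄Qbar).Point ((3 : ℕ) : ℤ) where
  toFun P := ⟨toW W' (thetaS W W' u w ((toW W).symm P.1)), by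
    rw [Submodule.mem_torsionBy_iff, natCast_zsmul, ← map_nsmul, h.thetaS_torsion, _root_.map_zero]
    rw [← map_nsmul, ← natCast_zsmul, (Submodule.mem_torsionBy_iff _ _).mp P.2, _root_.map_zero]⟩
  map_zero' := by
    apply Subtype.ext
    change toW W' (thetaS W W' u w ((toW W).symm 0)) = 0
    rw [_root_.map_zero]
    exact _root_.map_zero (toW W')
  map_add' P Q := by
    apply Subtype.ext
    change toW W' (thetaS W W' u w ((toW W).symm (P.1 + Q.1))) =
      toW W' (thetaS W W' u w ((toW W).symm P.1)) + toW W' (thetaS W W' u w ((toW W).symm Q.1))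
    rw [map_add, h.thetaS_add, map_add]
    · rw [← map_nsmul, ← natCast_zsmul, (Submodule.mem_torsionBy_iff _ _).mp P.2, _root_.map_zero]
    · rw [← map_nsmul, ← natCast_zsmul, (Submodule.mem_torsionBy_iff _ _).mp Q.2, _root_.map_zero]

theorem IsMember.Theta_coe (P : Submodule.torsionBy ℤ (W⁄Qbar).Point ((3 : ℕ) : ℤ)) :
    (h.Theta P : (W'⁄Qbar).Point) = toW W' (thetaS W W' u w ((toW W).symm P.1)) := rfl

theorem IsMember.Theta_smul (σ : Qbar ≃ₐ[ℚ] Qbar)
    (P : Submodule.torsionBy ℤ (W⁄Qbar).Point ((3 : ℕ) : ℤ)) :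
    h.Theta (σ • P) = σ • h.Theta P := by
  apply Subtype.ext
  change toW W' (thetaS W W' u w ((toW W).symm (σ • P.1))) =
    σ • toW W' (thetaS W W' u w ((toW W).symm P.1))
  rw [toW_symm_smul, h.thetaS_smul, toW_smul]
  rw [← map_nsmul, ← natCast_zsmul, (Submodule.mem_torsionBy_iff _ _).mp P.2, _root_.map_zero]

theorem IsMember.Theta_injective : Function.Injective h.Theta := by
  rw [injective_iff_map_eq_zero]
  intro P hP
  have h1 : toW W' (thetaS W W' u w ((toW W).symm P.1)) = 0 := congrArg Subtype.val hP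
  have h2 : thetaS W W' u w ((toW W).symm P.1) = 0 := by
    apply (toW W').injective
    rw [h1, _root_.map_zero]
  have h3 := h.eq_zero_of_thetaS (by
    rw [← map_nsmul, ← natCast_zsmul, (Submodule.mem_torsionBy_iff _ _).mp P.2,
      _root_.map_zero]) h2
  apply Subtype.ext
  apply (toW W).symm.injective
  rw [h3]
  exact (_root_.map_zero _).symm

end Main

section Congr

local notation "Qbar" => AlgebraicClosure ℚ

theorem exists_ne_zero_torsion (W : WeierstrassCurve ℤ) (hΔ : W.Δ ≠ 0) :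
    ∃ x : Submodule.torsionBy ℤ ((W.map (Int.castRingHom ℚ))⁄Qbar).Point ((3 : ℕ) : ℤ), x ≠ 0 := by
  have hell := EllTorsion.isElliptic_map_of_Δ_ne_zero hΔ
  have hcard := EllTorsion.card_torsionBy_rat (W.map (Int.castRingHom ℚ)) (n := 3) (by norm_num)
  by_contra hcon
  push Not at hcon
  have h1 : Subsingleton
      (Submodule.torsionBy ℤ ((W.map (Int.castRingHom ℚ))⁄Qbar).Point ((3 : ℕ) : ℤ)) :=
    ⟨fun x y => (hcon x).trans (hcon y).symm⟩
  have h2 := Finite.card_le_one_iff_subsingleton.mpr h1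
  rw [hcard] at h2
  norm_num at h2

/-- **The congruence modulo `3`.** -/
theorem three_dvd_apOfModel_sub {W W' : WeierstrassCurve ℤ} (hΔ : W.Δ ≠ 0) {u w : ℚ}
    (h : IsMember (W.map (Int.castRingHom ℚ)) (W'.map (Int.castRingHom ℚ)) u w)
    {ℓ : ℕ} (hℓ : ℓ.Prime) (hW : W.IsGoodPrimeFor ℓ) (hW' : W'.IsGoodPrimeFor ℓ) (hℓ3 : ℓ ≠ 3) :
    (3 : ℤ) ∣ W'.apOfModel ℓ - W.apOfModel ℓ := by
  obtain ⟨A, hA⟩ := FrobExists.exists_liesOverPrime Qbar hℓ
  obtain ⟨σ, hσ⟩ := FrobExists.exists_isFrobeniusAt A hℓ hA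
  have hn : ¬ ℓ ∣ 3 := fun hd => hℓ3 ((Nat.prime_dvd_prime_iff_eq hℓ Nat.prime_three).mp hd)
  obtain ⟨x, hx⟩ := exists_ne_zero_torsion W hΔ
  have h1 := EllRed.cayley_frob W hℓ hW hn A hA hσ x
  have h2 := EllRed.cayley_frob W' hℓ hW' hn A hA hσ (h.Theta x)
  have h3 := congrArg h.Theta h1
  rw [_root_.map_add, map_sub, map_zsmul, map_zsmul, h.Theta_smul, h.Theta_smul,
    _root_.map_zero] at h3
  set y := σ • h.Theta x with hy
  have h4 : (W'.apOfModel ℓ - W.apOfModel ℓ) • y = 0 := by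
    rw [sub_smul]
    have h5 : W'.apOfModel ℓ • y = σ • y + (ℓ : ℤ) • h.Theta x := by
      rw [← sub_eq_zero]
      rw [← neg_eq_zero, ← h2]
      abel
    have h6 : W.apOfModel ℓ • y = σ • y + (ℓ : ℤ) • h.Theta x := by
      rw [← sub_eq_zero]
      rw [← neg_eq_zero, ← h3]
      abel
    rw [h5, h6, sub_self]
  have hy0 : y ≠ 0 := by
    intro h0
    apply hx
    apply h.Theta_injective
    rw [_root_.map_zero]
    exact (smul_eq_zero_iff_eq σ).mp h0
  have h3y : (3 : ℤ) • y = 0 := by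
    apply Subtype.ext
    exact (Submodule.mem_torsionBy_iff _ _).mp y.2
  by_contra hnd
  have hcop : IsCoprime (3 : ℤ) (W'.apOfModel ℓ - W.apOfModel ℓ) :=
    (Prime.coprime_iff_not_dvd (by norm_num : Prime (3 : ℤ))).mpr hnd
  obtain ⟨r, s, hrs⟩ := hcop
  apply hy0
  calc y = (r * 3 + s * (W'.apOfModel ℓ - W.apOfModel ℓ)) • y := by rw [hrs, one_smul]
    _ = 0 := by rw [add_smul, mul_smul, mul_smul, h3y, h4, smul_zero, smul_zero, add_zero]

end Congr

end Fermat.Agent.P2.Cong3
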