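import Fermat.Agent.P2.Cong3Pt

set_option autoImplicit false
set_option linter.unusedSectionVars false

/-!
# The Hesse pencil: the isomorphism on points of order `3` is additive
-/

open WeierstrassCurve WeierstrassCurve.Affine WeierstrassCurve.Affine.Point

namespace Fermat.Agent.P2.Cong3

section

variable {K : Type*} [Field K] (V V' : WeierstrassCurve K) (a b u w : K)

open Classical in
/-- The map `(x, y) ↦ (pN/pT, pD y/pT)`. -/
noncomputable def theta : V.toAffine.Point → V'.toAffine.Point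
  | .zero => .zero
  | .some x y _ =>
    if h' : V'.toAffine.Nonsingular (pN a b u w x / pT u w x) (pD a b u w * y / pT u w x) then
      .some _ _ h' else .zero

variable {V V' a b u w}

@[simp] theorem theta_zero : theta V V' a b u w 0 = 0 := rfl

section Basic

variable (hV : IsShort V a b) (hV' : IsShort V' (pA a b u w) (pB a b u w)) (hΔ : V'.Δ ≠ 0)

include hV' hΔ

theorem D_ne : pD a b u w ≠ 0 := by
  intro h
  apply hΔ
  rw [hV'.Δ_eq, disc_key, h]
  ring

theorem T_ne {x : K} (hx : psi a b x = 0) : pT u w x ≠ 0 := by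
  intro h
  have h1 := D_of_T a b u w x
  rw [hx, h] at h1
  exact D_ne hV' hΔ (by linear_combination -h1)

include hV

theorem image_equation {x y : K} (h : V.toAffine.Nonsingular x y) (hx : psi a b x = 0) :
    (pD a b u w * y / pT u w x) ^ 2 = (pN a b u w x / pT u w x) ^ 3 +
      pA a b u w * (pN a b u w x / pT u w x) + pB a b u w := by
  have hT := T_ne hV' hΔ hx
  have h1 := hV.equation_iff.mp h.1
  have h2 := eq_key a b u w x
  rw [hx, mul_zero] at h2
  field_simp
  rw [h1]
  linear_combination h2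

theorem image_nonsingular {x y : K} (h : V.toAffine.Nonsingular x y) (hx : psi a b x = 0) :
    V'.toAffine.Nonsingular (pN a b u w x / pT u w x) (pD a b u w * y / pT u w x) :=
  (equation_iff_nonsingular_of_Δ_ne_zero hΔ).mp
    (hV'.equation_iff.mpr (image_equation hV hV' hΔ h hx))

theorem theta_some {x y : K} (h : V.toAffine.Nonsingular x y) (hx : psi a b x = 0) :
    theta V V' a b u w (.some x y h) = .some (pN a b u w x / pT u w x)
      (pD a b u w * y / pT u w x) (image_nonsingular hV hV' hΔ h hx) := by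
  rw [theta, dif_pos (image_nonsingular hV hV' hΔ h hx)]

omit hV in
theorem image_psi {x : K} (hx : psi a b x = 0) :
    psi (pA a b u w) (pB a b u w) (pN a b u w x / pT u w x) = 0 := by
  have hT := T_ne hV' hΔ hx
  have h2 := psi_key a b u w x
  rw [hx, mul_zero] at h2
  rw [psi]
  field_simp
  linear_combination h2

omit hV in
theorem image_ne {x x' : K} (hx : psi a b x = 0) (hx' : psi a b x' = 0) (h : x ≠ x') :
    pN a b u w x / pT u w x ≠ pN a b u w x' / pT u w x' := by
  have hT := T_ne hV' hΔ hx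
  have hT' := T_ne hV' hΔ hx'
  rw [Ne, div_eq_div_iff hT hT', ← sub_eq_zero, N_sub]
  exact mul_ne_zero (D_ne hV' hΔ) (sub_ne_zero.mpr h)

end Basic

variable [DecidableEq K] (h2 : (2 : K) ≠ 0)
  (hV : IsShort V a b) (hV' : IsShort V' (pA a b u w) (pB a b u w)) (hΔ : V'.Δ ≠ 0)

include hV hV' hΔ h2

theorem theta_torsion {P : V.toAffine.Point} (hP : 3 • P = 0) :
    3 • theta V V' a b u w P = 0 := by
  rcases P with _ | ⟨x, y, h⟩
  · exact nsmul_zero 3
  · have hx := (hV.three_torsion_iff h2 h).mp hP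
    rw [theta_some hV hV' hΔ h hx, hV'.three_torsion_iff h2]
    exact image_psi hV' hΔ hx

theorem theta_neg {P : V.toAffine.Point} (hP : 3 • P = 0) :
    theta V V' a b u w (-P) = - theta V V' a b u w P := by
  rcases P with _ | ⟨x, y, h⟩
  · rfl
  · have hx := (hV.three_torsion_iff h2 h).mp hP
    rw [Point.neg_some, theta_some hV hV' hΔ _ hx, theta_some hV hV' hΔ h hx, Point.neg_some,
      Point.some.injEq, hV.negY, hV'.negY]
    refine ⟨rfl, ?_⟩
    ring

theorem theta_add {P Q : V.toAffine.Point} (hP : 3 • P = 0) (hQ : 3 • Q = 0) :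
    theta V V' a b u w (P + Q) = theta V V' a b u w P + theta V V' a b u w Q := by
  rcases P with _ | ⟨x₁, y₁, n₁⟩
  · change theta V V' a b u w (0 + Q) = 0 + theta V V' a b u w Q
    rw [zero_add, zero_add]
  rcases Q with _ | ⟨x₂, y₂, n₂⟩
  · change theta V V' a b u w (_ + 0) = theta V V' a b u w _ + 0
    rw [add_zero, add_zero]
  have p₁ := (hV.three_torsion_iff h2 n₁).mp hP
  have p₂ := (hV.three_torsion_iff h2 n₂).mp hQ
  by_cases hx : x₁ = x₂
  · subst hx
    rcases (X_eq_iff (h₁ := n₁) (h₂ := n₂)).mp rfl with h | h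
    · rw [← h]
      have e1 := (three_nsmul_eq_zero_iff hV).mp hP
      have e2 := (three_nsmul_eq_zero_iff hV').mp (theta_torsion h2 hV hV' hΔ hP)
      rw [e1, theta_neg h2 hV hV' hΔ hP, e2]
    · have e3 : (Point.some x₁ y₂ n₂ : V.toAffine.Point) = - Point.some x₁ y₁ n₁ := by
        rw [h, neg_neg]
      rw [e3, theta_neg h2 hV hV' hΔ hP, add_neg_cancel, add_neg_cancel]
      rfl
  · obtain ⟨n₃, e⟩ := hV.add_of_ne n₁ n₂ hx
    have hR : 3 • (Point.some x₁ y₁ n₁ + Point.some x₂ y₂ n₂ : V.toAffine.Point) = 0 := by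
      rw [nsmul_add, hP, hQ, add_zero]
    have hPQ : (Point.some x₁ y₁ n₁ : V.toAffine.Point) + Point.some x₂ y₂ n₂ ≠
        -(Point.some x₁ y₁ n₁) := by
      intro h
      have h4 : (Point.some x₂ y₂ n₂ : V.toAffine.Point) = Point.some x₁ y₁ n₁ := by
        have e1 := (three_nsmul_eq_zero_iff hV).mp hP
        rw [← e1] at h
        exact add_left_cancel h
      rw [Point.some.injEq] at h4
      exact hx h4.1.symm
    have hPQ' : (Point.some x₁ y₁ n₁ : V.toAffine.Point) + Point.some x₂ y₂ n₂ ≠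
        -(Point.some x₂ y₂ n₂) := by
      intro h
      have h4 : (Point.some x₁ y₁ n₁ : V.toAffine.Point) = Point.some x₂ y₂ n₂ := by
        have e1 := (three_nsmul_eq_zero_iff hV).mp hQ
        rw [← e1] at h
        exact add_right_cancel h
      rw [Point.some.injEq] at h4
      exact hx h4.1
    have hPQ1 : (Point.some x₁ y₁ n₁ : V.toAffine.Point) + Point.some x₂ y₂ n₂ ≠
        Point.some x₁ y₁ n₁ := by
      intro h
      exact Point.some_ne_zero _ (add_eq_left.mp h)
    have hPQ2 : (Point.some x₁ y₁ n₁ : V.toAffine.Point) + Point.some x₂ y₂ n₂ ≠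
        Point.some x₂ y₂ n₂ := by
      intro h
      exact Point.some_ne_zero _ (add_eq_right.mp h)
    rw [e] at hR hPQ hPQ' hPQ1 hPQ2 ⊢
    set l := (y₁ - y₂) / (x₁ - x₂) with hl
    set x₃ := l ^ 2 - x₁ - x₂ with hx₃
    set y₃ := -(l * (x₃ - x₁) + y₁) with hy₃
    have hly : y₁ - y₂ = l * (x₁ - x₂) := by
      rw [hl, div_mul_cancel₀ _ (sub_ne_zero.mpr hx)]
    have p₃ := (hV.three_torsion_iff h2 n₃).mp hR
    have h13 : x₁ ≠ x₃ := by
      intro h
      rcases (X_eq_iff (h₁ := n₁) (h₂ := n₃)).mp h with h5 | h5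
      · exact hPQ1 h5.symm
      · exact hPQ (by rw [h5, neg_neg])
    have h23 : x₂ ≠ x₃ := by
      intro h
      rcases (X_eq_iff (h₁ := n₂) (h₂ := n₃)).mp h with h5 | h5
      · exact hPQ2 h5.symm
      · exact hPQ' (by rw [h5, neg_neg])
    rw [theta_some hV hV' hΔ n₁ p₁, theta_some hV hV' hΔ n₂ p₂, theta_some hV hV' hΔ n₃ p₃]
    have q₁ := image_equation hV hV' hΔ n₁ p₁
    have q₂ := image_equation hV hV' hΔ n₂ p₂
    have q₃ := image_equation hV hV' hΔ n₃ p₃
    have X12 := image_ne hV' hΔ p₁ p₂ hx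
    have X13 := image_ne hV' hΔ p₁ p₃ h13
    have X23 := image_ne hV' hΔ p₂ p₃ h23
    have T1 := T_ne hV' hΔ p₁
    have T2 := T_ne hV' hΔ p₂
    have T3 := T_ne hV' hΔ p₃
    have hD := D_ne hV' hΔ
    obtain ⟨n', e'⟩ := hV'.add_of_ne (image_nonsingular hV hV' hΔ n₁ p₁)
      (image_nonsingular hV hV' hΔ n₂ p₂) X12
    rw [e']
    -- the slope of the image line
    set s := u * l + 3 * w * (y₁ - l * x₁) with hs
    have Xsub : ∀ z z' : K, psi a b z = 0 → psi a b z' = 0 →
        pN a b u w z / pT u w z - pN a b u w z' / pT u w z' =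
          pD a b u w * (z - z') / (pT u w z * pT u w z') := by
      intro z z' hz hz'
      rw [div_sub_div _ _ (T_ne hV' hΔ hz) (T_ne hV' hΔ hz')]
      congr 1
      linear_combination N_sub a b u w z z'
    have slope12 : (pD a b u w * y₁ / pT u w x₁ - pD a b u w * y₂ / pT u w x₂) /
        (pN a b u w x₁ / pT u w x₁ - pN a b u w x₂ / pT u w x₂) = s := by
      rw [div_eq_iff (sub_ne_zero.mpr X12), Xsub x₁ x₂ p₁ p₂, div_sub_div _ _ T1 T2, mul_div_assoc',
        div_left_inj' (mul_ne_zero T1 T2), hs]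
      simp only [pT]
      linear_combination (pD a b u w * (u - 3 * w * x₁)) * hly
    have slope13 : -(pD a b u w * y₃ / pT u w x₃) = s * (pN a b u w x₃ / pT u w x₃ -
        pN a b u w x₁ / pT u w x₁) + pD a b u w * y₁ / pT u w x₁ := by
      rw [Xsub x₃ x₁ p₃ p₁, hs, hy₃]
      field_simp
      simp only [pT]
      ring
    have slope12' : pD a b u w * y₂ / pT u w x₂ = s * (pN a b u w x₂ / pT u w x₂ -
        pN a b u w x₁ / pT u w x₁) + pD a b u w * y₁ / pT u w x₁ := by
      have h9 := (div_eq_iff (sub_ne_zero.mpr X12)).mp slope12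
      linear_combination -h9
    have hsum := vieta (A := pA a b u w) (B := pB a b u w) (l := s)
      (n := pD a b u w * y₁ / pT u w x₁ - s * (pN a b u w x₁ / pT u w x₁))
      X12 X13 X23 q₁ q₂ (Y₃ := -(pD a b u w * y₃ / pT u w x₃)) (by rw [neg_sq]; exact q₃)
      (by ring) (by rw [slope12']; ring) (by rw [slope13]; ring)
    rw [Point.some.injEq, slope12]
    have hX3 : pN a b u w x₃ / pT u w x₃ = s ^ 2 - pN a b u w x₁ / pT u w x₁ -
        pN a b u w x₂ / pT u w x₂ := by rw [← hsum]; ring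
    refine ⟨hX3, ?_⟩
    rw [← hX3, ← slope13, neg_neg]

end

end Fermat.Agent.P2.Cong3
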