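import Fermat.Agent.P2.Cong3Alg

set_option autoImplicit false
set_option linter.unusedSectionVars false

/-!
# The Hesse pencil: the isomorphism on points of order `3`
-/

open WeierstrassCurve WeierstrassCurve.Affine WeierstrassCurve.Affine.Point

namespace Fermat.Agent.P2.Cong3

/-- `V` is the curve `y² = x³ + a x + b`. -/
structure IsShort {R : Type*} [CommRing R] (V : WeierstrassCurve R) (a b : R) : Prop where
  a₁ : V.a₁ = 0
  a₂ : V.a₂ = 0
  a₃ : V.a₃ = 0
  a₄ : V.a₄ = a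
  a₆ : V.a₆ = b

section

variable {K : Type*} [Field K] {V : WeierstrassCurve K} {a b : K} (hV : IsShort V a b)

include hV

theorem IsShort.equation_iff {x y : K} : V.toAffine.Equation x y ↔ y ^ 2 = x ^ 3 + a * x + b := by
  rw [Affine.equation_iff, hV.a₁, hV.a₂, hV.a₃, hV.a₄, hV.a₆]
  constructor
  · intro h; linear_combination h
  · intro h; linear_combination h

theorem IsShort.Δ_eq : V.Δ = -16 * (4 * a ^ 3 + 27 * b ^ 2) := by
  rw [WeierstrassCurve.Δ, WeierstrassCurve.b₂, WeierstrassCurve.b₄, WeierstrassCurve.b₆,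
    WeierstrassCurve.b₈, hV.a₁, hV.a₂, hV.a₃, hV.a₄, hV.a₆]
  ring

theorem IsShort.negY {x y : K} : V.toAffine.negY x y = -y := by
  rw [Affine.negY, hV.a₁, hV.a₃]; ring

theorem IsShort.nonsingular_ne {x y : K} (h : V.toAffine.Nonsingular x y) :
    y = 0 → 3 * x ^ 2 + a ≠ 0 := by
  rintro rfl
  have h2 := (Affine.nonsingular_iff' x 0).mp h |>.2
  rw [hV.a₁, hV.a₂, hV.a₃, hV.a₄] at h2
  intro h3
  rcases h2 with h2 | h2
  · apply h2; linear_combination -h3
  · apply h2; ring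

variable [DecidableEq K]

/-- Addition formula for points with distinct abscissas. -/
theorem IsShort.add_of_ne {x₁ y₁ x₂ y₂ : K} (h₁ : V.toAffine.Nonsingular x₁ y₁)
    (h₂ : V.toAffine.Nonsingular x₂ y₂) (hx : x₁ ≠ x₂) :
    ∃ h, (Point.some x₁ y₁ h₁ + Point.some x₂ y₂ h₂ : V.toAffine.Point) =
      Point.some (((y₁ - y₂) / (x₁ - x₂)) ^ 2 - x₁ - x₂)
        (-(((y₁ - y₂) / (x₁ - x₂)) *
          (((y₁ - y₂) / (x₁ - x₂)) ^ 2 - x₁ - x₂ - x₁) + y₁)) h := by
  have hxy : ¬(x₁ = x₂ ∧ y₁ = V.toAffine.negY x₂ y₂) := fun h => hx h.1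
  have e1 := Point.add_some hxy (h₁ := h₁) (h₂ := h₂)
  have hs : V.toAffine.slope x₁ x₂ y₁ y₂ = (y₁ - y₂) / (x₁ - x₂) := slope_of_X_ne hx
  have e2 : V.toAffine.addX x₁ x₂ (V.toAffine.slope x₁ x₂ y₁ y₂) =
      ((y₁ - y₂) / (x₁ - x₂)) ^ 2 - x₁ - x₂ := by
    rw [hs, addX, hV.a₁, hV.a₂]; ring
  have e3 : V.toAffine.addY x₁ x₂ y₁ (V.toAffine.slope x₁ x₂ y₁ y₂) =
      -(((y₁ - y₂) / (x₁ - x₂)) *
          (((y₁ - y₂) / (x₁ - x₂)) ^ 2 - x₁ - x₂ - x₁) + y₁) := by
    rw [addY, negAddY, hV.negY, e2, hs]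
  have hn := nonsingular_add h₁ h₂ hxy
  rw [e2, e3] at hn
  refine ⟨hn, ?_⟩
  rw [e1, Point.some.injEq]
  exact ⟨e2, e3⟩

/-- Duplication formula. -/
theorem IsShort.dup (h2 : (2 : K) ≠ 0) {x y : K} (h : V.toAffine.Nonsingular x y) (hy : y ≠ 0) :
    ∃ h', (Point.some x y h + Point.some x y h : V.toAffine.Point) =
      Point.some (((3 * x ^ 2 + a) / (2 * y)) ^ 2 - 2 * x)
        (-(((3 * x ^ 2 + a) / (2 * y)) *
          (((3 * x ^ 2 + a) / (2 * y)) ^ 2 - 2 * x - x) + y)) h' := by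
  have hne : y ≠ V.toAffine.negY x y := by
    rw [hV.negY]
    intro h
    have : 2 * y = 0 := by linear_combination h
    exact (mul_ne_zero h2 hy) this
  have hxy : ¬(x = x ∧ y = V.toAffine.negY x y) := fun h => hne h.2
  have e1 := Point.add_some hxy (h₁ := h) (h₂ := h)
  have hs : V.toAffine.slope x x y y = (3 * x ^ 2 + a) / (2 * y) := by
    rw [slope_of_Y_ne rfl hne, hV.negY, hV.a₁, hV.a₂, hV.a₄]
    congr 1 <;> ring
  have e2 : V.toAffine.addX x x (V.toAffine.slope x x y y) =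
      ((3 * x ^ 2 + a) / (2 * y)) ^ 2 - 2 * x := by
    rw [hs, addX, hV.a₁, hV.a₂]; ring
  have e3 : V.toAffine.addY x x y (V.toAffine.slope x x y y) =
      -(((3 * x ^ 2 + a) / (2 * y)) *
          (((3 * x ^ 2 + a) / (2 * y)) ^ 2 - 2 * x - x) + y) := by
    rw [addY, negAddY, hV.negY, e2, hs]
  have hn := nonsingular_add h h hxy
  rw [e2, e3] at hn
  refine ⟨hn, ?_⟩
  rw [e1, Point.some.injEq]
  exact ⟨e2, e3⟩

theorem three_nsmul_eq_zero_iff {P : V.toAffine.Point} : 3 • P = 0 ↔ P + P = -P := by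
  rw [eq_neg_iff_add_eq_zero]
  have : 3 • P = P + P + P := by rw [succ_nsmul, two_nsmul]
  rw [this]

theorem IsShort.psi_eq {x y : K} (h : V.toAffine.Nonsingular x y) :
    psi a b x = 12 * x * y ^ 2 - (3 * x ^ 2 + a) ^ 2 := by
  rw [hV.equation_iff.mp h.1, psi]; ring

/-- Points of order 3 are the zeros of the `3`-division polynomial. -/
theorem IsShort.three_torsion_iff (h2 : (2 : K) ≠ 0) {x y : K} (h : V.toAffine.Nonsingular x y) :
    3 • (Point.some x y h : V.toAffine.Point) = 0 ↔ psi a b x = 0 := by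
  rw [three_nsmul_eq_zero_iff hV, hV.psi_eq h]
  by_cases hy : y = 0
  · have h1 : -(Point.some x y h : V.toAffine.Point) = Point.some x y h := by
      rw [Point.neg_some, Point.some.injEq]
      exact ⟨rfl, by rw [hV.negY, hy, _root_.neg_zero]⟩
    constructor
    · intro h3
      exfalso
      have h4 : (Point.some x y h : V.toAffine.Point) = 0 := by
        have h5 : (Point.some x y h : V.toAffine.Point) + Point.some x y h = 0 := by
          nth_rewrite 1 [← h1]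
          exact neg_add_cancel _
        rw [h5] at h3
        exact neg_eq_zero.mp h3.symm
      exact Point.some_ne_zero _ h4
    · intro h3
      exfalso
      have h4 := hV.nonsingular_ne h hy
      rw [hy] at h3
      exact pow_ne_zero 2 h4 (by linear_combination -h3)
  · obtain ⟨h', e⟩ := hV.dup h2 h hy
    rw [e, Point.neg_some, Point.some.injEq]
    constructor
    · rintro ⟨h3, -⟩
      have h4 : ((3 * x ^ 2 + a) / (2 * y)) ^ 2 = 3 * x := by linear_combination h3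
      rw [div_pow, div_eq_iff (pow_ne_zero 2 (mul_ne_zero h2 hy))] at h4
      linear_combination -h4
    · intro h3
      have h4 : ((3 * x ^ 2 + a) / (2 * y)) ^ 2 = 3 * x := by
        rw [div_pow, div_eq_iff (pow_ne_zero 2 (mul_ne_zero h2 hy))]
        linear_combination -h3
      refine ⟨by rw [h4]; ring, ?_⟩
      rw [h4, hV.negY]
      ring

end

section Vieta

variable {K : Type*} [Field K]

theorem vieta {A B l n X₁ X₂ X₃ Y₁ Y₂ Y₃ : K} (h12 : X₁ ≠ X₂) (h13 : X₁ ≠ X₃) (h23 : X₂ ≠ X₃)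
    (e1 : Y₁ ^ 2 = X₁ ^ 3 + A * X₁ + B) (e2 : Y₂ ^ 2 = X₂ ^ 3 + A * X₂ + B)
    (e3 : Y₃ ^ 2 = X₃ ^ 3 + A * X₃ + B) (l1 : Y₁ = l * X₁ + n) (l2 : Y₂ = l * X₂ + n)
    (l3 : Y₃ = l * X₃ + n) : X₁ + X₂ + X₃ = l ^ 2 := by
  subst l1 l2 l3
  have d12 : X₁ ^ 2 + X₁ * X₂ + X₂ ^ 2 + A = l ^ 2 * (X₁ + X₂) + 2 * l * n := by
    apply mul_left_cancel₀ (sub_ne_zero.mpr h12)
    linear_combination e2 - e1
  have d13 : X₁ ^ 2 + X₁ * X₃ + X₃ ^ 2 + A = l ^ 2 * (X₁ + X₃) + 2 * l * n := by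
    apply mul_left_cancel₀ (sub_ne_zero.mpr h13)
    linear_combination e3 - e1
  apply mul_left_cancel₀ (sub_ne_zero.mpr h23)
  linear_combination d12 - d13

end Vieta

end Fermat.Agent.P2.Cong3
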