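import Fermat.Agent.P2.Assembly
import Fermat.Agent.P2.Block1
import Fermat.Agent.P2.Block2
import Fermat.Agent.P2.Ell.Main
import Fermat.Agent.P2.End.Main
import Fermat.Agent.P2.Sys.Main
import Fermat.Agent.P2.Mazur2k.Final

/-!
# Route P2: final theorems, unconditionally
-/

set_option autoImplicit false

namespace Fermat.Agent.P2

/-- The auxiliary curves are modular. -/
theorem curveModular_final : CurveModular :=
  curveModular Ell.block8 block2Out Sys.block5Out block6Out End.block7b

/-- **Output of route P2.** -/
theorem p2_final : P2Stmt := p2Stmt block1Out curveModular_final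

end Fermat.Agent.P2
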